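import Fermat.Prelude.Def_GaloisRep_CompletionBridge
import Fermat.Agent.Local.Place
import Fermat.Agent.RT.Frobenius

/-!
# The Galois group of `ℚ_q` is the decomposition group of its place

The algebraic numbers are dense in `PadicAlgCl q`, so restriction is injective; its image is closed
and has the fixed field `ℚ̄ ∩ ℚ_q`, which the decomposition group fixes by approximation.
-/

set_option autoImplicit false

open Polynomial
open scoped NNReal

namespace FermatAgent.Duality.Local

noncomputable section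

local notation "Qb" => AlgebraicClosure ℚ
local notation "GQ" => AlgebraicClosure ℚ ≃ₐ[ℚ] AlgebraicClosure ℚ

attribute [local instance] FermatAgent.RT.isGalois_algClosureRat

variable (q : ℕ) [Fact q.Prime]

lemma exists_rat_near (c : ℚ_[q]) {δ : ℝ} (hδ : 0 < δ) : ∃ r : ℚ, ‖c - (r : ℚ_[q])‖ < δ := by
  obtain ⟨r, hr⟩ := Padic.rat_dense q c hδ
  exact ⟨r, hr⟩

/-- The algebraic numbers are dense. -/
theorem exists_algebraic_near (α : PadicAlgCl q) {ε : ℝ} (hε : 0 < ε) :
    ∃ x : Qb, ‖padicEmbedding q x - α‖ < ε := by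
  have hint : IsIntegral ℚ_[q] α := (PadicAlgCl.isAlgebraic q).isAlgebraic α |>.isIntegral
  set f := minpoly ℚ_[q] α
  set n := f.natDegree
  have hn : 0 < n := minpoly.natDegree_pos hint
  have hε' : 0 < ε ^ n := pow_pos hε n
  set B := max 1 ‖α‖ ^ n
  have hB : 0 < B := pow_pos (lt_of_lt_of_le one_pos (le_max_left _ _)) n
  have hr : ∀ i, ∃ r : ℚ, ‖f.coeff i - (r : ℚ_[q])‖ < ε ^ n / B := fun i =>
    exists_rat_near q _ (div_pos hε' hB)
  choose r hr using hr
  let g : ℚ[X] := X ^ n + ∑ i ∈ Finset.range n, C (r i) * X ^ i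
  have hdeg : (∑ i ∈ Finset.range n, C (r i) * X ^ i : ℚ[X]).degree < n := by
    refine lt_of_le_of_lt (Polynomial.degree_sum_le _ _) ((Finset.sup_lt_iff (by simp)).2 fun i hi => ?_)
    exact lt_of_le_of_lt (degree_C_mul_X_pow_le _ _) (by exact_mod_cast Finset.mem_range.1 hi)
  have hg : g.Monic := monic_X_pow_add hdeg
  have hgn : g.natDegree = n := by
    show (X ^ n + _ : ℚ[X]).natDegree = n
    rw [natDegree_add_eq_left_of_degree_lt, natDegree_X_pow]
    rwa [degree_X_pow]
  have hsplit : (g.map (algebraMap ℚ Qb)).Splits := IsAlgClosed.splits _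
  have heval : aeval α g =
      ((g.map (algebraMap ℚ Qb)).roots.map fun x => α - padicEmbedding q x).prod := by
    have h1 := hsplit.eq_prod_roots_of_monic (hg.map _)
    have h2 := congrArg (Polynomial.eval₂ (padicEmbedding q).toRingHom α) h1
    rw [Polynomial.eval₂_multiset_prod, Multiset.map_map] at h2
    rw [Polynomial.eval₂_map] at h2
    simp only [Function.comp_def, eval₂_sub, eval₂_X, eval₂_C] at h2
    refine Eq.trans ?_ h2
    rw [aeval_def]
    congr 1
    exact (padicEmbedding q).comp_algebraMap.symm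
  by_contra hno
  push Not at hno
  have hcard : Multiset.card (g.map (algebraMap ℚ Qb)).roots = n := by
    rw [← hsplit.natDegree_eq_card_roots, natDegree_map, hgn]
  have hlow : ε ^ n ≤ ‖aeval α g‖ := by
    rw [heval, ← hcard]
    induction (g.map (algebraMap ℚ Qb)).roots using Multiset.induction_on with
    | empty => simp
    | cons a s ih =>
      rw [Multiset.card_cons, Multiset.map_cons, Multiset.prod_cons, norm_mul, pow_succ']
      refine mul_le_mul ?_ ih (by positivity) (norm_nonneg _)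
      rw [norm_sub_rev]
      exact hno a
  have hup : ‖aeval α g‖ < ε ^ n := by
    have h0 : aeval α f = 0 := minpoly.aeval ℚ_[q] α
    have hf : f = X ^ n + ∑ i ∈ Finset.range n, C (f.coeff i) * X ^ i :=
      (minpoly.monic hint).as_sum
    have e : aeval α g = ∑ i ∈ Finset.range n,
        algebraMap ℚ_[q] (PadicAlgCl q) ((r i : ℚ_[q]) - f.coeff i) * α ^ i := by
      conv_lhs => rw [← sub_zero (aeval α g), ← h0, hf]
      simp only [g, map_add, map_sum, map_mul, map_pow, aeval_X, aeval_C, add_sub_add_left_eq_sub,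
        ← Finset.sum_sub_distrib, ← sub_mul, map_sub]
      refine Finset.sum_congr rfl fun i _ => ?_
      congr 2
    rw [e]
    refine lt_of_le_of_lt (IsUltrametricDist.norm_sum_le_of_forall_le_of_nonempty
      (C := (Finset.range n).sup' ⟨0, Finset.mem_range.2 hn⟩ fun i => ‖(r i : ℚ_[q]) - f.coeff i‖ * B)
      ⟨0, Finset.mem_range.2 hn⟩ fun i hi => ?_) ?_
    · rw [norm_mul, norm_pow, norm_algebraMap' (PadicAlgCl q)]
      refine le_trans (mul_le_mul_of_nonneg_left ?_ (norm_nonneg _))
        (Finset.le_sup' (fun i => ‖(r i : ℚ_[q]) - f.coeff i‖ * B) hi)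
      exact (pow_le_pow_left₀ (norm_nonneg _) (le_max_right 1 _) i).trans
        (pow_le_pow_right₀ (le_max_left _ _) (Finset.mem_range.1 hi).le)
    · refine (Finset.sup'_lt_iff _).2 fun i _ => ?_
      rw [norm_sub_rev, ← lt_div_iff₀ hB]
      exact hr i
  exact absurd hlow (not_le.2 hup)

/-- Restriction to the algebraic numbers is injective. -/
theorem localGaloisToGlobal_injective : Function.Injective (localGaloisToGlobal q) := by
  rw [injective_iff_map_eq_one]
  intro τ hτ
  refine AlgEquiv.ext fun α => sub_eq_zero.1 (norm_eq_zero.1 (le_antisymm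
    (le_of_forall_gt_imp_ge_of_dense fun ε hε => ?_) (norm_nonneg _)))
  obtain ⟨x, hx⟩ := exists_algebraic_near q α hε
  have hfix : τ (padicEmbedding q x) = padicEmbedding q x := by
    rw [← padicEmbedding_localGaloisToGlobal, hτ, AlgEquiv.one_apply]
  have hiso : ∀ y : PadicAlgCl q, ‖τ y‖ = ‖y‖ := fun y =>
    congrArg NNReal.toReal (nnnorm_padicAlgCl_algEquiv q τ y)
  rw [show τ α - (1 : PadicAlgCl q ≃ₐ[ℚ_[q]] PadicAlgCl q) α
    = τ (α - padicEmbedding q x) + (padicEmbedding q x - α) by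
      rw [map_sub, hfix, AlgEquiv.one_apply]; ring]
  refine (IsUltrametricDist.norm_add_le_max _ _).trans (max_le ?_ hx.le)
  rw [hiso, norm_sub_rev]
  exact hx.le

theorem continuous_localGaloisToGlobal : Continuous (localGaloisToGlobal q) := by
  refine continuous_of_continuousAt_one _ ?_
  rw [ContinuousAt, map_one, (galGroupBasis ℚ Qb).nhds_one_hasBasis.tendsto_right_iff]
  rintro _ ⟨_, ⟨F, hF, rfl⟩, rfl⟩
  have : FiniteDimensional ℚ F := hF
  let b := Module.finBasis ℚ F
  let M : IntermediateField ℚ_[q] (PadicAlgCl q) :=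
    IntermediateField.adjoin ℚ_[q] (Set.range fun i => padicEmbedding q ((b i : F) : Qb))
  have : FiniteDimensional ℚ_[q] M := IntermediateField.finiteDimensional_adjoin fun x _ =>
    ((PadicAlgCl.isAlgebraic q).isAlgebraic x).isIntegral
  refine Filter.mem_of_superset (M.fixingSubgroup_isOpen.mem_nhds (one_mem _)) fun τ hτ => ?_
  intro x
  show localGaloisToGlobal q τ (x : Qb) = x
  have hlin : (((localGaloisToGlobal q τ : GQ) : Qb →ₐ[ℚ] Qb).comp F.val).toLinearMap =
      F.val.toLinearMap := b.ext fun i => by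
    refine (padicEmbedding q).toRingHom.injective ?_
    show padicEmbedding q (localGaloisToGlobal q τ ((b i : F) : Qb)) =
      padicEmbedding q ((b i : F) : Qb)
    rw [padicEmbedding_localGaloisToGlobal]
    exact hτ ⟨_, IntermediateField.subset_adjoin _ _ ⟨i, rfl⟩⟩
  exact LinearMap.congr_fun hlin x

/-- Elements of the place, multiplied by a power of `q`. -/
lemma norm_decomposition_le {σ : GQ} (hσ : σ ∈ (padicPlace q).decompositionSubgroup ℚ) (N : ℕ)
    {y : Qb} (hy : ‖padicEmbedding q y‖ ≤ ‖(q : PadicAlgCl q)‖ ^ N) :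
    ‖padicEmbedding q (σ y)‖ ≤ ‖(q : PadicAlgCl q)‖ ^ N := by
  have hq0 : (q : Qb) ≠ 0 := Nat.cast_ne_zero.2 (Fact.out : q.Prime).ne_zero
  have hpos : 0 < ‖(q : PadicAlgCl q)‖ ^ N :=
    pow_pos (norm_pos_iff.2 (Nat.cast_ne_zero.2 (Fact.out : q.Prime).ne_zero)) N
  have hmem : y / (q : Qb) ^ N ∈ padicPlace q := by
    rw [mem_padicPlace_iff, ← NNReal.coe_le_coe, coe_nnnorm, NNReal.coe_one, map_div₀, map_pow,
      map_natCast, norm_div, norm_pow, div_le_one hpos]
    exact hy
  have h := (FermatAgent.Local.decomposition_mem_iff hσ _).2 hmem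
  rw [map_div₀, map_pow, map_natCast, mem_padicPlace_iff, ← NNReal.coe_le_coe, coe_nnnorm,
    NNReal.coe_one, map_div₀, map_pow, map_natCast, norm_div, norm_pow, div_le_one hpos] at h
  exact h

theorem range_localGaloisToGlobal :
    (localGaloisToGlobal q).range = (padicPlace q).decompositionSubgroup ℚ := by
  have : IsGalois ℚ_[q] (PadicAlgCl q) :=
    have : Algebra.IsSeparable ℚ_[q] (PadicAlgCl q) := Algebra.IsAlgebraic.isSeparable_of_perfectField
    ⟨⟩
  refine le_antisymm ?_ fun σ hσ => ?_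
  · rintro _ ⟨τ, rfl⟩
    exact localGaloisToGlobal_mem_decompositionSubgroup q τ
  have hclosed : IsClosed ((localGaloisToGlobal q).range : Set GQ) :=
    (isCompact_range (continuous_localGaloisToGlobal q)).isClosed
  have h := InfiniteGalois.fixingSubgroup_fixedField
    (⟨(localGaloisToGlobal q).range, hclosed⟩ : ClosedSubgroup GQ)
  change σ ∈ (⟨(localGaloisToGlobal q).range, hclosed⟩ : ClosedSubgroup GQ).toSubgroup
  rw [← h]
  intro x
  show σ (x : Qb) = x
  have hfix : ∀ τ : PadicAlgCl q ≃ₐ[ℚ_[q]] PadicAlgCl q, τ (padicEmbedding q (x : Qb)) = padicEmbedding q (x : Qb) := fun τ => by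
    rw [← padicEmbedding_localGaloisToGlobal]
    exact congrArg _ (x.2 ⟨_, τ, rfl⟩)
  have hbot : padicEmbedding q (x : Qb) ∈ (⊥ : IntermediateField ℚ_[q] (PadicAlgCl q)) := by
    rw [← InfiniteGalois.fixedField_fixingSubgroup (⊥ : IntermediateField ℚ_[q] (PadicAlgCl q))]
    exact fun τ => hfix τ
  obtain ⟨c, hc⟩ := IntermediateField.mem_bot.1 hbot
  refine (padicEmbedding q).toRingHom.injective (sub_eq_zero.1 (norm_eq_zero.1 (le_antisymm
    (le_of_forall_gt_imp_ge_of_dense fun ε hε => ?_) (norm_nonneg _))))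
  have hq1 : ‖(q : PadicAlgCl q)‖ < 1 := by
    rw [← map_natCast (algebraMap ℚ_[q] (PadicAlgCl q)), norm_algebraMap' (PadicAlgCl q)]
    exact Padic.norm_p_lt_one
  obtain ⟨N, hN⟩ := exists_pow_lt_of_lt_one hε hq1
  have hpos : 0 < ‖(q : PadicAlgCl q)‖ ^ N :=
    pow_pos (norm_pos_iff.2 (Nat.cast_ne_zero.2 (Fact.out : q.Prime).ne_zero)) N
  obtain ⟨r, hr⟩ := exists_rat_near q c hpos
  have h1 : ‖padicEmbedding q ((x : Qb) - (r : Qb))‖ ≤ ‖(q : PadicAlgCl q)‖ ^ N := by
    rw [map_sub, map_ratCast, ← hc, ← map_ratCast (algebraMap ℚ_[q] (PadicAlgCl q)), ← map_sub,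
      norm_algebraMap' (PadicAlgCl q)]
    exact hr.le
  have h2 := norm_decomposition_le q hσ N h1
  show ‖padicEmbedding q (σ (x : Qb)) - padicEmbedding q (x : Qb)‖ ≤ ε
  rw [show padicEmbedding q (σ (x : Qb)) - padicEmbedding q (x : Qb) =
    padicEmbedding q (σ ((x : Qb) - (r : Qb))) + -padicEmbedding q ((x : Qb) - (r : Qb)) by
      simp [map_sub, map_ratCast]]
  refine le_trans ((IsUltrametricDist.norm_add_le_max _ _).trans (max_le h2 ?_)) hN.le
  rw [norm_neg]
  exact h1

theorem padicPlace_liesOverPrime : (padicPlace q).LiesOverPrime q := by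
  have hq0 : (q : Qb) ≠ 0 := Nat.cast_ne_zero.2 (Fact.out : q.Prime).ne_zero
  show (padicPlace q).valuation (q : Qb) < 1
  refine lt_of_not_ge fun h => ?_
  have h1 : (q : Qb)⁻¹ ∈ padicPlace q := by
    rw [← ValuationSubring.valuation_le_one_iff, map_inv₀]
    exact inv_le_one_of_one_le₀ h
  rw [mem_padicPlace_iff, ← NNReal.coe_le_coe, coe_nnnorm, NNReal.coe_one, map_inv₀, map_natCast,
    norm_inv] at h1
  have hq1 : ‖(q : PadicAlgCl q)‖ < 1 := by
    rw [← map_natCast (algebraMap ℚ_[q] (PadicAlgCl q)), norm_algebraMap' (PadicAlgCl q)]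
    exact Padic.norm_p_lt_one
  exact absurd h1 (not_le.2 ((one_lt_inv₀ (norm_pos_iff.2
    (Nat.cast_ne_zero.2 (Fact.out : q.Prime).ne_zero))).2 hq1))

end

end FermatAgent.Duality.Local
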