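import Fermat.Agent.Duality.Local.H2

/-!
# The local facts, assembled
-/

set_option autoImplicit false

namespace FermatAgent.Duality.Local

open Module FermatAgent.Local

noncomputable section

local notation "Qb" => AlgebraicClosure ℚ

namespace LocalCtx

variable {p l : ℕ} [Fact p.Prime] (C : LocalCtx p l)

theorem finite_H1' : Module.Finite (ZMod p) C.H1 := by
  obtain ⟨u₀, hu₀, hne⟩ := C.exists_base
  have : Finite C.H1 := Nat.finite_of_card_ne_zero (by
    rw [C.card_H1 u₀ hu₀ hne]; exact pow_ne_zero _ (Fact.out : p.Prime).ne_zero)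
  exact Module.Finite.of_finite

theorem finrank_H1' :
    finrank (ZMod p) C.H1 = 2 + localDegree p l C.K C.A := by
  obtain ⟨u₀, hu₀, hne⟩ := C.exists_base
  have := C.finite_H1'
  have h := C.card_H1 u₀ hu₀ hne
  rw [Module.natCard_eq_pow_finrank (K := ZMod p), Nat.card_zmod] at h
  exact Nat.pow_right_injective (Fact.out : p.Prime).two_le h

theorem finrank_H2' : finrank (ZMod p) C.H2 = 1 := by
  have h : C.line = ⊤ := eq_top_iff.2 fun z _ => C.mem_line z
  rw [← finrank_top (ZMod p) C.H2, ← h, line, finrank_span_singleton C.baseClass_ne_zero]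

theorem cup_nondegenerate' (x : C.H1)
    (h : ∀ y, cupTriv (ZMod p) (subLevels C.D) x y = 0) : x = 0 := by
  obtain ⟨u₀, hu₀, hne⟩ := C.exists_base
  obtain ⟨a, ha, rfl⟩ := C.exists_kq_eq x
  by_contra hx
  obtain ⟨y, -, hy⟩ := C.exists_symb_ne_zero u₀ hu₀ hne ha hx
  exact hy (h (C.kq y))

theorem finrank_unr :
    finrank (ZMod p) (LinearMap.ker
      (res1 (subLevels C.D) (triv (ZMod p) C.D) (localInertia C.K C.A))) = 1 := by
  obtain ⟨u₀, hu₀, hne⟩ := C.exists_base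
  refine finrank_eq_one_iff'.2 ⟨⟨C.kq u₀, C.unr_of_prin_crit hu₀⟩,
    fun h => hne (congrArg Subtype.val h), fun w => ?_⟩
  obtain ⟨c, hc⟩ := C.exists_eq_smul_of_unr w.2 (C.unr_of_prin_crit hu₀) hne
  exact ⟨c, Subtype.ext hc.symm⟩

theorem cup_unr_eq_zero (h : l ≠ p) {x y : C.H1} (hx : C.Unr x) (hy : C.Unr y) :
    cupTriv (ZMod p) (subLevels C.D) x y = 0 := by
  obtain ⟨u₀, hu₀, hne⟩ := C.exists_base
  obtain ⟨c, rfl⟩ := C.exists_eq_smul_of_unr hx (C.unr_of_prin_crit hu₀) hne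
  obtain ⟨c', rfl⟩ := C.exists_eq_smul_of_unr hy (C.unr_of_prin_crit hu₀) hne
  rw [map_smul, map_smul, LinearMap.smul_apply]
  show c' • c • C.symb u₀ u₀ = 0
  rw [C.symb_units_eq_zero u₀ hu₀ hne h hu₀.mem hu₀.mem hu₀.2.1 hu₀.2.1, smul_zero, smul_zero]

/-- Corestriction from the kernel of a character is surjective on `H²`. -/
theorem corL2_surjective_of_chi {D' : Subgroup (AlgebraicClosure ℚ ≃ₐ[ℚ] AlgebraicClosure ℚ)}
    (h : OpenSub D' C.D)
    {χ : Z1 (subLevels C.D) (triv (ZMod p) C.D)} {s : C.D} (hs : χ.1 s = 1)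
    (hker : ∀ x : C.D, x ∈ kerChi χ ↔ (x : Qb ≃ₐ[ℚ] Qb) ∈ D') :
    Function.Surjective (h.corL2 p) := by
  intro z
  obtain ⟨x, y, hxy⟩ := C.exists_corL2_ne_zero h hs hker
  obtain ⟨t, ht⟩ := exists_smul_eq_of_finrank_eq_one C.finrank_H2' hxy z
  exact ⟨t • cupTriv (ZMod p) (subLevels D') (h.resL1 p x) y, by rw [map_smul, ht]⟩

end LocalCtx

end

end FermatAgent.Duality.Local
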