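import Fermat.Agent.Duality.Core.Basic
import Fermat.Agent.Duality.Local.Bridge
import Fermat.Agent.Duality.Local.Main
import Fermat.Prelude.Def_ExtEndgame_ProductionDatum

/-!
# Interface of local arithmetic duality (L1)

For a number field `K ⊆ ℚ̄` containing the `p`-th roots of unity and a place `A` of `ℚ̄`, with
`D = G_K ∩ D_A`: the dimensions of `H¹(D, 𝔽_p)` and `H²(D, 𝔽_p)`, perfectness of the cup product
and the behaviour of unramified classes. The `p`-th roots of unity are identified with `𝔽_p`, as
`D` fixes them.
-/

set_option autoImplicit false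

namespace FermatAgent.Duality

open Module

noncomputable section

local notation "Qb" => AlgebraicClosure ℚ
local notation "GQ" => AlgebraicClosure ℚ ≃ₐ[ℚ] AlgebraicClosure ℚ

variable (p : ℕ) [Fact p.Prime]

/-- The level system of a local group. -/
abbrev localLevels (K : IntermediateField ℚ Qb) (A : ValuationSubring Qb) :
    LevelSystem (localGroup K A) := subLevels (localGroup K A)

/-- `H¹(D, 𝔽_p)`. -/
abbrev localH1 (K : IntermediateField ℚ Qb) (A : ValuationSubring Qb) : Type :=
  H1c (localLevels K A) (triv (ZMod p) (localGroup K A))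

/-- `H²(D, 𝔽_p)`. -/
abbrev localH2 (K : IntermediateField ℚ Qb) (A : ValuationSubring Qb) : Type :=
  H2c (localLevels K A) (triv (ZMod p) (localGroup K A))

/-- The unramified classes: those vanishing on inertia. -/
def unramifiedH1 (K : IntermediateField ℚ Qb) (A : ValuationSubring Qb) :
    Submodule (ZMod p) (localH1 p K A) :=
  LinearMap.ker (res1 (localLevels K A) (triv (ZMod p) (localGroup K A)) (localInertia K A))

/-- The local facts over a field containing the `p`-th roots of unity. -/
structure LocalDualityAt (ℓ : ℕ) (K : IntermediateField ℚ Qb) (A : ValuationSubring Qb) : Prop where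
  finite_H1 : Module.Finite (ZMod p) (localH1 p K A)
  finrank_H1 : finrank (ZMod p) (localH1 p K A) = 2 + localDegree p ℓ K A
  finrank_H2 : finrank (ZMod p) (localH2 p K A) = 1
  cup_nondegenerate : ∀ x : localH1 p K A,
    (∀ y, cupTriv (ZMod p) (localLevels K A) x y = 0) → x = 0
  finrank_unramified : finrank (ZMod p) (unramifiedH1 p K A) = 1
  cup_unramified : ℓ ≠ p → ∀ x ∈ unramifiedH1 p K A, ∀ y ∈ unramifiedH1 p K A,
    cupTriv (ZMod p) (localLevels K A) x y = 0

/-- Local duality over fields containing the `p`-th roots of unity. -/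
theorem localDualityAt {ℓ : ℕ} (hℓ : ℓ.Prime) (K : IntermediateField ℚ Qb) [FiniteDimensional ℚ K]
    (hK : ContainsMuP p K) {A : ValuationSubring Qb} (hA : A.LiesOverPrime ℓ) :
    LocalDualityAt p ℓ K A := by
  obtain ⟨C, rfl, rfl⟩ := Local.exists_localCtx (p := p) hℓ K hK hA
  exact ⟨C.finite_H1', C.finrank_H1', C.finrank_H2', C.cup_nondegenerate', C.finrank_unr,
    fun h _ hx _ hy => C.cup_unr_eq_zero h hx hy⟩

/-- The completion bridge: the Galois group of `ℚ_q` maps isomorphically onto the decomposition
group of its place. -/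
theorem primeLocalToGlobal_bijOn (q : Nat.Primes) :
    Function.Injective (ExtCitation.primeLocalToGlobal q) ∧
      (ExtCitation.primeLocalToGlobal q).range =
        (ExtCitation.primeLocalPlace q).decompositionSubgroup ℚ ∧
      (ExtCitation.primeLocalPlace q).LiesOverPrime (q : ℕ) := by
  have : Fact (q : ℕ).Prime := ⟨q.2⟩
  exact ⟨Local.localGaloisToGlobal_injective (q : ℕ), Local.range_localGaloisToGlobal (q : ℕ),
    Local.padicPlace_liesOverPrime (q : ℕ)⟩

end

end FermatAgent.Duality
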