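import Fermat.Agent.Duality.Local.Dense

/-!
# Values and residues of a henselian local field

By density the local field has the values and the residues of the number field. The residues form
a finite subring of the residue field of the place.
-/

set_option autoImplicit false

namespace FermatAgent.Duality.Local

open FermatAgent.Local

noncomputable section

local notation "Qb" => AlgebraicClosure ℚ

variable {A : ValuationSubring Qb} {l : ℕ} (hl : l.Prime) (hA : A.LiesOverPrime l)
  {K : IntermediateField ℚ Qb} [FiniteDimensional ℚ K]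

include hl hA in
lemma exists_mem_val_eq {x : Qb} (hx : x ∈ localField K A) (hx0 : x ≠ 0) :
    ∃ y ∈ K, y ≠ 0 ∧ A.valuation y = A.valuation x := by
  obtain ⟨y, hy, h⟩ := exists_approx hl hA hx ((_root_.map_ne_zero A.valuation).2 hx0)
  have e : A.valuation y = A.valuation x := by
    have h' : A.valuation (y - x) < A.valuation x := by rwa [Valuation.map_sub_swap]
    exact A.valuation.map_eq_of_sub_lt h'
  refine ⟨y, hy, fun h0 => ?_, e⟩
  rw [h0, map_zero] at e
  exact hx0 ((map_eq_zero _).1 e.symm)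

variable (K A) in
/-- A uniformiser of `K` at `A`. -/
structure LocalUnif where
  ϖ : Qb
  mem : ϖ ∈ K
  ne_zero : ϖ ≠ 0
  lt_one : A.valuation ϖ < 1
  exists_zpow : ∀ x ∈ localField K A, x ≠ 0 → ∃ i : ℤ, A.valuation x = A.valuation ϖ ^ i

include hl hA in
theorem nonempty_localUnif : Nonempty (LocalUnif A K) := by
  obtain ⟨ϖ, h1, h2, h3, h4⟩ := exists_uniformizer (F := K) hl hA
  refine ⟨⟨ϖ, h1, h2, h3, fun x hx hx0 => ?_⟩⟩
  obtain ⟨y, hy, hy0, e⟩ := exists_mem_val_eq hl hA hx hx0
  rw [← e]
  exact h4 y hy hy0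

namespace LocalUnif

variable (u : LocalUnif A K)

omit [FiniteDimensional ℚ K] in
lemma mem_local : u.ϖ ∈ localField K A := le_localField u.mem

omit [FiniteDimensional ℚ K] in
lemma pos : 0 < A.valuation u.ϖ := zero_lt_iff.2 ((_root_.map_ne_zero _).2 u.ne_zero)

omit [FiniteDimensional ℚ K] in
lemma zpow_strictAnti : StrictAnti fun i : ℤ => A.valuation u.ϖ ^ i :=
  zpow_right_strictAnti₀ u.pos u.lt_one

omit [FiniteDimensional ℚ K] in
lemma zpow_inj {i j : ℤ} (h : A.valuation u.ϖ ^ i = A.valuation u.ϖ ^ j) : i = j :=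
  u.zpow_strictAnti.injective h

omit [FiniteDimensional ℚ K] in
lemma le_pow_succ {x : Qb} (hx : x ∈ localField K A) {n : ℕ}
    (h : A.valuation x < A.valuation u.ϖ ^ n) : A.valuation x ≤ A.valuation u.ϖ ^ (n + 1) := by
  rcases eq_or_ne x 0 with rfl | hx0
  · simp
  obtain ⟨i, hi⟩ := u.exists_zpow x hx hx0
  rw [hi] at h ⊢
  rw [← zpow_natCast] at h ⊢
  have := u.zpow_strictAnti.lt_iff_gt.1 h
  exact u.zpow_strictAnti.antitone (by omega)

omit [FiniteDimensional ℚ K] in
lemma le_val {x : Qb} (hx : x ∈ localField K A) (h : A.valuation x < 1) :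
    A.valuation x ≤ A.valuation u.ϖ := by
  simpa using u.le_pow_succ hx (n := 0) (by simpa using h)

omit [FiniteDimensional ℚ K] in
lemma exists_pow_of_le_one {x : Qb} (hx : x ∈ localField K A) (hx0 : x ≠ 0)
    (h : A.valuation x ≤ 1) : ∃ n : ℕ, A.valuation x = A.valuation u.ϖ ^ n := by
  obtain ⟨i, hi⟩ := u.exists_zpow x hx hx0
  have : 0 ≤ i := by
    by_contra hneg
    rw [hi, ← zpow_zero (A.valuation u.ϖ)] at h
    exact absurd (u.zpow_strictAnti (not_le.1 hneg)) (not_lt.2 h)
  exact ⟨i.toNat, by rw [hi, ← zpow_natCast, Int.toNat_of_nonneg this]⟩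

end LocalUnif

include hl hA in
lemma exists_residue_reps_local : ∃ R : Finset Qb, (∀ r ∈ R, r ∈ A ∧ r ∈ K) ∧
    ∀ x ∈ A, x ∈ localField K A → ∃ r ∈ R, A.valuation (x - r) < 1 := by
  obtain ⟨R, hR, hrep⟩ := exists_residue_reps (F := K) hl hA
  refine ⟨R, hR, fun x hxA hx => ?_⟩
  obtain ⟨y, hy, hxy⟩ := exists_approx hl hA hx (one_ne_zero : (1 : A.ValueGroup) ≠ 0)
  have hyA : y ∈ A := (A.valuation_le_one_iff _).1 (by
    rw [show y = x - (x - y) by ring]
    exact A.valuation.map_sub_le (val_le_one_of_mem hxA) hxy.le)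
  obtain ⟨r, hr, hyr⟩ := hrep y hyA hy
  refine ⟨r, hr, ?_⟩
  rw [show x - r = (x - y) + (y - r) by ring]
  exact A.valuation.map_add_lt hxy hyr

/-- The integers of an intermediate field at `A`, inside `A`. -/
def intSubring (L : IntermediateField ℚ Qb) (A : ValuationSubring Qb) : Subring A :=
  L.toSubfield.toSubring.comap A.subtype

/-- The residues of an intermediate field. -/
def resRing (L : IntermediateField ℚ Qb) (A : ValuationSubring Qb) :
    Subring (IsLocalRing.ResidueField A) :=
  (intSubring L A).map (IsLocalRing.residue A)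

lemma residue_eq_residue_iff {a b : A} :
    IsLocalRing.residue A a = IsLocalRing.residue A b ↔ A.valuation ((a : Qb) - b) < 1 := by
  rw [← sub_eq_zero, ← map_sub, IsLocalRing.residue_eq_zero_iff]
  exact A.valuation_lt_one_iff (a - b)

lemma residue_eq_zero_iff' {a : A} : IsLocalRing.residue A a = 0 ↔ A.valuation (a : Qb) < 1 := by
  rw [IsLocalRing.residue_eq_zero_iff]
  exact A.valuation_lt_one_iff a

include hl hA in
lemma finite_resRing : Finite (resRing (localField K A) A) := by
  classical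
  obtain ⟨R, hR, hrep⟩ := exists_residue_reps_local hl hA (K := K)
  refine Set.Finite.subset (Finset.finite_toSet (R.attach.image fun r =>
    IsLocalRing.residue A ⟨r.1, (hR _ r.2).1⟩)) (fun x hx => ?_) |>.to_subtype
  obtain ⟨a, ha, rfl⟩ := hx
  obtain ⟨r, hr, h⟩ := hrep a a.2 ha
  exact Finset.mem_coe.2 (Finset.mem_image.2
    ⟨⟨r, hr⟩, Finset.mem_attach _ _, (residue_eq_residue_iff.2 h).symm⟩)

include hl hA in
lemma charP_residue : CharP (IsLocalRing.ResidueField A) l := by
  refine (CharP.charP_iff_prime_eq_zero hl).2 ?_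
  rw [← map_natCast (IsLocalRing.residue A), residue_eq_zero_iff']
  simpa using (show A.valuation (l : Qb) < 1 from hA)

/-- An endomap of the residues which is not injective misses some residue. -/
lemma exists_not_mem_range {L : IntermediateField ℚ Qb} [Finite (resRing L A)]
    (f : IsLocalRing.ResidueField A → IsLocalRing.ResidueField A)
    (hf : ∀ x ∈ resRing L A, f x ∈ resRing L A) {a b : IsLocalRing.ResidueField A}
    (ha : a ∈ resRing L A) (hb : b ∈ resRing L A) (hab : a ≠ b) (hfab : f a = f b) :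
    ∃ c : A, (c : Qb) ∈ L ∧ ∀ x : A, (x : Qb) ∈ L →
      f (IsLocalRing.residue A x) ≠ IsLocalRing.residue A c := by
  let g : resRing L A → resRing L A := fun x => ⟨f x, hf x x.2⟩
  have hg : ¬ Function.Surjective g := fun h =>
    hab (congrArg Subtype.val ((Finite.injective_iff_surjective.2 h)
      (Subtype.ext hfab : g ⟨a, ha⟩ = g ⟨b, hb⟩)))
  obtain ⟨⟨_, c, hc, rfl⟩, hne⟩ := not_forall.1 hg
  exact ⟨c, hc, fun x hx h => hne ⟨⟨_, x, hx, rfl⟩, Subtype.ext h⟩⟩

include hl hA in
/-- In residue characteristic `l` every residue is an `l`-th power. -/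
lemma exists_residue_pow_eq {c : Qb} (hc : c ∈ A) (hcL : c ∈ localField K A) :
    ∃ s : Qb, s ∈ A ∧ s ∈ localField K A ∧ A.valuation (c - s ^ l) < 1 := by
  have := finite_resRing hl hA (K := K)
  have := charP_residue hl hA
  have : Fact l.Prime := ⟨hl⟩
  let g : resRing (localField K A) A → resRing (localField K A) A := fun x =>
    ⟨x.1 ^ l, pow_mem x.2 _⟩
  have hg : Function.Injective g := fun x y h =>
    Subtype.ext (frobenius_inj _ l (congrArg Subtype.val h : x.1 ^ l = y.1 ^ l))
  obtain ⟨⟨_, s, hs, rfl⟩, e⟩ := Finite.surjective_of_injective hg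
    ⟨IsLocalRing.residue A ⟨c, hc⟩, ⟨c, hc⟩, hcL, rfl⟩
  have e' : IsLocalRing.residue A s ^ l = IsLocalRing.residue A ⟨c, hc⟩ := congrArg Subtype.val e
  rw [← map_pow, eq_comm, residue_eq_residue_iff] at e'
  exact ⟨s, s.2, hs, by simpa using e'⟩

end

end FermatAgent.Duality.Local
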