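import Fermat.Agent.Duality.Local.Kummer
import Fermat.Agent.Duality.Local.Transfer
import Mathlib.FieldTheory.Finite.Basic
import Mathlib.RingTheory.RootsOfUnity.Minpoly

/-!
# Units of a local field modulo `p`-th powers

Units congruent to `1` modulo more than `(ζ - 1) ^ p` are `p`-th powers; the level `(ζ - 1) ^ p`
is governed by the Artin-Schreier map `t ↦ t ^ p - t` on the residues.
-/

set_option autoImplicit false

open Finset

namespace FermatAgent.Duality.Local

open FermatAgent.Local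

noncomputable section

local notation "Qb" => AlgebraicClosure ℚ
local notation "GQ" => AlgebraicClosure ℚ ≃ₐ[ℚ] AlgebraicClosure ℚ

variable {p : ℕ} [Fact p.Prime] {A : ValuationSubring Qb} {ζ : Qb} (hζ : IsPrimitiveRoot ζ p)
include hζ

lemma val_zeta : A.valuation ζ = 1 := by
  have h : A.valuation ζ ^ p = 1 := by rw [← map_pow, hζ.pow_eq_one, map_one]
  exact (pow_eq_one_iff.1 h).resolve_right (Fact.out : p.Prime).ne_zero

lemma zeta_mem : ζ ∈ A := (A.valuation_le_one_iff _).1 (val_zeta hζ).le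

lemma val_zeta_sub_one_pos : 0 < A.valuation (ζ - 1) :=
  zero_lt_iff.2 ((_root_.map_ne_zero _).2
    (sub_ne_zero.2 (hζ.ne_one (Fact.out : p.Prime).one_lt)))

lemma val_zeta_sub_one_le : A.valuation (ζ - 1) ≤ 1 :=
  val_le_one_of_mem (sub_mem (zeta_mem hζ) (one_mem A))

lemma val_geom_le (n : ℕ) : A.valuation (∑ j ∈ range n, ζ ^ j) ≤ 1 :=
  val_le_one_of_mem (sum_mem fun j _ => pow_mem (zeta_mem hζ) j)

lemma val_pow_sub_one_eq {i : ℕ} (hi : ¬ p ∣ i) :
    A.valuation (ζ ^ i - 1) = A.valuation (ζ - 1) := by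
  refine le_antisymm ?_ ?_
  · rw [← mul_geom_sum, map_mul]
    exact mul_le_of_le_one_right' (val_geom_le hζ i)
  · have hη : IsPrimitiveRoot (ζ ^ i) p :=
      hζ.pow_of_coprime i ((Fact.out : p.Prime).coprime_iff_not_dvd.2 hi).symm
    obtain ⟨j, -, hj⟩ := hη.eq_pow_of_pow_eq_one hζ.pow_eq_one
    conv_lhs => rw [← hj, ← mul_geom_sum, map_mul]
    exact mul_le_of_le_one_right' (val_geom_le hη j)

lemma val_zpw_sub_one {i : ZMod p} (hi : i ≠ 0) :
    A.valuation (zpw p ζ i - 1) = A.valuation (ζ - 1) := by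
  refine val_pow_sub_one_eq hζ fun h => hi ?_
  rw [← ZMod.natCast_zmod_val i, ZMod.natCast_eq_zero_iff]
  exact h

lemma val_zeta_sub_one_pow : A.valuation (ζ - 1) ^ (p - 1) = A.valuation (p : Qb) := by
  obtain ⟨m, hm⟩ : ∃ m, p = m + 1 := ⟨p - 1, by have := (Fact.out : p.Prime).pos; omega⟩
  subst hm
  rw [Nat.cast_succ, ← IsPrimitiveRoot.prod_one_sub_pow_eq_order hζ, map_prod, Nat.add_sub_cancel]
  rw [Finset.prod_congr rfl fun k hk =>
    (?_ : A.valuation (1 - ζ ^ (k + 1)) = A.valuation (ζ - 1)), prod_const, card_range]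
  rw [Valuation.map_sub_swap]
  refine val_pow_sub_one_eq hζ fun h => ?_
  have := Nat.le_of_dvd (by omega) h
  have := mem_range.1 hk
  omega

/-- The `p` factors of `(1 + (ζ - 1) t) ^ p - 1`. -/
lemma pow_sub_one_eq_prod (t : Qb) :
    (1 + (ζ - 1) * t) ^ p - 1 = (ζ - 1) ^ p * ∏ i ∈ range p, (t - ∑ j ∈ range i, ζ ^ j) := by
  have h := congrArg (Polynomial.eval (1 + (ζ - 1) * t))
    (X_pow_sub_C_eq_prod hζ (Fact.out : p.Prime).pos (one_pow p : (1 : Qb) ^ p = 1))
  simp only [Polynomial.eval_sub, Polynomial.eval_pow, Polynomial.eval_X, Polynomial.eval_C,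
    Polynomial.eval_prod, mul_one] at h
  rw [h, show (ζ - 1) ^ p = ∏ _i ∈ range p, (ζ - 1) by rw [prod_const, card_range], ← prod_mul_distrib]
  refine prod_congr rfl fun i _ => ?_
  rw [mul_sub, mul_geom_sum]
  ring

/-- A `p`-th root of an element close to `1` may be chosen close to `1`. -/
lemma exists_root_close {x : Qb} (hx : A.valuation (x - 1) < A.valuation (ζ - 1) ^ p) :
    ∃ y : Qb, y ^ p = x ∧ A.valuation (y - 1) < A.valuation (ζ - 1) := by
  obtain ⟨y, hy⟩ := IsAlgClosed.exists_pow_nat_eq x (Fact.out : p.Prime).pos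
  have h := congrArg (Polynomial.eval (1 : Qb))
    (X_pow_sub_C_eq_prod hζ (Fact.out : p.Prime).pos hy)
  simp only [Polynomial.eval_sub, Polynomial.eval_pow, Polynomial.eval_X, Polynomial.eval_C,
    Polynomial.eval_prod, one_pow] at h
  obtain ⟨i, -, hi⟩ : ∃ i ∈ range p, A.valuation (1 - ζ ^ i * y) < A.valuation (ζ - 1) := by
    by_contra hall
    push Not at hall
    rw [Valuation.map_sub_swap, h, map_prod] at hx
    refine hx.not_ge ?_
    calc A.valuation (ζ - 1) ^ p = ∏ _i ∈ range p, A.valuation (ζ - 1) := by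
          rw [prod_const, card_range]
      _ ≤ _ := prod_le_prod' fun i hi => hall i hi
  refine ⟨ζ ^ i * y, ?_, by rwa [Valuation.map_sub_swap]⟩
  rw [mul_pow, ← pow_mul, mul_comm i p, pow_mul, hζ.pow_eq_one, one_pow, one_mul, hy]

omit hζ in
lemma val_eq_one_of_sub_lt {x : Qb} (h : A.valuation (x - 1) < 1) : A.valuation x = 1 := by
  rw [← A.valuation.map_one] at h
  simpa using A.valuation.map_eq_of_sub_lt h

omit hζ in
/-- The binomial congruence `(1 + w) ^ p ≡ 1 + w ^ p` modulo `p w`. -/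
lemma val_one_add_pow_sub_le {w : Qb} (hw : A.valuation w ≤ 1) :
    A.valuation ((1 + w) ^ p - 1 - w ^ p) ≤ A.valuation (p : Qb) * A.valuation w := by
  obtain ⟨r, hr⟩ := exists_add_pow_prime_eq (Fact.out : p.Prime) (1 : A)
    (⟨w, (A.valuation_le_one_iff _).1 hw⟩ : A)
  have hr' : (1 + w) ^ p - 1 - w ^ p = (p : Qb) * w * (r : Qb) := by
    have := congrArg (fun a : A => (a : Qb)) hr
    push_cast at this
    rw [this]; ring
  rw [hr', map_mul, map_mul]
  exact mul_le_of_le_one_right' (val_le_one_of_mem r.2)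

omit hζ in
/-- In characteristic `p`, `∏_{i < p} (t - i) = t ^ p - t`. -/
lemma prod_sub_natCast_eq {k : Type*} [Field k] [CharP k p] (t : k) :
    ∏ i ∈ range p, (t - (i : k)) = t ^ p - t := by
  classical
  have hroots := FiniteField.roots_X_pow_card_sub_X (ZMod p)
  rw [ZMod.card] at hroots
  have hprod := Polynomial.prod_multiset_X_sub_C_of_monic_of_roots_card_eq
    (p := (Polynomial.X ^ p - Polynomial.X : Polynomial (ZMod p)))
    (Polynomial.monic_X_pow_sub (by simpa using (Fact.out : p.Prime).one_lt))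
    (by rw [hroots, FiniteField.X_pow_card_sub_X_natDegree_eq _ (Fact.out : p.Prime).one_lt]; simp)
  rw [hroots] at hprod
  have h := congrArg (Polynomial.eval₂ (ZMod.castHom (dvd_refl p) k) t) hprod
  rw [← Finset.prod_eq_multiset_prod, Polynomial.eval₂_finsetProd] at h
  simp only [Polynomial.eval₂_sub, Polynomial.eval₂_X, Polynomial.eval₂_C, Polynomial.eval₂_X_pow] at h
  rw [← h]
  refine prod_bij (fun i _ => (i : ZMod p)) (fun _ _ => Finset.mem_univ _) (fun a ha b hb e => ?_)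
    (fun b _ => ⟨b.val, mem_range.2 b.val_lt, ZMod.natCast_zmod_val b⟩) (fun i _ => by simp)
  exact Nat.ModEq.eq_of_lt_of_lt ((ZMod.natCast_eq_natCast_iff _ _ _).1 e) (mem_range.1 ha)
    (mem_range.1 hb)

lemma val_zeta_sub_one_lt (hA : A.LiesOverPrime p) : A.valuation (ζ - 1) < 1 := by
  refine (pow_lt_one_iff_of_nonneg zero_le (?_ : p - 1 ≠ 0)).1 ?_
  · have := (Fact.out : p.Prime).one_lt; omega
  · rw [val_zeta_sub_one_pow hζ]; exact hA

lemma val_zeta_sub_one_eq_one {l : ℕ} (hl : l.Prime) (hA : A.LiesOverPrime l) (h : l ≠ p) :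
    A.valuation (ζ - 1) = 1 := by
  refine (pow_eq_one_iff.1 (?_ : A.valuation (ζ - 1) ^ (p - 1) = 1)).resolve_right ?_
  · rw [val_zeta_sub_one_pow hζ]
    exact val_natCast_eq_one hl hA fun hd =>
      h ((Nat.prime_dvd_prime_iff_eq hl (Fact.out : p.Prime)).1 hd)
  · have := (Fact.out : p.Prime).one_lt; omega

/-- Residue of `((1 + (ζ - 1) t) ^ p - 1) / (ζ - 1) ^ p`. -/
lemma residue_artinSchreier (hA : A.LiesOverPrime p) (t : A) :
    ∃ c : A, (1 + (ζ - 1) * (t : Qb)) ^ p - 1 = (ζ - 1) ^ p * (c : Qb) ∧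
      IsLocalRing.residue A c = IsLocalRing.residue A t ^ p - IsLocalRing.residue A t := by
  have := charP_residue (Fact.out : p.Prime) hA
  have hres1 : IsLocalRing.residue A (⟨ζ, zeta_mem hζ⟩ : A) = 1 := by
    rw [← map_one (IsLocalRing.residue A), residue_eq_residue_iff]
    simpa using val_zeta_sub_one_lt hζ hA
  refine ⟨∏ i ∈ range p, (t - ∑ j ∈ range i, (⟨ζ, zeta_mem hζ⟩ : A) ^ j), ?_, ?_⟩
  · rw [pow_sub_one_eq_prod hζ]; push_cast; rfl
  · rw [← prod_sub_natCast_eq (k := IsLocalRing.ResidueField A), map_prod]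
    refine prod_congr rfl fun i _ => ?_
    simp only [map_sub, map_sum, map_pow, hres1, one_pow, sum_const, card_range, nsmul_eq_mul, mul_one]

/-- The argument of a `p`-th root `1 + (ζ - 1) t` of a unit `1 + (ζ - 1) ^ p c` is integral. -/
lemma val_le_one_of_artinSchreier {t c : Qb} (hc : A.valuation c ≤ 1)
    (h : (1 + (ζ - 1) * t) ^ p - 1 = (ζ - 1) ^ p * c) : A.valuation t ≤ 1 := by
  rw [pow_sub_one_eq_prod hζ] at h
  have h' := mul_left_cancel₀ (pow_ne_zero _ (sub_ne_zero.2
    (hζ.ne_one (Fact.out : p.Prime).one_lt))) h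
  by_contra hlt
  rw [not_le] at hlt
  have hterm : ∀ i, A.valuation (t - ∑ j ∈ range i, ζ ^ j) = A.valuation t := fun i => by
    refine A.valuation.map_eq_of_sub_lt ?_
    rw [sub_sub_cancel_left, Valuation.map_neg]
    exact (val_geom_le hζ i).trans_lt hlt
  rw [← h', map_prod, prod_congr rfl (fun i _ => hterm i), prod_const, card_range] at hc
  exact absurd hc (not_le.2 (one_lt_pow₀ hlt (Fact.out : p.Prime).ne_zero))

section Local

variable {l : ℕ} (hl : l.Prime) (hA : A.LiesOverPrime l) {K : IntermediateField ℚ Qb}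
  [FiniteDimensional ℚ K] (hfix : ∀ σ ∈ localGroup K A, σ ζ = ζ)

include hfix in
omit hζ [FiniteDimensional ℚ K] in
lemma zeta_mem_localField : ζ ∈ localField K A := mem_localField_iff.2 hfix

omit [FiniteDimensional ℚ K] in
/-- Units very close to `1` are `p`-th powers. -/
theorem exists_pow_eq_of_close {x : Qb} (hx : x ∈ localField K A)
    (h : A.valuation (x - 1) < A.valuation (ζ - 1) ^ p) :
    ∃ y ∈ localField K A, y ^ p = x ∧ A.valuation (y - 1) < A.valuation (ζ - 1) := by
  obtain ⟨y, hy, hy1⟩ := exists_root_close hζ h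
  refine ⟨y, mem_localField_iff.2 fun σ hσ => ?_, hy, hy1⟩
  have hvy : A.valuation y = 1 := val_eq_one_of_sub_lt (hy1.trans_le (val_zeta_sub_one_le hζ))
  have hy0 : y ≠ 0 := fun h0 => by simp [h0] at hvy
  obtain ⟨i, hi⟩ := exists_zpw_eq hζ (x := σ y / y) (by
    rw [div_pow, ← map_pow, hy, mem_localField_iff.1 hx σ hσ, div_self]
    rw [← hy]; exact pow_ne_zero _ hy0)
  have hlt : A.valuation (σ y / y - 1) < A.valuation (ζ - 1) := by
    rw [div_sub_one hy0, map_div₀, hvy, div_one, show σ y - y = σ (y - 1) - (y - 1) by simp]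
    refine (A.valuation.map_sub _ _).trans_lt (max_lt ?_ hy1)
    rwa [val_of_mem_localGroup hσ]
  rw [← hi] at hlt
  have hi0 : i = 0 := by
    by_contra hne
    rw [val_zpw_sub_one hζ hne] at hlt
    exact lt_irrefl _ hlt
  rw [hi0, zpw_zero, eq_comm, div_eq_one_iff_eq hy0] at hi
  exact hi

end Local

end

end FermatAgent.Duality.Local
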