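import Fermat.Agent.Duality.Core.Basic

/-!
# Kummer theory for a subgroup of `Gal(ℚ̄/ℚ)` fixing the `p`-th roots of unity

For `D ≤ Gal(ℚ̄/ℚ)` fixing a primitive `p`-th root of unity `ζ`, the map
`kapHom : fixedUnits D → H¹(D, 𝔽_p)` is surjective with kernel the `p`-th powers. The main input is
Hilbert 90 in the form `exists_eq_div_of_mulCocycle`.
-/

set_option autoImplicit false

namespace FermatAgent.Duality.Local

noncomputable section

local notation "Qb" => AlgebraicClosure ℚ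
local notation "GQ" => AlgebraicClosure ℚ ≃ₐ[ℚ] AlgebraicClosure ℚ

attribute [local instance] FermatAgent.RT.isGalois_algClosureRat

section Levels

variable {D : Subgroup GQ}

lemma isLev₁_iff_exists_field {X : Type*} {f : D → X} :
    IsLev₁ (subLevels D) f ↔ ∃ F : IntermediateField ℚ Qb, FiniteDimensional ℚ F ∧
      ∀ g s : D, (s : GQ) ∈ F.fixingSubgroup → f (g * s) = f g := by
  constructor
  · rintro ⟨_, ⟨_, ⟨F, hF, rfl⟩, rfl⟩, h⟩
    exact ⟨F, hF, fun g s hs => h g s hs⟩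
  · rintro ⟨F, hF, h⟩
    exact ⟨_, ⟨_, ⟨F, hF, rfl⟩, rfl⟩, fun g s hs => h g s hs⟩

/-- Anything depending only on the image of one number is level-constant. -/
lemma isLev₁_eval {X : Type*} (Φ : Qb → X) (x : Qb) :
    IsLev₁ (subLevels D) (fun g : D => Φ ((g : GQ) x)) := by
  refine isLev₁_iff_exists_field.2 ⟨IntermediateField.adjoin ℚ {x},
    IntermediateField.adjoin.finiteDimensional
      (((AlgebraicClosure.isAlgebraic ℚ).isAlgebraic x).isIntegral), fun g s hs => ?_⟩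
  show Φ ((g : GQ) ((s : GQ) x)) = Φ ((g : GQ) x)
  rw [show (s : GQ) x = x from hs ⟨x, IntermediateField.mem_adjoin_simple_self ℚ x⟩]

lemma isLev₁_map₂ {X Y Z : Type*} {f : D → X} {f' : D → Y} (hf : IsLev₁ (subLevels D) f)
    (hf' : IsLev₁ (subLevels D) f') (Φ : X → Y → Z) :
    IsLev₁ (subLevels D) fun g => Φ (f g) (f' g) := by
  obtain ⟨U, hU, h⟩ := hf
  obtain ⟨U', hU', h'⟩ := hf'
  obtain ⟨W, hW, hle⟩ := (subLevels D).inf_mem hU hU'
  exact ⟨W, hW, fun g s hs => by simp [h g s (hle hs).1, h' g s (hle hs).2]⟩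

/-- Hilbert 90 for level-constant multiplicative cocycles. -/
theorem exists_eq_div_of_mulCocycle (u : D → Qb) (hlev : IsLev₁ (subLevels D) u)
    (h0 : ∀ g, u g ≠ 0) (hu : ∀ g h : D, u (g * h) = u g * (g : GQ) (u h)) :
    ∃ t : Qb, t ≠ 0 ∧ ∀ g : D, u g = (g : GQ) t / t := by
  classical
  obtain ⟨F, hF, hlev⟩ := isLev₁_iff_exists_field.1 hlev
  let res : D → (F →ₐ[ℚ] Qb) := fun g => ((g : GQ) : Qb →ₐ[ℚ] Qb).comp F.val
  have hfib : ∀ g g' : D, res g = res g' → u g = u g' := by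
    intro g g' h
    have hs : ((g⁻¹ * g' : D) : GQ) ∈ F.fixingSubgroup := fun x => by
      have := congrArg (fun e : F →ₐ[ℚ] Qb => e x) h
      show (g : GQ)⁻¹ ((g' : GQ) x) = x
      rw [← show (g : GQ) x = (g' : GQ) x from this]
      exact (g : GQ).symm_apply_apply x
    rw [← hlev g _ hs, mul_inv_cancel_left]
  let E : Finset (F →ₐ[ℚ] Qb) := (Set.range res).toFinite.toFinset
  have hE : ∀ e : E, ∃ g, res g = e.1 := fun e => (Set.toFinite (Set.range res)).mem_toFinset.1 e.2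
  choose sec hsec using hE
  let e₀ : ∀ g : D, E := fun g => ⟨res g, (Set.toFinite (Set.range res)).mem_toFinset.2 ⟨g, rfl⟩⟩
  obtain ⟨θ, hθ⟩ : ∃ θ : F, (∑ e : E, u (sec e) * e.1 θ) ≠ 0 := by
    by_contra hall
    push Not at hall
    have hli := (linearIndependent_monoidHom F Qb).comp
      (fun e : E => (e.1 : F →* Qb)) (fun a b h => Subtype.ext (AlgHom.ext fun x =>
        congrArg (fun φ : F →* Qb => φ x) h))
    have := Fintype.linearIndependent_iff.1 hli (fun e => u (sec e)) (funext fun θ => by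
      simpa [Finset.sum_apply] using hall θ)
    exact h0 _ (this (e₀ 1))
  set S := ∑ e : E, u (sec e) * e.1 θ
  have hS : ∀ g : D, u g * (g : GQ) S = S := by
    intro g
    let π : E → E := fun e => e₀ (g * sec e)
    have hπval : ∀ e, (π e).1 θ = (g : GQ) (e.1 θ) := fun e => by
      rw [← hsec e]; rfl
    have hπ : Function.Bijective π := by
      refine Finite.injective_iff_bijective.1 fun a b hab => Subtype.ext (AlgHom.ext fun x => ?_)
      have := congrArg (fun e : E => e.1 x) hab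
      rw [← hsec a, ← hsec b]
      exact (g : GQ).injective this
    calc u g * (g : GQ) S = ∑ e, u (g * sec e) * (π e).1 θ := by
          simp only [S, map_sum, Finset.mul_sum, map_mul, hπval, hu g, mul_assoc]
      _ = ∑ e, u (sec (π e)) * (π e).1 θ :=
          Finset.sum_congr rfl fun e _ => by rw [hfib (g * sec e) (sec (π e)) (hsec (π e)).symm]
      _ = S := Fintype.sum_bijective π hπ _ _ fun _ => rfl
  refine ⟨S⁻¹, inv_ne_zero hθ, fun g => ?_⟩
  have h1 : (g : GQ) S ≠ 0 := (_root_.map_ne_zero _).2 hθ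
  rw [map_inv₀, inv_div_inv, eq_div_iff h1]
  exact hS g

end Levels

section Roots

variable (p : ℕ) [Fact p.Prime] (ζ : Qb)

/-- `i ↦ ζ ^ i` on `ℤ/p`. -/
def zpw (i : ZMod p) : Qb := ζ ^ i.val

variable {p ζ} (hζ : IsPrimitiveRoot ζ p)
include hζ

lemma zpw_natCast (n : ℕ) : zpw p ζ (n : ZMod p) = ζ ^ n := by
  rw [zpw, ZMod.val_natCast]
  conv_rhs => rw [← Nat.mod_add_div n p, pow_add, pow_mul, hζ.pow_eq_one, one_pow, mul_one]

lemma zpw_add (i j : ZMod p) : zpw p ζ (i + j) = zpw p ζ i * zpw p ζ j := by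
  obtain ⟨a, rfl⟩ := ZMod.natCast_zmod_surjective i
  obtain ⟨b, rfl⟩ := ZMod.natCast_zmod_surjective j
  rw [← Nat.cast_add, zpw_natCast hζ, zpw_natCast hζ, zpw_natCast hζ, pow_add]

omit hζ in
lemma zpw_zero : zpw p ζ 0 = 1 := by
  rw [zpw, ZMod.val_zero, pow_zero]

lemma zpw_ne_zero (i : ZMod p) : zpw p ζ i ≠ 0 :=
  pow_ne_zero _ (hζ.ne_zero (Fact.out : p.Prime).ne_zero)

omit [Fact p.Prime] in
lemma zpw_pow_eq_one (i : ZMod p) : zpw p ζ i ^ p = 1 := by
  rw [zpw, ← pow_mul, mul_comm, pow_mul, hζ.pow_eq_one, one_pow]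

lemma zpw_injective : Function.Injective (zpw p ζ) := fun i j h => by
  have : NeZero p := ⟨(Fact.out : p.Prime).ne_zero⟩
  exact ZMod.val_injective p (hζ.pow_inj i.val_lt j.val_lt h)

lemma zpw_eq_one_iff {i : ZMod p} : zpw p ζ i = 1 ↔ i = 0 := by
  rw [← zpw_zero (p := p) (ζ := ζ)]
  exact (zpw_injective hζ).eq_iff

lemma exists_zpw_eq {x : Qb} (h : x ^ p = 1) : ∃ i : ZMod p, zpw p ζ i = x := by
  have : NeZero p := ⟨(Fact.out : p.Prime).ne_zero⟩
  obtain ⟨i, -, rfl⟩ := hζ.eq_pow_of_pow_eq_one h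
  exact ⟨i, zpw_natCast hζ i⟩

omit hζ [Fact p.Prime] in
lemma map_zpw {σ : GQ} (h : σ ζ = ζ) (i : ZMod p) : σ (zpw p ζ i) = zpw p ζ i := by
  rw [zpw, map_pow, h]

end Roots

/-- The non-zero numbers fixed by `D`. -/
def fixedUnits (D : Subgroup GQ) : Subgroup Qbˣ where
  carrier := {a | ∀ σ ∈ D, σ (a : Qb) = a}
  one_mem' := fun σ _ => by simp
  mul_mem' := fun {a b} ha hb σ hσ => by rw [Units.val_mul, map_mul, ha σ hσ, hb σ hσ]
  inv_mem' := fun {a} ha σ hσ => by rw [Units.val_inv_eq_inv_val, map_inv₀, ha σ hσ]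

variable (p : ℕ) [Fact p.Prime]

/-- The data of a subgroup fixing a primitive `p`-th root of unity. -/
structure MuData (D : Subgroup GQ) where
  ζ : Qb
  isPrimitiveRoot : IsPrimitiveRoot ζ p
  fixed : ∀ σ ∈ D, σ ζ = ζ

variable {p} {D : Subgroup GQ} (μ : MuData p D)

/-- A chosen `p`-th root. -/
def rootP (p : ℕ) [Fact p.Prime] (a : Qb) : Qb :=
  (IsAlgClosed.exists_pow_nat_eq a (Fact.out : p.Prime).pos).choose

lemma rootP_pow (a : Qb) : rootP p a ^ p = a :=
  (IsAlgClosed.exists_pow_nat_eq a (Fact.out : p.Prime).pos).choose_spec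

/-- The exponent `i` with `σ r = ζ ^ i r` for `r ^ p = a`. -/
def kapFun (a : fixedUnits D) (σ : D) : ZMod p :=
  Function.invFun (zpw p μ.ζ) ((σ : GQ) (rootP p ((a : Qbˣ) : Qb)) / rootP p ((a : Qbˣ) : Qb))

lemma ne_zero_of_pow_eq {a : fixedUnits D} {r : Qb} (hr : r ^ p = ((a : Qbˣ) : Qb)) : r ≠ 0 := by
  rintro rfl
  rw [zero_pow (Fact.out : p.Prime).ne_zero] at hr
  exact (a : Qbˣ).ne_zero hr.symm

lemma kapFun_spec (a : fixedUnits D) {r : Qb} (hr : r ^ p = ((a : Qbˣ) : Qb)) (σ : D) :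
    (σ : GQ) r = zpw p μ.ζ (kapFun μ a σ) * r := by
  set r₀ := rootP p ((a : Qbˣ) : Qb)
  have hr₀ : r₀ ^ p = ((a : Qbˣ) : Qb) := rootP_pow _
  have h0 : r₀ ≠ 0 := ne_zero_of_pow_eq hr₀
  have hq : ((σ : GQ) r₀ / r₀) ^ p = 1 := by
    rw [div_pow, ← map_pow, hr₀, a.2 _ σ.2, div_self (a : Qbˣ).ne_zero]
  have h1 : zpw p μ.ζ (kapFun μ a σ) = (σ : GQ) r₀ / r₀ :=
    Function.invFun_eq (exists_zpw_eq μ.isPrimitiveRoot hq)
  obtain ⟨i, hi⟩ := exists_zpw_eq μ.isPrimitiveRoot (x := r / r₀) (by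
    rw [div_pow, hr, hr₀, div_self (a : Qbˣ).ne_zero])
  rw [eq_div_iff h0] at hi
  rw [h1, ← hi, map_mul, map_zpw (μ.fixed _ σ.2)]
  field_simp

lemma kapFun_eq_of (a : fixedUnits D) {r : Qb} (hr : r ^ p = ((a : Qbˣ) : Qb)) (σ : D) (i : ZMod p)
    (h : (σ : GQ) r = zpw p μ.ζ i * r) : kapFun μ a σ = i := by
  rw [kapFun_spec μ a hr σ] at h
  exact zpw_injective μ.isPrimitiveRoot (mul_right_cancel₀ (ne_zero_of_pow_eq hr) h)

lemma kapFun_mem_Z1 (a : fixedUnits D) :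
    kapFun μ a ∈ Z1 (subLevels D) (triv (ZMod p) D) := by
  refine ⟨isLev₁_eval (fun x => Function.invFun (zpw p μ.ζ) (x / rootP p ((a : Qbˣ) : Qb))) _,
    fun g h => ?_⟩
  refine kapFun_eq_of μ a (rootP_pow _) _ _ ?_
  show (g : GQ) ((h : GQ) _) = zpw p μ.ζ (kapFun μ a h + kapFun μ a g) * _
  rw [kapFun_spec μ a (rootP_pow _) h, map_mul, map_zpw (μ.fixed _ g.2),
    kapFun_spec μ a (rootP_pow _) g, zpw_add μ.isPrimitiveRoot, mul_assoc]

/-- The Kummer cocycle. -/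
def kap (a : fixedUnits D) : Z1 (subLevels D) (triv (ZMod p) D) :=
  ⟨kapFun μ a, kapFun_mem_Z1 μ a⟩

lemma kap_apply (a : fixedUnits D) (σ : D) : (kap μ a).1 σ = kapFun μ a σ := rfl

lemma kap_mul (a b : fixedUnits D) : kap μ (a * b) = kap μ a + kap μ b := by
  refine Subtype.ext (funext fun σ => kapFun_eq_of μ _
    (r := rootP p ((a : Qbˣ) : Qb) * rootP p ((b : Qbˣ) : Qb)) ?_ σ _ ?_)
  · rw [mul_pow, rootP_pow, rootP_pow]; rfl
  · show _ = zpw p μ.ζ (kapFun μ a σ + kapFun μ b σ) * _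
    rw [map_mul, kapFun_spec μ a (rootP_pow _), kapFun_spec μ b (rootP_pow _),
      zpw_add μ.isPrimitiveRoot]
    ring

/-- The Kummer map. -/
def kapHom : Additive (fixedUnits D) →+ H1c (subLevels D) (triv (ZMod p) D) :=
  AddMonoidHom.mk' (fun a => cl1 (subLevels D) (triv (ZMod p) D) (kap μ a.toMul)) fun a b => by
    rw [toMul_add, kap_mul, map_add]

lemma kapHom_apply (a : fixedUnits D) :
    kapHom μ (Additive.ofMul a) = cl1 (subLevels D) (triv (ZMod p) D) (kap μ a) := rfl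

/-- Cohomology in degree one with trivial coefficients is given by the cocycles. -/
lemma cl1_triv_eq_zero_iff {f : Z1 (subLevels D) (triv (ZMod p) D)} :
    cl1 (subLevels D) (triv (ZMod p) D) f = 0 ↔ f = 0 := by
  rw [cl1_eq_zero_iff]
  refine ⟨fun ⟨m, hm⟩ => Subtype.ext ?_, fun h => ⟨0, by rw [h, map_zero]; rfl⟩⟩
  rw [← hm]
  funext g
  simp

lemma kap_eq_zero_iff {a : fixedUnits D} :
    kap μ a = 0 ↔ ∃ b : fixedUnits D, b ^ p = a := by
  constructor
  · intro h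
    refine ⟨⟨Units.mk0 (rootP p ((a : Qbˣ) : Qb)) (ne_zero_of_pow_eq (rootP_pow _)), fun σ hσ => ?_⟩,
      Subtype.ext (Units.ext (by simpa using rootP_pow _))⟩
    have h' : kapFun μ a ⟨σ, hσ⟩ = 0 := congrFun (congrArg Subtype.val h) ⟨σ, hσ⟩
    simpa [h', zpw_zero] using kapFun_spec μ a (rootP_pow _) ⟨σ, hσ⟩
  · rintro ⟨b, rfl⟩
    refine Subtype.ext (funext fun σ => kapFun_eq_of μ _ (r := ((b : Qbˣ) : Qb)) ?_ σ 0 ?_)
    · simp
    · rw [zpw_zero, one_mul, b.2 _ σ.2]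

theorem kapHom_eq_zero_iff {a : fixedUnits D} :
    kapHom μ (Additive.ofMul a) = 0 ↔ ∃ b : fixedUnits D, b ^ p = a := by
  rw [kapHom_apply, cl1_triv_eq_zero_iff, kap_eq_zero_iff]

theorem kap_surjective (f : Z1 (subLevels D) (triv (ZMod p) D)) :
    ∃ a : fixedUnits D, kap μ a = f := by
  obtain ⟨t, ht0, ht⟩ := exists_eq_div_of_mulCocycle (fun g : D => zpw p μ.ζ (f.1 g))
    (f.2.1.comp (zpw p μ.ζ)) (fun g => zpw_ne_zero μ.isPrimitiveRoot _) fun g h => by
      rw [map_zpw (μ.fixed _ g.2), f.2.2 g h, zpw_add μ.isPrimitiveRoot, mul_comm]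
      rfl
  refine ⟨⟨Units.mk0 (t ^ p) (pow_ne_zero _ ht0), fun σ hσ => ?_⟩,
    Subtype.ext (funext fun σ => kapFun_eq_of μ _ (r := t) rfl σ _ ?_)⟩
  · have := congrArg (· ^ p) (ht ⟨σ, hσ⟩)
    simp only [zpw_pow_eq_one μ.isPrimitiveRoot, div_pow, ← map_pow] at this
    rw [eq_div_iff (pow_ne_zero _ ht0), one_mul] at this
    exact this.symm
  · rw [ht σ, div_mul_cancel₀ _ ht0]

theorem kapHom_surjective : Function.Surjective (kapHom μ) := by
  intro x
  obtain ⟨f, rfl⟩ := Submodule.mkQ_surjective _ x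
  obtain ⟨a, rfl⟩ := kap_surjective μ f
  exact ⟨Additive.ofMul a, rfl⟩

variable (p) in
/-- A field containing `μ_p` gives the data of a primitive root fixed by its local groups. -/
def muDataLocal (K : IntermediateField ℚ Qb) (hK : ContainsMuP p K) (A : ValuationSubring Qb) :
    MuData p (localGroup K A) where
  ζ := (HasEnoughRootsOfUnity.exists_primitiveRoot Qb p).choose
  isPrimitiveRoot := (HasEnoughRootsOfUnity.exists_primitiveRoot Qb p).choose_spec
  fixed σ hσ := by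
    have : NeZero p := ⟨(Fact.out : p.Prime).ne_zero⟩
    have hζ := (HasEnoughRootsOfUnity.exists_primitiveRoot Qb p).choose_spec
    have h := modularCyclotomicCharacter.spec Qb (ExtCitation.card_rootsOfUnity_eq_self p)
      (σ : Qb ≃+* Qb) (t := (hζ.isUnit (NeZero.ne p)).unit)
      (by rw [mem_rootsOfUnity]; exact Units.ext (by simpa using hζ.pow_eq_one))
    have h1 : ExtCitation.cycloChar p σ = 1 := hK σ hσ.1
    have : Fact (1 < p) := ⟨(Fact.out : p.Prime).one_lt⟩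
    rw [show modularCyclotomicCharacter Qb (ExtCitation.card_rootsOfUnity_eq_self p)
      (σ : Qb ≃+* Qb) = 1 from h1, Units.val_one, ZMod.val_one, pow_one] at h
    simpa using h

end

end FermatAgent.Duality.Local
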