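import Fermat.Agent.Duality.Local.Cyclic

/-!
# Classes of degree two dying on a subgroup of index `p`

If a class of `H²(D, 𝔽_p)` dies on the kernel of a character `χ`, it is some `κ b ∪ χ`.
-/

set_option autoImplicit false

open Finset

namespace FermatAgent.Duality.Local

noncomputable section

local notation "Qb" => AlgebraicClosure ℚ
local notation "GQ" => AlgebraicClosure ℚ ≃ₐ[ℚ] AlgebraicClosure ℚ

variable {p : ℕ} [Fact p.Prime] {D : Subgroup GQ}
  {χ : Z1 (subLevels D) (triv (ZMod p) D)} {s : D}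

lemma z2_rel {c : D × D → ZMod p} (hc : c ∈ Z2 (subLevels D) (triv (ZMod p) D)) (g h j : D) :
    c (g * h, j) + c (g, h) = c (h, j) + c (g, h * j) :=
  hc.2 g h j

/-- Normalisation: a cocycle vanishing on `N × N` may be assumed to vanish on `D × N`. -/
lemma exists_vanish_right (hs : χ.1 s = 1) (c : Z2 (subLevels D) (triv (ZMod p) D))
    (hc : ∀ n m, n ∈ kerChi χ → m ∈ kerChi χ → c.1 (n, m) = 0) :
    ∃ c' : Z2 (subLevels D) (triv (ZMod p) D), cls2 c' = cls2 c ∧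
      ∀ g n, n ∈ kerChi χ → c'.1 (g, n) = 0 := by
  obtain ⟨_, ⟨_, ⟨F, hF, rfl⟩, rfl⟩, hlev⟩ := c.2.1
  obtain ⟨F', hF', hχ⟩ := isLev₁_iff_exists_field.1 χ.2.1
  let y : D → ZMod p := fun g => c.1 (s ^ (χ.1 g).val, (s ^ (χ.1 g).val)⁻¹ * g)
  have hy : IsLev₁ (subLevels D) y := by
    refine isLev₁_iff_exists_field.2
      ⟨F ⊔ F', IntermediateField.finiteDimensional_sup F F', fun g t ht => ?_⟩
    rw [IntermediateField.fixingSubgroup_sup] at ht
    show c.1 (s ^ (χ.1 (g * t)).val, (s ^ (χ.1 (g * t)).val)⁻¹ * (g * t)) = _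
    rw [hχ g t ht.2, ← mul_assoc]
    simpa using hlev (s ^ (χ.1 g).val) ((s ^ (χ.1 g).val)⁻¹ * g) 1 (one_mem _) t ht.1
  have hd : dd₁ (triv (ZMod p) D) y ∈ Z2 (subLevels D) (triv (ZMod p) D) := by
    refine ⟨?_, fun g h j => ?_⟩
    · obtain ⟨U, hU, hyU⟩ := hy
      obtain ⟨V, hV, hle, hn⟩ := (subLevels D).exists_normal hU
      refine ⟨V, hV, fun g g' a ha a' ha' => ?_⟩
      show y (g' * a') - y (g * a * (g' * a')) + y (g * a) = y g' - y (g * g') + y g
      rw [hyU g a (hle ha), hyU g' a' (hle ha'),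
        show g * a * (g' * a') = g * g' * ((g'⁻¹ * a * g') * a') by group,
        hyU _ _ (hle (V.mul_mem (by simpa using hn.conj_mem a ha g'⁻¹) ha'))]
    · show y j - y (g * h * j) + y (g * h) + (y h - y (g * h) + y g)
        = y j - y (h * j) + y h + (y (h * j) - y (g * (h * j)) + y g)
      rw [mul_assoc]; ring
  refine ⟨c + ⟨_, hd⟩, ?_, fun g n hn => ?_⟩
  · rw [map_add, add_eq_left, cl2_eq_zero_iff]
    exact ⟨y, hy, rfl⟩
  show c.1 (g, n) + (y n - y (g * n) + y g) = 0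
  set i := (χ.1 g).val
  have hgn : χ.1 (g * n) = χ.1 g := by rw [chi_mul, hn, add_zero]
  have hyn : y n = 0 := by
    show c.1 (s ^ (χ.1 n).val, (s ^ (χ.1 n).val)⁻¹ * n) = 0
    rw [hn, ZMod.val_zero, pow_zero, inv_one, one_mul]
    exact hc 1 n (one_mem _) hn
  have hygn : y (g * n) = c.1 (s ^ i, (s ^ i)⁻¹ * g * n) := by
    show c.1 (s ^ (χ.1 (g * n)).val, _) = _
    rw [hgn, mul_assoc]
  have hyg : y g = c.1 (s ^ i, (s ^ i)⁻¹ * g) := rfl
  rw [hyn, hygn, hyg]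
  have e := z2_rel c.2 (s ^ i) ((s ^ i)⁻¹ * g) n
  rw [mul_inv_cancel_left, hc _ _ (inv_pow_mul_mem hs g) hn, zero_add] at e
  linear_combination e

/-- A class dying on `kerChi χ` has a representative vanishing on `D × kerChi χ`. -/
lemma exists_rep_vanish_right (hs : χ.1 s = 1) (c : Z2 (subLevels D) (triv (ZMod p) D))
    (hc : res2 (subLevels D) (triv (ZMod p) D) (kerChi χ) (cls2 c) = 0) :
    ∃ c' : Z2 (subLevels D) (triv (ZMod p) D), cls2 c = cls2 c' ∧
      ∀ g n, n ∈ kerChi χ → c'.1 (g, n) = 0 := by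
  -- extend the cochain killing the restriction
  obtain ⟨x, hx, hd⟩ := (cl2_eq_zero_iff _ _ _).1 hc
  let x' : D → ZMod p := fun g => x ⟨(s ^ (χ.1 g).val)⁻¹ * g, inv_pow_mul_mem hs g⟩
  have hx' : IsLev₁ (subLevels D) x' := by
    obtain ⟨_, ⟨U, hU, rfl⟩, hxU⟩ := hx
    obtain ⟨V, hV, hχ⟩ := χ.2.1
    obtain ⟨W, hW, hle⟩ := (subLevels D).inf_mem hU hV
    refine ⟨W, hW, fun g t ht => ?_⟩
    have hχt : χ.1 (g * t) = χ.1 g := hχ g t (hle ht).2
    have htN : t ∈ kerChi χ := by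
      rw [mem_kerChi, ← one_mul t, hχ 1 t (hle ht).2, chi_one]
    show x _ = x _
    rw [← hxU ⟨(s ^ (χ.1 g).val)⁻¹ * g, inv_pow_mul_mem hs g⟩ ⟨t, htN⟩ (hle ht).1]
    congr 1
    exact Subtype.ext (by simp [hχt, mul_assoc])
  have hd' : dd₁ (triv (ZMod p) D) x' ∈ Z2 (subLevels D) (triv (ZMod p) D) := by
    refine ⟨?_, fun g h j => ?_⟩
    · obtain ⟨U, hU, hyU⟩ := hx'
      obtain ⟨V, hV, hle, hn⟩ := (subLevels D).exists_normal hU
      refine ⟨V, hV, fun g g' a ha a' ha' => ?_⟩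
      show x' (g' * a') - x' (g * a * (g' * a')) + x' (g * a) = x' g' - x' (g * g') + x' g
      rw [hyU g a (hle ha), hyU g' a' (hle ha'),
        show g * a * (g' * a') = g * g' * ((g'⁻¹ * a * g') * a') by group,
        hyU _ _ (hle (V.mul_mem (by simpa using hn.conj_mem a ha g'⁻¹) ha'))]
    · show x' j - x' (g * h * j) + x' (g * h) + (x' h - x' (g * h) + x' g)
        = x' j - x' (h * j) + x' h + (x' (h * j) - x' (g * (h * j)) + x' g)
      rw [mul_assoc]; ring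
  have hker : ∀ n : kerChi χ, x' n = x n := fun n => by
    show x _ = x n
    congr 1
    exact Subtype.ext (by simp [show χ.1 n = 0 from n.2])
  let d : Z2 (subLevels D) (triv (ZMod p) D) := ⟨_, hd'⟩
  have hdval : ∀ g h, d.1 (g, h) = x' h - x' (g * h) + x' g := fun _ _ => rfl
  have hdcl : cls2 d = 0 := (cl2_eq_zero_iff _ _ d).2 ⟨x', hx', rfl⟩
  have hvan : ∀ n m, n ∈ kerChi χ → m ∈ kerChi χ → (c - d).1 (n, m) = 0 := by
    intro n m hn hm
    have e : x ⟨m, hm⟩ - x (⟨n, hn⟩ * ⟨m, hm⟩) + x ⟨n, hn⟩ = c.1 (n, m) :=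
      congrFun hd (⟨n, hn⟩, ⟨m, hm⟩)
    let q : kerChi χ := (⟨n, hn⟩ : kerChi χ) * ⟨m, hm⟩
    have h3 : x' (n * m) = x (⟨n, hn⟩ * ⟨m, hm⟩) := by
      have h := hker q
      simp only [q, Subgroup.coe_mul] at h
      exact h
    rw [AddSubgroupClass.coe_sub, Pi.sub_apply, hdval, hker ⟨m, hm⟩, hker ⟨n, hn⟩, h3, e, sub_self]
  obtain ⟨c', hc', hright⟩ := exists_vanish_right hs (c - d) hvan
  exact ⟨c', by rw [hc', map_sub, hdcl, sub_zero], hright⟩

/-- A class with a representative vanishing on `D × kerChi χ` is `κ b ∪ χ`. -/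
lemma exists_eq_cup_of_vanish_right (μ : MuData p D) (hs : χ.1 s = 1)
    (c' : Z2 (subLevels D) (triv (ZMod p) D)) (hright : ∀ g n, n ∈ kerChi χ → c'.1 (g, n) = 0) :
    ∃ b : fixedUnits D,
      cls2 c' = cupTriv (ZMod p) (subLevels D) (cls1 (kap μ b)) (cls1 χ) := by
  have hζ := μ.isPrimitiveRoot
  have : NeZero p := ⟨(Fact.out : p.Prime).ne_zero⟩
  -- basic identities for `c'`
  have rel := z2_rel c'.2
  have hcoset : ∀ g h n, n ∈ kerChi χ → c'.1 (g, h * n) = c'.1 (g, h) := fun g h n hn => by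
    have e := rel g h n
    rwa [hright _ n hn, hright _ n hn, zero_add, zero_add, eq_comm] at e
  have hswap : ∀ (g n h : D), n ∈ kerChi χ → c'.1 (g * n, h) = c'.1 (n, h) + c'.1 (g, n * h) := by
    intro g n h hn
    have e := rel g n h
    rwa [hright g n hn, add_zero] at e
  have hhom : ∀ n m, n ∈ kerChi χ → m ∈ kerChi χ → ∀ h,
      c'.1 (n * m, h) = c'.1 (m, h) + c'.1 (n, h) := by
    intro n m hn hm h
    rw [hswap n m h hm, show m * h = h * (h⁻¹ * m * h) by group,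
      hcoset n h _ (conj_mem_kerChi χ hm h)]
  -- Kummer element of `n ↦ c' (n, s)`
  let N := (kerChi χ).map D.subtype
  have hle : N ≤ D := Subgroup.map_subtype_le _
  have hkerN : ∀ n : N, (⟨n, hle n.2⟩ : D) ∈ kerChi χ := fun n => by
    obtain ⟨m, hm, hmn⟩ := n.2
    rwa [show (⟨n, hle n.2⟩ : D) = m from Subtype.ext hmn.symm]
  have hlevfst : IsLev₁ (subLevels D) fun g => c'.1 (g, s) := by
    obtain ⟨U, hU, h⟩ := c'.2.1
    exact ⟨U, hU, fun g t ht => by simpa using h g s t ht 1 (one_mem _)⟩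
  obtain ⟨r, hr0, hr⟩ := exists_eq_div_of_mulCocycle
    (fun n : N => zpw p μ.ζ (c'.1 (⟨n, hle n.2⟩, s)))
    ((isLev₁_restrict _ hlevfst).comp (zpw p μ.ζ)) (fun _ => zpw_ne_zero hζ _) fun g k => by
      rw [map_zpw (μ.fixed _ (hle g.2)), ← zpw_add hζ, add_comm (c'.1 (⟨g, hle g.2⟩, s)),
        ← hhom _ _ (hkerN g) (hkerN k)]
      rfl
  have hr' : ∀ n, n ∈ kerChi χ → (n : GQ) r = zpw p μ.ζ (c'.1 (n, s)) * r := fun n hn => by
    have e : zpw p μ.ζ (c'.1 (n, s)) = (n : GQ) r / r := hr ⟨n, n, hn, rfl⟩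
    rw [e, div_mul_cancel₀ _ hr0]
  let rr : ℕ → Qb := fun i => ∏ j ∈ range i, ((s ^ j : D) : GQ) r
  let a : ℕ → ZMod p := fun i => ∑ j ∈ range i, c'.1 (s ^ j, s)
  have hrr : ∀ j n, n ∈ kerChi χ → (n : GQ) (rr j) = zpw p μ.ζ (c'.1 (n, s ^ j)) * rr j := by
    intro j
    induction j with
    | zero => intro n hn; simp [rr, hright n 1 (one_mem _), zpw_zero]
    | succ j ih =>
      intro n hn
      have hn' := conj_mem_kerChi χ hn (s ^ j)
      have e : c'.1 (n, s ^ (j + 1)) = c'.1 ((s ^ j)⁻¹ * n * s ^ j, s) + c'.1 (n, s ^ j) := by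
        have e1 := rel n (s ^ j) s
        have e2 := hswap (s ^ j) _ s hn'
        rw [show s ^ j * ((s ^ j)⁻¹ * n * s ^ j) = n * s ^ j by group,
          show (s ^ j)⁻¹ * n * s ^ j * s = s * (s⁻¹ * ((s ^ j)⁻¹ * n * s ^ j) * s) by group,
          hcoset _ s _ (conj_mem_kerChi χ hn' s)] at e2
        rw [← pow_succ] at e1
        linear_combination e2 - e1
      have e3 : (n : GQ) (((s ^ j : D) : GQ) r)
          = ((s ^ j : D) : GQ) ((((s ^ j)⁻¹ * n * s ^ j : D) : GQ) r) := by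
        rw [← AlgEquiv.mul_apply, ← AlgEquiv.mul_apply, ← Subgroup.coe_mul, ← Subgroup.coe_mul]
        congr 2; group
      simp only [rr, prod_range_succ] at ih ⊢
      rw [map_mul, ih n hn, e3, hr' _ hn', map_mul, map_zpw (μ.fixed _ (s ^ j).2), e,
        zpw_add hζ]
      ring
  have ha : ∀ i j : ℕ, c'.1 (s ^ i, s ^ j) = a (i + j) - a i - a j := by
    intro i j
    induction j with
    | zero => simp [a, hright (s ^ i) 1 (one_mem _)]
    | succ j ih =>
      have e := rel (s ^ i) (s ^ j) s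
      rw [← pow_succ, ← pow_add] at e
      simp only [← add_assoc, a, sum_range_succ] at ih ⊢
      linear_combination ih - e
  have hrradd : ∀ i j, rr (i + j) = rr i * ((s ^ i : D) : GQ) (rr j) := by
    intro i j
    simp only [rr, prod_range_add, map_prod]
    congr 1
    refine prod_congr rfl fun k _ => ?_
    rw [pow_add, Subgroup.coe_mul, AlgEquiv.mul_apply]
  let R : ℕ → Qb := fun i => rr i / zpw p μ.ζ (a i)
  have hR0 : ∀ i, R i ≠ 0 := fun i => div_ne_zero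
    (prod_ne_zero_iff.2 fun j _ => (_root_.map_ne_zero _).2 hr0) (zpw_ne_zero hζ _)
  have hRmul : ∀ i j, R i * ((s ^ i : D) : GQ) (R j)
      = zpw p μ.ζ (c'.1 (s ^ i, s ^ j)) * R (i + j) := by
    intro i j
    simp only [R, map_div₀, map_zpw (μ.fixed _ (s ^ i).2), hrradd i j]
    have e : zpw p μ.ζ (c'.1 (s ^ i, s ^ j)) * (zpw p μ.ζ (a i) * zpw p μ.ζ (a j))
        = zpw p μ.ζ (a (i + j)) := by
      rw [ha, ← zpw_add hζ, ← zpw_add hζ]; congr 1; ring
    have := zpw_ne_zero hζ (a i)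
    have := zpw_ne_zero hζ (a j)
    have := zpw_ne_zero hζ (a (i + j))
    field_simp
    linear_combination -(rr i * ((s ^ i : D) : GQ) (rr j)) * e
  have hsp := pow_p_mem (χ := χ) (s := s)
  have hRn : ∀ i n, n ∈ kerChi χ → (n : GQ) (R i) = zpw p μ.ζ (c'.1 (n, s ^ i)) * R i := by
    intro i n hn
    simp only [R, map_div₀, map_zpw (μ.fixed _ n.2), hrr i n hn, mul_div_assoc]
  have hRp : ∀ j, R (p + j) = R p * R j := by
    intro j
    have e := hRmul p j
    rw [hRn j _ hsp, ← mul_assoc, mul_comm (R p), mul_assoc] at e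
    exact (mul_left_cancel₀ (zpw_ne_zero hζ _) e).symm
  have hfix : ∀ g ∈ D, g (R p) = R p := by
    intro g hg
    have h1 : ∀ n, n ∈ kerChi χ → (n : GQ) (R p) = R p := fun n hn => by
      rw [hRn p n hn, show c'.1 (n, s ^ p) = c'.1 (n, 1 * s ^ p) by rw [one_mul],
        hcoset n 1 _ hsp, hright n 1 (one_mem _), zpw_zero, one_mul]
    have h2 : ((s : D) : GQ) (R p) = R p := by
      have e := hRmul 1 p
      rw [hright _ _ hsp, zpw_zero, one_mul, add_comm 1 p, hRp 1, pow_one, mul_comm (R p)] at e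
      exact mul_left_cancel₀ (hR0 1) e
    have h3 : ∀ i : ℕ, ((s ^ i : D) : GQ) (R p) = R p := fun i => by
      induction i with
      | zero => simp
      | succ i ih => rw [pow_succ, Subgroup.coe_mul, AlgEquiv.mul_apply, h2, ih]
    set i := (χ.1 ⟨g, hg⟩).val
    calc g (R p) = ((s ^ i * ((s ^ i)⁻¹ * ⟨g, hg⟩) : D) : GQ) (R p) := by rw [mul_inv_cancel_left]
      _ = R p := by rw [Subgroup.coe_mul, AlgEquiv.mul_apply, h1 _ (inv_pow_mul_mem hs _), h3]
  have hRq : ∀ q k, R (p * q + k) = R p ^ q * R k := by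
    intro q k
    induction q with
    | zero => simp
    | succ q ih =>
      rw [show p * (q + 1) + k = p + (p * q + k) by ring, hRp, ih]; ring
  let b : fixedUnits D := ⟨Units.mk0 (R p) (hR0 p), hfix⟩
  refine ⟨b, ?_⟩
  show cls2 c' = cls2 (cupZ (triv (ZMod p) D) (subLevels D) (isPairing_mul (ZMod p) D) (kap μ b) χ)
  rw [← sub_eq_zero, ← map_sub]
  have hv0 : rootP p (R p) ≠ 0 := ne_zero_of_pow_eq (a := b) (rootP_pow _)
  refine cl2_eq_zero_of_mul μ _ (fun g => R (χ.1 g).val / rootP p (R p) ^ (χ.1 g).val)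
    (χ.2.1.comp fun i : ZMod p => R i.val / rootP p (R p) ^ i.val)
    (fun g => div_ne_zero (hR0 _) (pow_ne_zero _ hv0)) fun g h => ?_
  show zpw p μ.ζ (c'.1 (g, h) - kapFun μ b g * χ.1 h) * _ = _
  -- the value of `c'` at a general pair
  set i := (χ.1 g).val
  set j := (χ.1 h).val
  set n := (s ^ i)⁻¹ * g
  have hn : n ∈ kerChi χ := inv_pow_mul_mem hs g
  have hc'gh : c'.1 (g, h) = c'.1 (n, s ^ j) + c'.1 (s ^ i, s ^ j) := by
    have e1 : c'.1 (g, h) = c'.1 (g, s ^ j) := by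
      conv_lhs => rw [show h = s ^ j * ((s ^ j)⁻¹ * h) by group]
      exact hcoset _ _ _ (inv_pow_mul_mem hs h)
    rw [e1, show g = s ^ i * n by simp [n], hswap _ n _ hn,
      show n * s ^ j = s ^ j * ((s ^ j)⁻¹ * n * s ^ j) by group,
      hcoset _ _ _ (conj_mem_kerChi χ hn _)]
  have hgR : (g : GQ) (R j) = zpw p μ.ζ (c'.1 (n, s ^ j)) * ((s ^ i : D) : GQ) (R j) := by
    conv_lhs => rw [show g = s ^ i * n by simp [n]]
    rw [Subgroup.coe_mul, AlgEquiv.mul_apply, hRn j n hn, map_mul, map_zpw (μ.fixed _ (s ^ i).2)]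
  have hsym := symbol_cochain (χ := χ) μ b g h
  rw [← chi_mul] at hsym
  change _ * (rootP p (R p) ^ _ * R p ^ _) = rootP p (R p) ^ i * (g : GQ) (rootP p (R p) ^ j) at hsym
  rw [map_div₀, hgR, div_mul_div_comm, ← hsym, mul_left_comm (R i), hRmul i j,
    val_chi_mul g h, add_comm (χ.1 (g * h)).val, hRq]
  have e : zpw p μ.ζ (c'.1 (g, h) - kapFun μ b g * χ.1 h) * zpw p μ.ζ (kapFun μ b g * χ.1 h)
      = zpw p μ.ζ (c'.1 (n, s ^ j)) * zpw p μ.ζ (c'.1 (s ^ i, s ^ j)) := by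
    rw [← zpw_add hζ, ← zpw_add hζ]; congr 1; rw [hc'gh]; ring
  have := zpw_ne_zero hζ (kapFun μ b g * χ.1 h)
  have := pow_ne_zero (χ.1 (g * h)).val hv0
  have := pow_ne_zero (carryP (χ.1 g) (χ.1 h)) (hR0 p)
  field_simp
  linear_combination (R (χ.1 (g * h)).val) * e

/-- A class dying on the kernel of a character `χ` is `κ b ∪ χ`. -/
theorem exists_eq_cup_of_res_eq_zero (μ : MuData p D) (hs : χ.1 s = 1)
    (c : H2c (subLevels D) (triv (ZMod p) D))
    (hc : res2 (subLevels D) (triv (ZMod p) D) (kerChi χ) c = 0) :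
    ∃ b : fixedUnits D, c = cupTriv (ZMod p) (subLevels D) (cls1 (kap μ b)) (cls1 χ) := by
  obtain ⟨c, rfl⟩ := Submodule.mkQ_surjective _ c
  obtain ⟨c', hcl, hright⟩ := exists_rep_vanish_right hs c hc
  obtain ⟨b, hb⟩ := exists_eq_cup_of_vanish_right μ hs c' hright
  exact ⟨b, hcl.trans hb⟩

end

end FermatAgent.Duality.Local
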