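import Fermat.Agent.Duality.Local.Transfer

/-!
# The degree formula `[K^h : ℚ^h] = e f`

With residue representatives `ω` and a uniformiser `ϖ` the elements `ω ϖ^b` (`b < e`) are
independent over `ℚ^h`; they span by approximation and the continuity of the trace.
-/

set_option autoImplicit false

open Finset Module

namespace FermatAgent.Duality.Local

open FermatAgent.Local

noncomputable section

local notation "Qb" => AlgebraicClosure ℚ
local notation "GQ" => AlgebraicClosure ℚ ≃ₐ[ℚ] AlgebraicClosure ℚ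

attribute [local instance] FermatAgent.RT.isGalois_algClosureRat

variable {A : ValuationSubring Qb} {l : ℕ} (hl : l.Prime) (hA : A.LiesOverPrime l)
  {K : IntermediateField ℚ Qb} [FiniteDimensional ℚ K]

lemma localGroup_bot (A : ValuationSubring Qb) :
    localGroup ⊥ A = A.decompositionSubgroup ℚ := by
  rw [localGroup, IntermediateField.fixingSubgroup_bot, top_inf_eq]

omit [FiniteDimensional ℚ K] in
/-- The local field as an extension of `ℚ^h`. -/
lemma finrank_extendScalars_localField :
    finrank (localField ⊥ A) (IntermediateField.extendScalars (localField_mono (A := A) (bot_le : ⊥ ≤ K)))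
      = (localGroup K A).relIndex (A.decompositionSubgroup ℚ) := by
  rw [IntermediateField.finrank_eq_fixingSubgroup_index, ← localGroup_bot, Subgroup.relIndex]
  let e := IntermediateField.fixingSubgroupEquiv (localField (⊥ : IntermediateField ℚ Qb) A)
  have h : (localField ⊥ A).fixingSubgroup = localGroup ⊥ A := fixingSubgroup_localField
  let e' : localGroup ⊥ A ≃* Gal(Qb/localField (⊥ : IntermediateField ℚ Qb) A) :=
    (MulEquiv.subgroupCongr h.symm).trans e
  have key : (IntermediateField.extendScalars (localField_mono (A := A) (bot_le : ⊥ ≤ K))).fixingSubgroup.comap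
      e'.toMonoidHom = (localGroup K A).subgroupOf (localGroup ⊥ A) := by
    ext σ
    rw [Subgroup.mem_comap, Subgroup.mem_subgroupOf, ← fixingSubgroup_localField (K := K)]
    exact ⟨fun hσ x => hσ ⟨x.1, x.2⟩, fun hσ x => hσ ⟨x.1, x.2⟩⟩
  rw [← key, Subgroup.index_comap_of_surjective _ e'.surjective]

lemma relIndex_localGroup_ne_zero :
    (localGroup K A).relIndex (A.decompositionSubgroup ℚ) ≠ 0 := by
  have := finiteIndex_fixingSubgroup K
  rw [localGroup, Subgroup.inf_relIndex_right, Subgroup.relIndex]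
  exact Subgroup.FiniteIndex.index_ne_zero

include hl hA in
omit [FiniteDimensional ℚ K] in
/-- A non-zero element of `ℚ^h` has the value of a power of `l`. -/
lemma val_botLocal_eq_zpow {x : Qb} (hx : x ∈ localField ⊥ A) (hx0 : x ≠ 0) :
    ∃ i : ℤ, A.valuation x = A.valuation (l : Qb) ^ i := by
  obtain ⟨y, hy, hy0, e⟩ := exists_mem_val_eq (K := (⊥ : IntermediateField ℚ Qb)) hl hA hx hx0
  obtain ⟨r, rfl⟩ := IntermediateField.mem_bot.1 hy
  rw [← e]
  have : r ≠ 0 := fun h => hy0 (by rw [h, map_zero])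
  simpa using val_rat_eq_zpow (A := A) hl hA this

include hl hA in
omit [FiniteDimensional ℚ K] in
/-- Integers of `ℚ^h` are congruent to integers. -/
lemma exists_int_close {x : Qb} (hx : x ∈ localField ⊥ A) (hxA : x ∈ A) :
    ∃ n : ℤ, A.valuation (x - n) < 1 := by
  obtain ⟨y, hy, hxy⟩ := exists_approx (K := (⊥ : IntermediateField ℚ Qb)) hl hA hx
    (one_ne_zero : (1 : A.ValueGroup) ≠ 0)
  obtain ⟨r, rfl⟩ := IntermediateField.mem_bot.1 hy
  rw [eq_ratCast] at hxy
  have hrA : A.valuation (r : Qb) ≤ 1 := by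
    rw [show (r : Qb) = x - (x - r) by ring]
    exact A.valuation.map_sub_le (val_le_one_of_mem hxA) hxy.le
  have hden : ¬ (l : ℤ) ∣ r.den := by
    intro hd
    have hnum : ¬ (l : ℤ) ∣ r.num := fun hn =>
      hl.ne_one (Nat.dvd_one.1 (r.reduced ▸ Nat.dvd_gcd (Int.natCast_dvd.1 hn)
        (Int.natCast_dvd_natCast.1 hd)))
    have h1 : A.valuation (r.num : Qb) = 1 := val_intCast_eq_one hl hA hnum
    have h2 : A.valuation (((r.den : ℤ) : Qb)) < 1 := (val_intCast_lt_one_iff hl hA _).2 hd
    rw [Int.cast_natCast] at h2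
    rw [Rat.cast_def, map_div₀, h1, one_div] at hrA
    exact absurd hrA (not_le.2 ((one_lt_inv₀ (zero_lt_iff.2 ((_root_.map_ne_zero _).2
      (Nat.cast_ne_zero.2 r.den_ne_zero)))).2 h2))
  obtain ⟨u, w, huw⟩ := (Prime.coprime_iff_not_dvd (Nat.prime_iff_prime_int.1 hl)).2 hden
  refine ⟨r.num * w, ?_⟩
  rw [show x - ((r.num * w : ℤ) : Qb) = (x - r) + ((r : Qb) - ((r.num * w : ℤ) : Qb)) by ring]
  refine A.valuation.map_add_lt hxy ?_
  have hd0 : (r.den : Qb) ≠ 0 := Nat.cast_ne_zero.2 r.den_ne_zero
  have hu : (u : Qb) * l + w * (r.den : Qb) = 1 := by exact_mod_cast huw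
  have e : (r : Qb) - ((r.num * w : ℤ) : Qb) = (r : Qb) * (u : Qb) * (l : Qb) := by
    rw [Rat.cast_def]; push_cast; field_simp
    linear_combination (-(r.num : Qb)) * hu
  rw [e, map_mul, map_mul]
  exact val_mul_lt_one_of_le_of_lt (mul_le_one' hrA (val_le_one_of_mem (intCast_mem A u))) hA

include hl hA in
/-- The degree formula. -/
theorem exists_residue_degree (u : LocalUnif A K) :
    ∃ f e : ℕ, Nat.card (resRing (localField K A) A) = l ^ f ∧
      A.valuation (l : Qb) = A.valuation u.ϖ ^ e ∧
      (localGroup K A).relIndex (A.decompositionSubgroup ℚ) = f * e := by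
  classical
  have : Fact l.Prime := ⟨hl⟩
  have := finite_resRing hl hA (K := K)
  have := charP_residue hl hA
  let _alg : Algebra (ZMod l) (IsLocalRing.ResidueField A) := ZMod.algebra _ l
  let W : Submodule (ZMod l) (IsLocalRing.ResidueField A) :=
    { (resRing (localField K A) A).toAddSubgroup with
      smul_mem' := fun c x hx => by
        obtain ⟨m, rfl⟩ := ZMod.natCast_zmod_surjective c
        rw [Nat.cast_smul_eq_nsmul]
        exact AddSubgroup.nsmul_mem _ hx m }
  have hWfin : Finite W := ‹Finite (resRing (localField K A) A)›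
  set f := finrank (ZMod l) W
  have hcard : Nat.card (resRing (localField K A) A) = l ^ f := by
    have h := Module.natCard_eq_pow_finrank (K := ZMod l) (V := W)
    rw [Nat.card_zmod] at h
    exact h
  let bs : Basis (Fin f) (ZMod l) W := Module.finBasis (ZMod l) W
  have hlift : ∀ a, ∃ w : A, (w : Qb) ∈ localField K A ∧
      IsLocalRing.residue A w = (bs a : IsLocalRing.ResidueField A) := fun a => by
    obtain ⟨w, hw, e⟩ := (bs a).2
    exact ⟨w, hw, e⟩
  choose ω hωL hω using hlift
  have hlL : (l : Qb) ∈ localField K A := natCast_mem _ l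
  have hl0 : (l : Qb) ≠ 0 := Nat.cast_ne_zero.2 hl.ne_zero
  obtain ⟨e, he⟩ := u.exists_pow_of_le_one hlL hl0 (le_of_lt hA)
  refine ⟨f, e, hcard, he, ?_⟩
  let L₀ := localField (⊥ : IntermediateField ℚ Qb) A
  let L' := IntermediateField.extendScalars (localField_mono (A := A) (bot_le : ⊥ ≤ K))
  have hfr : finrank L₀ L' = _ := finrank_extendScalars_localField (A := A) (K := K)
  have : FiniteDimensional L₀ L' :=
    Module.finite_of_finrank_pos (by rw [hfr]; exact Nat.pos_of_ne_zero relIndex_localGroup_ne_zero)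
  let w : Fin f × Fin e → Qb := fun ab => (ω ab.1 : Qb) * u.ϖ ^ (ab.2 : ℕ)
  have hwL : ∀ ab, w ab ∈ localField K A := fun ab =>
    mul_mem (hωL _) (pow_mem u.mem_local _)
  -- approximation by integral combinations
  have happrox : ∀ n : ℕ, ∀ x ∈ localField K A, x ∈ A → n ≤ e →
      ∃ m : Fin f × Fin e → ℤ, ∃ y ∈ localField K A, y ∈ A ∧
        x - ∑ ab, (m ab : Qb) * w ab = u.ϖ ^ n * y := by
    intro n
    induction n with
    | zero => intro x hx hxA _; exact ⟨0, x, hx, hxA, by simp⟩
    | succ n ih =>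
      intro x hx hxA hn
      obtain ⟨m, y, hy, hyA, hxy⟩ := ih x hx hxA (by omega)
      let yb : W := ⟨IsLocalRing.residue A ⟨y, hyA⟩, ⟨y, hyA⟩, hy, rfl⟩
      let k : Fin f → ℤ := fun a => ((bs.repr yb a).val : ℤ)
      have hsum : A.valuation (y - ∑ a, (k a : Qb) * (ω a : Qb)) < 1 := by
        have h1 : IsLocalRing.residue A ⟨y, hyA⟩ =
            IsLocalRing.residue A (∑ a, (k a : A) * ω a) := by
          have h2 := congrArg Subtype.val (bs.sum_repr yb)
          rw [Submodule.coe_sum] at h2
          rw [map_sum, ← show _ = IsLocalRing.residue A ⟨y, hyA⟩ from h2]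
          refine Finset.sum_congr rfl fun a _ => ?_
          rw [Submodule.coe_smul, map_mul, map_intCast, hω a, Algebra.smul_def]
          congr 1
          simp only [k, Int.cast_natCast]
          rw [← map_natCast (algebraMap (ZMod l) (IsLocalRing.ResidueField A)), ZMod.natCast_zmod_val]
        rw [residue_eq_residue_iff] at h1
        simpa using h1
      set y' := (y - ∑ a, (k a : Qb) * (ω a : Qb)) / u.ϖ with hy'
      have hy'L : y' ∈ localField K A := div_mem (sub_mem hy (sum_mem fun a _ =>
        mul_mem (intCast_mem _ _) (hωL a))) u.mem_local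
      have hy'A : y' ∈ A := (A.valuation_le_one_iff _).1 (by
        rw [hy', map_div₀]
        exact div_le_one_of_le₀ (u.le_val (sub_mem hy (sum_mem fun a _ =>
          mul_mem (intCast_mem _ _) (hωL a))) hsum) zero_le)
      refine ⟨fun ab => m ab + if (ab.2 : ℕ) = n then k ab.1 else 0, y', hy'L, hy'A, ?_⟩
      have hadd : ∑ ab : Fin f × Fin e, ((m ab + if (ab.2 : ℕ) = n then k ab.1 else 0 : ℤ) : Qb) * w ab
          = ∑ ab, (m ab : Qb) * w ab + u.ϖ ^ n * ∑ a, (k a : Qb) * (ω a : Qb) := by
        simp only [Int.cast_add, add_mul, Finset.sum_add_distrib, mul_sum]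
        congr 1
        rw [Fintype.sum_prod_type]
        refine Finset.sum_congr rfl fun a _ => ?_
        rw [Finset.sum_eq_single (⟨n, by omega⟩ : Fin e)]
        · simp [w]; ring
        · intro b _ hb
          rw [if_neg (fun h => hb (Fin.ext h)), Int.cast_zero, zero_mul]
        · simp
      rw [hadd, ← sub_sub, hxy, hy', pow_succ, mul_assoc, mul_div_cancel₀ _ u.ne_zero]
      ring
  have hiter : ∀ N : ℕ, ∀ x ∈ localField K A, x ∈ A →
      ∃ m : Fin f × Fin e → ℤ, A.valuation (x - ∑ ab, (m ab : Qb) * w ab) ≤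
        A.valuation (l : Qb) ^ N := by
    intro N
    induction N with
    | zero =>
      intro x _ hxA
      exact ⟨0, by simpa using val_le_one_of_mem hxA⟩
    | succ N ih =>
      intro x hx hxA
      obtain ⟨m, y, hy, hyA, hxy⟩ := happrox e x hx hxA le_rfl
      set z := u.ϖ ^ e / (l : Qb) * y
      have hzA : z ∈ A := mul_mem ((A.valuation_le_one_iff _).1 (by
        rw [map_div₀, map_pow, ← he, div_self (val_l_pos hl).ne'])) hyA
      obtain ⟨m', hm'⟩ := ih z (mul_mem (div_mem (pow_mem u.mem_local _) hlL) hy) hzA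
      refine ⟨fun ab => m ab + l * m' ab, ?_⟩
      have e1 : x - ∑ ab, ((m ab + l * m' ab : ℤ) : Qb) * w ab =
          (l : Qb) * (z - ∑ ab, (m' ab : Qb) * w ab) := by
        simp only [Int.cast_add, Int.cast_mul, Int.cast_natCast, add_mul, Finset.sum_add_distrib,
          ← sub_sub, hxy]
        rw [mul_sub, mul_sum]
        congr 1
        · simp only [z]; field_simp
        · exact Finset.sum_congr rfl fun _ _ => by ring
      rw [e1, map_mul, pow_succ']
      exact mul_le_mul' le_rfl hm'
  -- independence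
  let w' : Fin f × Fin e → L' := fun ab => ⟨w ab, hwL ab⟩
  have hind : LinearIndependent L₀ w' := by
    rw [Fintype.linearIndependent_iff]
    intro c hc
    by_contra hne
    push Not at hne
    obtain ⟨ab₁, hab₁⟩ := hne
    obtain ⟨ab₀, -, hmax⟩ := Finset.exists_max_image Finset.univ (fun ab => A.valuation (c ab : Qb))
      ⟨ab₁, Finset.mem_univ _⟩
    have hc₀ : (c ab₀ : Qb) ≠ 0 := fun h0 => by
      have := hmax ab₁ (Finset.mem_univ _)
      rw [h0, map_zero, le_zero_iff, map_eq_zero] at this
      exact hab₁ (Subtype.ext this)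
    let d : Fin f × Fin e → Qb := fun ab => (c ab : Qb) / (c ab₀ : Qb)
    have hdL : ∀ ab, d ab ∈ L₀ := fun ab => div_mem (c ab).2 (c ab₀).2
    have hdA : ∀ ab, d ab ∈ A := fun ab => (A.valuation_le_one_iff _).1 (by
      rw [map_div₀]; exact div_le_one_of_le₀ (hmax ab (Finset.mem_univ _)) zero_le)
    have hsum : ∑ ab, d ab * w ab = 0 := by
      have := congrArg (fun x : L' => (x : Qb) / (c ab₀ : Qb)) hc
      simp only [AddSubmonoidClass.coe_finsetSum, Finset.sum_div, ZeroMemClass.coe_zero,
        zero_div] at this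
      rw [← this]
      refine Finset.sum_congr rfl fun ab _ => ?_
      show (c ab : Qb) / (c ab₀ : Qb) * w ab = (c ab : Qb) * w ab / (c ab₀ : Qb)
      ring
    have hsmall : ∀ ab, A.valuation (d ab) < 1 → A.valuation (d ab) ≤ A.valuation u.ϖ ^ e := by
      intro ab h
      rcases eq_or_ne (d ab) 0 with h0 | h0
      · simp [h0]
      obtain ⟨i, hi⟩ := val_botLocal_eq_zpow hl hA (hdL ab) h0
      rw [hi, ← zpow_zero (A.valuation (l : Qb))] at h
      have hanti := zpow_right_strictAnti₀ (val_l_pos (A := A) hl) (val_l_lt_one hl hA)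
      rw [← he, hi, ← zpow_one (A.valuation (l : Qb)), ← zpow_mul, one_mul]
      exact hanti.antitone (hanti.lt_iff_gt.1 h)
    -- the first level with a unit coefficient
    have hex : ∃ b : ℕ, ∃ ab : Fin f × Fin e, (ab.2 : ℕ) = b ∧ A.valuation (d ab) = 1 :=
      ⟨_, ab₀, rfl, by simp [d, div_self hc₀]⟩
    obtain ⟨⟨a₁, b₁⟩, hb₁, ha₁⟩ := Nat.find_spec hex
    have hbe : (b₁ : ℕ) < e := b₁.2
    -- residue of the level `b₁` part
    let s : A := ∑ a, (⟨d (a, b₁), hdA _⟩ : A) * ω a
    have hs : IsLocalRing.residue A s ≠ 0 := by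
      intro h0
      have hk : ∀ a, ∃ n : ℤ, A.valuation (d (a, b₁) - n) < 1 := fun a =>
        exists_int_close hl hA (hdL _) (hdA _)
      choose n hn using hk
      have h1 : ∑ a, (n a : ZMod l) • bs a = 0 := by
        refine Subtype.ext ?_
        rw [Submodule.coe_sum, ZeroMemClass.coe_zero, ← h0, map_sum]
        refine Finset.sum_congr rfl fun a _ => ?_
        rw [Submodule.coe_smul, map_mul, Algebra.smul_def, map_intCast, hω a, eq_comm]
        congr 1
        rw [← map_intCast (IsLocalRing.residue A), residue_eq_residue_iff]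
        simpa using hn a
      have h2 := Fintype.linearIndependent_iff.1 bs.linearIndependent _ h1 a₁
      rw [ZMod.intCast_zmod_eq_zero_iff_dvd] at h2
      have h3 : A.valuation (d (a₁, b₁)) < 1 := by
        rw [show d (a₁, b₁) = (d (a₁, b₁) - n a₁) + n a₁ by ring]
        exact A.valuation.map_add_lt (hn a₁) ((val_intCast_lt_one_iff hl hA _).2 h2)
      exact h3.ne ha₁
    have hvs : A.valuation ((s : Qb) * u.ϖ ^ (b₁ : ℕ)) = A.valuation u.ϖ ^ (b₁ : ℕ) := by
      rw [map_mul, map_pow, le_antisymm (val_le_one_of_mem s.2)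
        (le_of_not_gt fun h => hs (residue_eq_zero_iff'.2 h)), one_mul]
    have hrest : A.valuation (∑ ab ∈ univ.filter (fun ab : Fin f × Fin e => ab.2 ≠ b₁), d ab * w ab)
        ≤ A.valuation u.ϖ ^ ((b₁ : ℕ) + 1) := by
      refine A.valuation.map_sum_le fun ab hab => ?_
      have hωa : A.valuation ((ω ab.1 : A) : Qb) ≤ 1 := val_le_one_of_mem (ω ab.1).2
      show A.valuation (d ab * ((ω ab.1 : Qb) * u.ϖ ^ (ab.2 : ℕ))) ≤ _
      rw [map_mul, map_mul, map_pow]
      rcases lt_or_gt_of_ne (Fin.val_ne_of_ne (Finset.mem_filter.1 hab).2) with h | h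
      · have h1 : A.valuation (d ab) < 1 := lt_of_le_of_ne (val_le_one_of_mem (hdA ab)) fun h1 =>
          Nat.find_min hex (hb₁ ▸ h) ⟨ab, rfl, h1⟩
        calc A.valuation (d ab) * (A.valuation (ω ab.1 : Qb) * A.valuation u.ϖ ^ (ab.2 : ℕ))
            ≤ A.valuation u.ϖ ^ e * 1 :=
              mul_le_mul' (hsmall ab h1) (mul_le_one' hωa (pow_le_one₀ zero_le u.lt_one.le))
          _ ≤ _ := by rw [mul_one]; exact pow_le_pow_right_of_le_one' u.lt_one.le hbe
      · calc A.valuation (d ab) * (A.valuation (ω ab.1 : Qb) * A.valuation u.ϖ ^ (ab.2 : ℕ))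
            ≤ 1 * (1 * A.valuation u.ϖ ^ ((b₁ : ℕ) + 1)) :=
              mul_le_mul' (val_le_one_of_mem (hdA ab))
                (mul_le_mul' hωa (pow_le_pow_right_of_le_one' u.lt_one.le h))
          _ = _ := by rw [one_mul, one_mul]
    have hlevel : ∑ ab ∈ univ.filter (fun ab : Fin f × Fin e => ab.2 = b₁), d ab * w ab
        = (s : Qb) * u.ϖ ^ (b₁ : ℕ) := by
      push_cast [s]
      rw [Finset.sum_mul]
      refine Finset.sum_bij' (fun ab _ => ab.1) (fun a _ => (a, b₁)) (by simp) (by simp)
        (fun ab hab => Prod.ext rfl (Finset.mem_filter.1 hab).2.symm) (by simp) fun ab hab => ?_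
      obtain rfl := (Finset.mem_filter.1 hab).2
      simp [w, mul_assoc]
    rw [← Finset.sum_filter_add_sum_filter_not Finset.univ (fun ab => ab.2 = b₁), hlevel,
      add_eq_zero_iff_eq_neg] at hsum
    rw [hsum, Valuation.map_neg] at hvs
    exact (pow_lt_pow_right_of_lt_one₀ u.pos u.lt_one (Nat.lt_succ_self _)).not_ge (hvs ▸ hrest)
  -- spanning
  have hspan : Submodule.span L₀ (Set.range w') = ⊤ := by
    by_contra hne
    obtain ⟨φ, hφ0, hφ⟩ := Submodule.exists_dual_map_eq_bot_of_lt_top (lt_top_iff_ne_top.2 hne)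
      inferInstance
    obtain ⟨b, hb⟩ : ∃ b : L', Algebra.traceForm L₀ L' b = φ :=
      ⟨_, (LinearMap.BilinForm.toDual (Algebra.traceForm L₀ L')
        (traceForm_nondegenerate L₀ L')).apply_symm_apply φ⟩
    have hbound : ∀ y : L', A.valuation ((φ y : L₀) : Qb) ≤
        A.valuation (b : Qb) * A.valuation (y : Qb) := by
      intro y
      rw [← hb, Algebra.traceForm_apply]
      show A.valuation (algebraMap L₀ Qb (Algebra.trace L₀ L' (b * y))) ≤ _
      rw [trace_eq_sum_embeddings Qb, ← map_mul A.valuation]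
      refine A.valuation.map_sum_le fun τ _ => ?_
      obtain ⟨σ, hσ, hστ⟩ := exists_galois_extends τ
      rw [← hστ]
      rw [fixingSubgroup_localField] at hσ
      exact (val_of_mem_localGroup hσ _).le
    have hzero : ∀ x : L', (x : Qb) ∈ A → φ x = 0 := by
      intro x hxA
      by_contra hne0
      have hv : A.valuation ((φ x : L₀) : Qb) ≠ 0 :=
        (_root_.map_ne_zero _).2 fun h0 => hne0 (Subtype.ext h0)
      have hb0 : (b : Qb) ≠ 0 := fun h0 => hv (le_antisymm
        ((hbound x).trans (by rw [h0, map_zero, zero_mul])) zero_le)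
      obtain ⟨N, hN⟩ := exists_pow_lt hl hA (val_l_lt_one hl hA)
        (div_ne_zero hv ((_root_.map_ne_zero A.valuation).2 hb0))
      obtain ⟨m, hm⟩ := hiter N x x.2 hxA
      let y : L' := x - ∑ ab, (m ab : L₀) • w' ab
      have hφy : φ y = φ x := by
        rw [map_sub, sub_eq_self, map_sum]
        refine Finset.sum_eq_zero fun ab _ => ?_
        have h0 : φ (w' ab) ∈ Submodule.map φ (Submodule.span L₀ (Set.range w')) :=
          ⟨_, Submodule.subset_span ⟨ab, rfl⟩, rfl⟩
        rw [hφ, Submodule.mem_bot] at h0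
        rw [map_smul, h0, smul_zero]
      have hyv : (y : Qb) = x - ∑ ab, (m ab : Qb) * w ab := by
        simp only [y, AddSubgroupClass.coe_sub, AddSubmonoidClass.coe_finsetSum]
        congr 1
      rw [lt_div_iff₀ (zero_lt_iff.2 ((_root_.map_ne_zero A.valuation).2 hb0))] at hN
      refine absurd ((hbound y).trans ?_) (not_le.2 (hφy ▸ hN))
      rw [hyv, mul_comm]
      exact mul_le_mul' hm le_rfl
    refine hφ0 (LinearMap.ext fun x => ?_)
    rcases le_or_gt (A.valuation (x : Qb)) 1 with h | h
    · exact hzero x ((A.valuation_le_one_iff _).1 h)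
    obtain ⟨N, hN⟩ := exists_pow_lt hl hA (val_l_lt_one hl hA)
      (inv_ne_zero (zero_lt_one.trans h).ne')
    have hx' : (((l : L₀) ^ N • x : L') : Qb) = (l : Qb) ^ N * (x : Qb) := by
      show (((l : L₀) ^ N : L₀) : Qb) * (x : Qb) = _
      push_cast; rfl
    have h0 := hzero ((l : L₀) ^ N • x) (by
      rw [hx', ← A.valuation_le_one_iff, map_mul, map_pow]
      rw [← inv_mul_cancel₀ (zero_lt_one.trans h).ne']
      exact mul_le_mul' hN.le le_rfl)
    rw [map_smul, smul_eq_zero] at h0
    exact h0.resolve_left (pow_ne_zero _ (fun h => hl0 (by simpa using congrArg Subtype.val h)))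
  rw [← hfr, ← finrank_top L₀ L', ← hspan, finrank_span_eq_card hind]
  simp [Fintype.card_prod, Fintype.card_fin]

end

end FermatAgent.Duality.Local
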