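import Fermat.Agent.Duality.Local.Nondeg
import Fermat.Agent.Duality.Local.Degree

/-!
# The order of `H¹`

The classes of units of level `i` drop by the number of residues at each level prime to `p` below
the critical one.
-/

set_option autoImplicit false

open Finset

namespace FermatAgent.Duality.Local

open FermatAgent.Local

noncomputable section

local notation "Qb" => AlgebraicClosure ℚ

lemma card_filter_not_dvd {p : ℕ} (hp : 0 < p) (E : ℕ) :
    ((range (p * E)).filter fun j => ¬ p ∣ j).card = (p - 1) * E := by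
  have h1 : (range (p * E)).filter (fun j => p ∣ j) = (range E).image (p * ·) := by
    ext j
    simp only [mem_filter, mem_range, mem_image]
    constructor
    · rintro ⟨hj, c, rfl⟩
      exact ⟨c, Nat.lt_of_mul_lt_mul_left hj, rfl⟩
    · rintro ⟨c, hc, rfl⟩
      exact ⟨Nat.mul_lt_mul_of_pos_left hc hp, dvd_mul_right p c⟩
  have h2 := card_filter_add_card_filter_not (s := range (p * E)) (p := fun j => p ∣ j)
  rw [h1, card_image_of_injective _ (mul_right_injective₀ hp.ne'), card_range, card_range] at h2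
  rw [Nat.sub_mul, one_mul]
  omega

namespace LocalCtx

variable {p l : ℕ} [Fact p.Prime] (C : LocalCtx p l)

lemma Prin.mul {C : LocalCtx p l} {a b : Qb} {i : ℕ} (ha : C.Prin a i) (hb : C.Prin b i) :
    C.Prin (a * b) i :=
  ⟨mul_mem ha.1 hb.1, by rw [map_mul, ha.2.1, hb.2.1, one_mul], by
    rw [show a * b - 1 = a * (b - 1) + (a - 1) by ring]
    refine C.A.valuation.map_add_le ?_ ha.2.2
    rw [map_mul, ha.2.1, one_mul]
    exact hb.2.2⟩

lemma Prin.inv {C : LocalCtx p l} {a : Qb} {i : ℕ} (ha : C.Prin a i) : C.Prin a⁻¹ i :=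
  ⟨inv_mem ha.1, by rw [map_inv₀, ha.2.1, inv_one], by
    rw [show a⁻¹ - 1 = -(a - 1) * a⁻¹ by
        rw [neg_mul, sub_mul, mul_inv_cancel₀ ha.mem.2, one_mul, neg_sub],
      map_mul, Valuation.map_neg, map_inv₀, ha.2.1, inv_one, mul_one]
    exact ha.2.2⟩

lemma prin_one (i : ℕ) : C.Prin 1 i := ⟨one_mem _, map_one _, by simp⟩

/-- Classes of units of level `i`. -/
def levelSpace (i : ℕ) : Submodule (ZMod p) C.H1 where
  carrier := {x | ∃ w, C.Prin w i ∧ C.kq w = x}
  zero_mem' := ⟨1, C.prin_one i, C.kq_one⟩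
  add_mem' := by
    rintro _ _ ⟨a, ha, rfl⟩ ⟨b, hb, rfl⟩
    exact ⟨a * b, ha.mul hb, C.kq_mul ha.mem hb.mem⟩
  smul_mem' := by
    rintro c _ ⟨a, ha, rfl⟩
    have : NeZero p := ⟨(Fact.out : p.Prime).ne_zero⟩
    refine ⟨a ^ c.val, ?_, by rw [C.kq_pow ha.mem, ZMod.natCast_zmod_val]⟩
    generalize c.val = n
    induction n with
    | zero => rw [pow_zero]; exact C.prin_one i
    | succ n ih => rw [pow_succ]; exact ih.mul ha

lemma levelSpace_mono {i j : ℕ} (h : i ≤ j) : C.levelSpace j ≤ C.levelSpace i := by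
  rintro _ ⟨w, hw, rfl⟩; exact ⟨w, hw.mono h, rfl⟩

variable (u₀ : Qb) (hu₀ : C.Prin u₀ C.critLevel) (hne : C.kq u₀ ≠ 0)
include hu₀ hne

lemma levelSpace_crit : C.levelSpace C.critLevel = Submodule.span (ZMod p) {C.kq u₀} := by
  refine le_antisymm ?_ ((Submodule.span_singleton_le_iff_mem _ _).2 ⟨u₀, hu₀, rfl⟩)
  rintro _ ⟨w, hw, rfl⟩
  obtain ⟨c, hc⟩ := C.exists_eq_smul_kq u₀ hu₀ hne hw
  rw [hc]
  exact Submodule.smul_mem _ _ (Submodule.mem_span_singleton_self _)

lemma card_levelSpace_crit : Nat.card (C.levelSpace C.critLevel) = p := by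
  rw [C.levelSpace_crit u₀ hu₀ hne, Module.natCard_eq_pow_finrank (K := ZMod p),
    finrank_span_singleton hne, Nat.card_zmod, pow_one]

omit hu₀ hne in
lemma levelSpace_succ_of_dvd (h : l = p) {i : ℕ} (hi : i < C.critLevel) (hd : p ∣ i) :
    C.levelSpace i = C.levelSpace (i + 1) := by
  refine le_antisymm ?_ (C.levelSpace_mono (Nat.le_succ i))
  rintro _ ⟨w, hw, rfl⟩
  rcases Nat.eq_zero_or_pos i with rfl | hi0
  · obtain ⟨x, hx, hk⟩ := C.exists_prin_one h hw.1 hw.2.1
    exact ⟨x, hx, hk⟩
  · exact C.exists_improve h hi hi0 hd hw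

lemma card_levelSpace_succ {i : ℕ} (hlt : i < C.critLevel) (hd : ¬ p ∣ i) :
    Nat.card (C.levelSpace i) =
      Nat.card (resRing C.L C.A) * Nat.card (C.levelSpace (i + 1)) := by
  classical
  have hi : 0 < i := Nat.pos_of_ne_zero fun h => hd (h ▸ dvd_zero p)
  have hlift : ∀ r : resRing C.L C.A, ∃ c : C.A, (c : Qb) ∈ C.L ∧
      IsLocalRing.residue C.A c = (r : IsLocalRing.ResidueField C.A) := fun r => by
    obtain ⟨c, hc, e⟩ := r.2
    exact ⟨c, hc, e⟩
  choose c hcL hc using hlift
  let one' : resRing C.L C.A → Qb := fun r => 1 + C.ϖ ^ i * (c r : Qb)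
  have hone : ∀ r, C.Prin (one' r) i := fun r =>
    C.prin_of_le hi (add_mem (one_mem _) (mul_mem (pow_mem C.mem_ϖ.1 i) (hcL r))) (by
      rw [add_sub_cancel_left, map_mul, map_pow]
      exact mul_le_of_le_one_right' (val_le_one_of_mem (c r).2))
  let Φ : resRing C.L C.A × C.levelSpace (i + 1) → C.levelSpace i := fun rx =>
    ⟨C.kq (one' rx.1) + rx.2.1,
      add_mem ⟨_, hone rx.1, rfl⟩ (C.levelSpace_mono (Nat.le_succ i) rx.2.2)⟩
  have hΦ : Function.Bijective Φ := by
    constructor
    · rintro ⟨r, x, a, ha, rfl⟩ ⟨r', x', b, hb, rfl⟩ he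
      have e : C.kq (one' r) + C.kq a = C.kq (one' r') + C.kq b := congrArg Subtype.val he
      have hr : r = r' := by
        by_contra hne'
        have hk : C.kq (one' r * a / (one' r' * b)) = 0 := by
          rw [C.kq_div ((hone r).mem.mul ha.mem) ((hone r').mem.mul hb.mem),
            C.kq_mul (hone r).mem ha.mem, C.kq_mul (hone r').mem hb.mem, e, sub_self]
        have hw : C.Prin (one' r * a / (one' r' * b)) i := by
          rw [div_eq_mul_inv]
          exact ((hone r).mul (ha.mono (Nat.le_succ i))).mul ((hone r').mul (hb.mono (Nat.le_succ i))).inv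
        have hv : C.v (1 - one' r * a / (one' r' * b)) = C.v C.ϖ ^ i := by
          have hden : C.v (one' r' * b) = 1 := by rw [map_mul, (hone r').2.1, hb.2.1, one_mul]
          rw [one_sub_div ((hone r').mem.mul hb.mem).2, map_div₀, hden, div_one,
            show one' r' * b - one' r * a = C.ϖ ^ i * ((c r' : Qb) - c r) +
              (one' r' * (b - 1) - one' r * (a - 1)) by simp only [one']; ring]
          have h1 : C.v (C.ϖ ^ i * ((c r' : Qb) - c r)) = C.v C.ϖ ^ i := by
            rw [map_mul, map_pow, le_antisymm (val_le_one_of_mem (sub_mem (c r').2 (c r).2))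
              (le_of_not_gt fun h => hne' (Subtype.ext ?_)), mul_one]
            rw [← hc r, ← hc r', eq_comm, residue_eq_residue_iff]
            exact h
          rw [C.A.valuation.map_add_eq_of_lt_left, h1]
          rw [h1]
          refine (C.A.valuation.map_sub _ _).trans_lt (max_lt ?_ ?_) <;>
            rw [map_mul, (hone _).2.1, one_mul]
          · exact hb.2.2.trans_lt (pow_lt_pow_right_of_lt_one₀ C.unif.pos C.unif.lt_one i.lt_succ_self)
          · exact ha.2.2.trans_lt (pow_lt_pow_right_of_lt_one₀ C.unif.pos C.unif.lt_one i.lt_succ_self)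
        obtain ⟨y, -, hy⟩ := C.exists_partner_of_level u₀ hu₀ hne hlt hd hw hv
        exact hy (C.symb_zero_left hk y)
      subst hr
      exact Prod.ext rfl (Subtype.ext (add_left_cancel e))
    · rintro ⟨_, w, hw, rfl⟩
      set y := (w - 1) / C.ϖ ^ i with hy
      have hyA : y ∈ C.A := (C.A.valuation_le_one_iff _).1 (by
        rw [hy, map_div₀, map_pow]; exact div_le_one_of_le₀ hw.2.2 zero_le)
      have hyL : y ∈ C.L := div_mem (sub_mem hw.1 (one_mem _)) (pow_mem C.mem_ϖ.1 i)
      let r : resRing C.L C.A := ⟨IsLocalRing.residue C.A ⟨y, hyA⟩, ⟨y, hyA⟩, hyL, rfl⟩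
      have hx : C.Prin (w / one' r) (i + 1) := by
        refine C.prin_of_lt (div_mem hw.1 (hone r).1) ?_
        rw [div_sub_one (hone r).mem.2, map_div₀, (hone r).2.1, div_one,
          show w - one' r = C.ϖ ^ i * (y - (c r : Qb)) by
            simp only [one']
            rw [hy, mul_sub, mul_div_cancel₀ _ (pow_ne_zero _ C.unif.ne_zero)]; ring,
          map_mul, map_pow]
        exact mul_lt_of_lt_one_right (pow_pos C.unif.pos _)
          (residue_eq_residue_iff.1 (hc r).symm)
      refine ⟨(r, ⟨_, _, hx, rfl⟩), Subtype.ext ?_⟩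
      show C.kq (one' r) + C.kq (w / one' r) = C.kq w
      rw [C.kq_div hw.mem (hone r).mem, add_sub_cancel]
  rw [← Nat.card_eq_of_bijective Φ hΦ, Nat.card_prod]

lemma card_levelSpace_step (h : l = p) (i : ℕ) (hi : i ≤ C.critLevel) :
    Nat.card (C.levelSpace (C.critLevel - i)) = p *
      Nat.card (resRing C.L C.A) ^
        ((Ico (C.critLevel - i) C.critLevel).filter fun j => ¬ p ∣ j).card := by
  induction i with
  | zero => simp [C.card_levelSpace_crit u₀ hu₀ hne]
  | succ i ih =>
    set j := C.critLevel - (i + 1)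
    have hj : C.critLevel - i = j + 1 := by omega
    have hlt : j < C.critLevel := by omega
    rw [hj] at ih
    rw [← insert_Ico_add_one_left_eq_Ico hlt, filter_insert]
    by_cases hd : p ∣ j
    · rw [if_neg (not_not.2 hd), C.levelSpace_succ_of_dvd h hlt hd, ih (by omega)]
    · rw [if_pos hd, card_insert_of_notMem (by simp), C.card_levelSpace_succ u₀ hu₀ hne hlt hd,
        ih (by omega), pow_succ]
      ring

/-- The order of the group of unit classes. -/
theorem card_levelSpace_zero :
    Nat.card (C.levelSpace 0) = p ^ (1 + if l = p then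
      (localGroup C.K C.A).relIndex (C.A.decompositionSubgroup ℚ) else 0) := by
  split_ifs with h
  · subst h
    have := C.fd
    obtain ⟨f, e, hq, he, hd⟩ := exists_residue_degree C.hl C.hA C.unif
    have h1 := C.card_levelSpace_step u₀ hu₀ hne rfl C.critLevel le_rfl
    rw [Nat.sub_self, Nat.Ico_zero_eq_range, critLevel, card_filter_not_dvd (Fact.out : l.Prime).pos] at h1
    have hee : (l - 1) * C.expZ = e := by
      have h2 : C.v C.ϖ ^ (((l - 1) * C.expZ : ℕ) : ℤ) = C.v C.ϖ ^ ((e : ℕ) : ℤ) := by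
        rw [zpow_natCast, zpow_natCast, ← he, mul_comm, pow_mul, ← C.val_zeta_sub_one]
        exact val_zeta_sub_one_pow C.μ.isPrimitiveRoot
      exact Int.ofNat_inj.1 (C.unif.zpow_inj h2)
    rw [h1, hee, hq, ← pow_mul, hd, pow_add, pow_one]
  · have h1 := C.card_levelSpace_crit u₀ hu₀ hne
    rw [C.critLevel_of_ne h] at h1
    rw [h1, add_zero, pow_one]

/-- `#H¹ = p ^ (2 + d)`. -/
theorem card_H1 :
    Nat.card C.H1 = p ^ (2 + if l = p then
      (localGroup C.K C.A).relIndex (C.A.decompositionSubgroup ℚ) else 0) := by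
  have hp := (Fact.out : p.Prime)
  let Φ : ZMod p × C.levelSpace 0 → C.H1 := fun cx => cx.1 • C.kq C.ϖ + cx.2.1
  have hΦ : Function.Bijective Φ := by
    constructor
    · rintro ⟨c, x, a, ha, rfl⟩ ⟨c', x', b, hb, rfl⟩ he
      change c • C.kq C.ϖ + C.kq a = c' • C.kq C.ϖ + C.kq b at he
      have hcc : c = c' := by
        by_contra hne'
        have e : C.kq C.ϖ = C.kq ((b / a) ^ ((c - c')⁻¹ : ZMod p).val) := by
          have : NeZero p := ⟨hp.ne_zero⟩
          rw [C.kq_pow (hb.mem.div ha.mem), ZMod.natCast_zmod_val, C.kq_div hb.mem ha.mem,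
            eq_inv_smul_iff₀ (sub_ne_zero.2 hne'), sub_smul, sub_eq_sub_iff_add_eq_add, add_comm (C.kq b)]
          exact he
        set w := (b / a) ^ ((c - c')⁻¹ : ZMod p).val
        have hw : C.Mem w := (hb.mem.div ha.mem).pow _
        have hvw : C.v w = 1 := by
          rw [map_pow, map_div₀, hb.2.1, ha.2.1, div_one, one_pow]
        obtain ⟨y, hy, hyeq⟩ := (C.kq_eq_zero_iff (C.mem_ϖ.div hw)).1
          (by rw [C.kq_div C.mem_ϖ hw, e, sub_self])
        obtain ⟨i, hi⟩ := C.unif.exists_zpow y hy.1 hy.2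
        have h1 := congrArg C.v hyeq
        rw [map_pow, map_div₀, hvw, div_one, hi, ← zpow_natCast, ← zpow_mul] at h1
        have h2 : i * (p : ℤ) = 1 := C.unif.zpow_inj (by rw [h1, zpow_one])
        exact hp.ne_one (by exact_mod_cast Int.eq_one_of_mul_eq_one_left (by positivity) h2)
      subst hcc
      exact Prod.ext rfl (Subtype.ext (add_left_cancel he))
    · intro x
      obtain ⟨a, ha, rfl⟩ := C.exists_kq_eq x
      obtain ⟨i, u, hu, hvu, rfl⟩ := C.exists_unit_part ha
      refine ⟨((i : ZMod p), ⟨_, u, C.prin_zero hu.1 hvu, rfl⟩), ?_⟩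
      show (i : ZMod p) • C.kq C.ϖ + C.kq u = _
      rw [C.kq_mul (C.mem_zpow i) hu, C.kq_zpow]
  rw [← Nat.card_eq_of_bijective Φ hΦ, Nat.card_prod, Nat.card_zmod,
    C.card_levelSpace_zero u₀ hu₀ hne, ← pow_succ']
  congr 1
  ring

end LocalCtx

end

end FermatAgent.Duality.Local
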