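import Fermat.Agent.Duality.Local.Kummer

/-!
# Cyclic extensions of degree `p` and cup products with a Kummer class

For a character `χ` of `D` with kernel `D₁`: `κ b ∪ χ = 0` iff `b` is a norm from the fixed field of
`D₁`, and the classes of degree two dying on `D₁` are the `κ b ∪ χ`. Consequences: the Steinberg
relation and anticommutativity.
-/

set_option autoImplicit false

open Finset

namespace FermatAgent.Duality.Local

noncomputable section

local notation "Qb" => AlgebraicClosure ℚ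
local notation "GQ" => AlgebraicClosure ℚ ≃ₐ[ℚ] AlgebraicClosure ℚ

variable {p : ℕ} [Fact p.Prime] {D : Subgroup GQ}

/-- The class of a cocycle of degree one with trivial coefficients. -/
abbrev cls1 : Z1 (subLevels D) (triv (ZMod p) D) →ₗ[ZMod p] H1c (subLevels D) (triv (ZMod p) D) :=
  cl1 (subLevels D) (triv (ZMod p) D)

/-- The class of a cocycle of degree two with trivial coefficients. -/
abbrev cls2 : Z2 (subLevels D) (triv (ZMod p) D) →ₗ[ZMod p] H2c (subLevels D) (triv (ZMod p) D) :=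
  cl2 (subLevels D) (triv (ZMod p) D)

lemma isLev₁_restrict {X : Type*} (N : Subgroup D) {f : D → X} (hf : IsLev₁ (subLevels D) f) :
    IsLev₁ (subLevels (N.map D.subtype))
      (fun n : N.map D.subtype => f ⟨n, (Subgroup.map_subtype_le N) n.2⟩) := by
  obtain ⟨F, hF, h⟩ := isLev₁_iff_exists_field.1 hf
  exact isLev₁_iff_exists_field.2 ⟨F, hF, fun g s hs =>
    h ⟨g, (Subgroup.map_subtype_le N) g.2⟩ ⟨s, (Subgroup.map_subtype_le N) s.2⟩ hs⟩

/-- A cocycle of `μ_p ≅ 𝔽_p` which is a coboundary in `ℚ̄ˣ` is a coboundary. -/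
theorem cl2_eq_zero_of_mul (μ : MuData p D) (c : Z2 (subLevels D) (triv (ZMod p) D)) (w : D → Qb)
    (hw : IsLev₁ (subLevels D) w) (h0 : ∀ g, w g ≠ 0)
    (h : ∀ g h' : D, zpw p μ.ζ (c.1 (g, h')) * w (g * h') = w g * (g : GQ) (w h')) :
    cl2 (subLevels D) (triv (ZMod p) D) c = 0 := by
  have hζ := μ.isPrimitiveRoot
  obtain ⟨t, ht0, ht⟩ := exists_eq_div_of_mulCocycle (fun g => w g ^ p) (hw.comp (· ^ p))
    (fun g => pow_ne_zero _ (h0 g)) fun g h' => by
      rw [map_pow, ← mul_pow, ← h g h', mul_pow, zpw_pow_eq_one hζ, one_mul]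
  set t' := rootP p t
  have ht' : t' ^ p = t := rootP_pow t
  have ht'0 : t' ≠ 0 := fun h => ht0 (by rw [← ht', h, zero_pow (Fact.out : p.Prime).ne_zero])
  have hg0 : ∀ g : D, (g : GQ) t' ≠ 0 := fun g => (_root_.map_ne_zero _).2 ht'0
  let q : D → Qb := fun g => w g / ((g : GQ) t' / t')
  have hq : ∀ g, ∃ i, zpw p μ.ζ i = q g := fun g => exists_zpw_eq hζ (by
    show (w g / ((g : GQ) t' / t')) ^ p = 1
    rw [div_pow, ht g, div_pow, ← map_pow, ht', div_self]
    exact div_ne_zero ((_root_.map_ne_zero _).2 ht0) ht0)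
  let x : D → ZMod p := fun g => Function.invFun (zpw p μ.ζ) (q g)
  have hx : ∀ g, zpw p μ.ζ (x g) = q g := fun g => Function.invFun_eq (hq g)
  refine (cl2_eq_zero_iff _ _ c).2 ⟨x, isLev₁_map₂ hw (isLev₁_eval id t')
    (fun a b => Function.invFun (zpw p μ.ζ) (a / (b / t'))), funext fun ⟨g, h'⟩ =>
    zpw_injective hζ ?_⟩
  show zpw p μ.ζ (x h' - x (g * h') + x g) = _
  have hkey : zpw p μ.ζ (x g) * zpw p μ.ζ (x h') =
      zpw p μ.ζ (c.1 (g, h')) * zpw p μ.ζ (x (g * h')) := by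
    have e1 : zpw p μ.ζ (x h') = (g : GQ) (q h') := by rw [← hx, map_zpw (μ.fixed _ g.2)]
    rw [e1, hx, hx]
    simp only [q, map_div₀, Subgroup.coe_mul, AlgEquiv.mul_apply, ← mul_div_assoc, h g h']
    have := hg0 g
    have : (g : GQ) ((h' : GQ) t') ≠ 0 := (_root_.map_ne_zero _).2 (hg0 h')
    field_simp
  have e : zpw p μ.ζ (x h' - x (g * h') + x g) * zpw p μ.ζ (x (g * h'))
      = zpw p μ.ζ (c.1 (g, h')) * zpw p μ.ζ (x (g * h')) := by
    rw [← hkey, ← zpw_add hζ, ← zpw_add hζ]; congr 1; ring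
  exact mul_right_cancel₀ (zpw_ne_zero hζ _) e

/-- Anticommutativity with trivial coefficients. -/
theorem cupTriv_anticomm (x y : H1c (subLevels D) (triv (ZMod p) D)) :
    cupTriv (ZMod p) (subLevels D) x y + cupTriv (ZMod p) (subLevels D) y x = 0 := by
  obtain ⟨x, rfl⟩ := Submodule.mkQ_surjective _ x
  obtain ⟨y, rfl⟩ := Submodule.mkQ_surjective _ y
  show cls2 (cupZ (triv (ZMod p) D) (subLevels D) (isPairing_mul (ZMod p) D) x y) + cls2 (cupZ (triv (ZMod p) D) (subLevels D) (isPairing_mul (ZMod p) D) y x) = 0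
  rw [← map_add, cl2_eq_zero_iff]
  refine ⟨fun g => -(x.1 g * y.1 g), isLev₁_map₂ x.2.1 y.2.1 fun a b => -(a * b),
    funext fun ⟨g, h⟩ => ?_⟩
  show -(x.1 h * y.1 h) - -(x.1 (g * h) * y.1 (g * h)) + -(x.1 g * y.1 g)
    = x.1 g * y.1 h + y.1 g * x.1 h
  rw [x.2.2 g h, y.2.2 g h]
  show -(x.1 h * y.1 h) - -((x.1 h + x.1 g) * (y.1 h + y.1 g)) + -(x.1 g * y.1 g) = _
  ring

/-- `(i + j)` of representatives, carried. -/
def carryP (i j : ZMod p) : ℕ := (i.val + j.val) / p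

variable (χ : Z1 (subLevels D) (triv (ZMod p) D))

lemma chi_mul (g h : D) : χ.1 (g * h) = χ.1 g + χ.1 h := by
  rw [χ.2.2 g h]; exact add_comm _ _

lemma chi_one : χ.1 1 = 0 := by simpa using χ.2.2 1 1

lemma chi_inv (g : D) : χ.1 g⁻¹ = -χ.1 g := by
  rw [eq_neg_iff_add_eq_zero, ← chi_mul, inv_mul_cancel, chi_one]

lemma chi_pow (g : D) (i : ℕ) : χ.1 (g ^ i) = i * χ.1 g := by
  induction i with
  | zero => simp [chi_one]
  | succ i ih => rw [pow_succ, chi_mul, ih]; push_cast; ring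

/-- The kernel of a character. -/
def kerChi : Subgroup D where
  carrier := {g | χ.1 g = 0}
  one_mem' := chi_one χ
  mul_mem' := fun {a b} ha hb => by
    simp only [Set.mem_ofPred_eq] at ha hb ⊢
    rw [chi_mul, ha, hb, add_zero]
  inv_mem' := fun {a} ha => by
    simp only [Set.mem_ofPred_eq] at ha ⊢
    rw [chi_inv, ha, neg_zero]

lemma mem_kerChi {g : D} : g ∈ kerChi χ ↔ χ.1 g = 0 := Iff.rfl

lemma conj_mem_kerChi {n : D} (hn : n ∈ kerChi χ) (g : D) : g⁻¹ * n * g ∈ kerChi χ := by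
  simp only [mem_kerChi, chi_mul, chi_inv] at hn ⊢
  rw [hn]; ring

variable {χ} {s : D} (hs : χ.1 s = 1)
include hs

lemma inv_pow_mul_mem (g : D) : (s ^ (χ.1 g).val)⁻¹ * g ∈ kerChi χ := by
  have : NeZero p := ⟨(Fact.out : p.Prime).ne_zero⟩
  rw [mem_kerChi, chi_mul, chi_inv, chi_pow, hs, mul_one, ZMod.natCast_zmod_val,
    neg_add_cancel]

omit hs in
lemma pow_p_mem : s ^ p ∈ kerChi χ := by
  rw [mem_kerChi, chi_pow, ZMod.natCast_self, zero_mul]

omit hs in
lemma val_chi_mul (g h : D) :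
    (χ.1 g).val + (χ.1 h).val = (χ.1 (g * h)).val + p * carryP (χ.1 g) (χ.1 h) := by
  have : NeZero p := ⟨(Fact.out : p.Prime).ne_zero⟩
  rw [chi_mul, ZMod.val_add, carryP, Nat.mod_add_div]

omit hs in
lemma symbol_cochain (μ : MuData p D) (b : fixedUnits D) (g h : D) :
    zpw p μ.ζ (kapFun μ b g * χ.1 h) *
      (rootP p ((b : Qbˣ) : Qb) ^ (χ.1 g + χ.1 h).val * ((b : Qbˣ) : Qb) ^ carryP (χ.1 g) (χ.1 h))
    = rootP p ((b : Qbˣ) : Qb) ^ (χ.1 g).val * (g : GQ) (rootP p ((b : Qbˣ) : Qb) ^ (χ.1 h).val) := by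
  have : NeZero p := ⟨(Fact.out : p.Prime).ne_zero⟩
  have hpow : ∀ (i : ZMod p) (n : ℕ), zpw p μ.ζ i ^ n = zpw p μ.ζ (i * n) := fun i n => by
    induction n with
    | zero => simp [zpw_zero]
    | succ n ih => rw [pow_succ, ih, ← zpw_add μ.isPrimitiveRoot]; push_cast; ring_nf
  rw [map_pow, kapFun_spec μ b (rootP_pow _) g, mul_pow, hpow, ZMod.natCast_zmod_val,
    mul_left_comm (_ ^ (χ.1 g).val), ← pow_add, ← Nat.mod_add_div ((χ.1 g).val + (χ.1 h).val) p,
    ← ZMod.val_add, pow_add, pow_mul, rootP_pow]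
  rfl

/-- `b` is a norm from the cyclic field of `χ` when `κ b ∪ χ = 0`. -/
theorem exists_norm_of_cup_eq_zero (μ : MuData p D) (b : fixedUnits D)
    (h : cupTriv (ZMod p) (subLevels D) (cls1 (kap μ b)) (cls1 χ) = 0) :
    ∃ z : Qb, z ≠ 0 ∧ (∀ n ∈ kerChi χ, (n : GQ) z = z) ∧
      ∏ j ∈ range p, ((s ^ j : D) : GQ) z = ((b : Qbˣ) : Qb) := by
  have hζ := μ.isPrimitiveRoot
  have hp := (Fact.out : p.Prime)
  have : NeZero p := ⟨hp.ne_zero⟩
  change cls2 (cupZ (triv (ZMod p) D) (subLevels D) (isPairing_mul (ZMod p) D) (kap μ b) χ) = 0 at h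
  obtain ⟨x, hx, hd⟩ := (cl2_eq_zero_iff _ _ _).1 h
  set r := rootP p ((b : Qbˣ) : Qb)
  have hr0 : r ≠ 0 := ne_zero_of_pow_eq (rootP_pow _)
  let U : D → Qb := fun g => r ^ (χ.1 g).val / zpw p μ.ζ (x g)
  have hU0 : ∀ g, U g ≠ 0 := fun g => div_ne_zero (pow_ne_zero _ hr0) (zpw_ne_zero hζ _)
  have hUlev : IsLev₁ (subLevels D) U :=
    isLev₁_map₂ χ.2.1 hx fun a c => r ^ a.val / zpw p μ.ζ c
  have hUcoc : ∀ g k : D, U g * (g : GQ) (U k) =
      U (g * k) * ((b : Qbˣ) : Qb) ^ carryP (χ.1 g) (χ.1 k) := by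
    intro g k
    have hd' : x k - x (g * k) + x g = kapFun μ b g * χ.1 k := congrFun hd (g, k)
    show r ^ _ / _ * (g : GQ) (r ^ _ / _) = r ^ _ / _ * _
    rw [map_div₀, map_zpw (μ.fixed _ g.2), div_mul_div_comm, ← symbol_cochain μ b g k,
      ← chi_mul, ← zpw_add hζ, ← hd']
    have e : zpw p μ.ζ (x g + x k) = zpw p μ.ζ (x k - x (g * k) + x g) * zpw p μ.ζ (x (g * k)) := by
      rw [← zpw_add hζ]; congr 1; ring
    rw [e]
    have := zpw_ne_zero hζ (x (g * k))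
    have := zpw_ne_zero hζ (x k - x (g * k) + x g)
    field_simp
    rfl
  -- normalise on the kernel
  let N := (kerChi χ).map D.subtype
  have hle : N ≤ D := Subgroup.map_subtype_le _
  have hker : ∀ n : N, (⟨n, hle n.2⟩ : D) ∈ kerChi χ := fun n => by
    obtain ⟨m, hm, hmn⟩ := n.2
    rwa [show (⟨n, hle n.2⟩ : D) = m from Subtype.ext hmn.symm]
  have hcar0 : ∀ g k : D, k ∈ kerChi χ → carryP (χ.1 g) (χ.1 k) = 0 := fun g k hk => by
    rw [carryP, hk, ZMod.val_zero, add_zero, Nat.div_eq_of_lt (ZMod.val_lt _)]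
  obtain ⟨t, ht0, ht⟩ := exists_eq_div_of_mulCocycle (fun n : N => U ⟨n, hle n.2⟩)
    (isLev₁_restrict _ hUlev) (fun _ => hU0 _) fun g k => by
      have := hUcoc ⟨g, hle g.2⟩ ⟨k, hle k.2⟩
      rw [hcar0 _ _ (hker k), pow_zero, mul_one] at this
      exact this.symm
  let U' : D → Qb := fun g => U g * t / (g : GQ) t
  have hU'coc : ∀ g k : D, U' g * (g : GQ) (U' k) =
      U' (g * k) * ((b : Qbˣ) : Qb) ^ carryP (χ.1 g) (χ.1 k) := by
    intro g k
    have e := hUcoc g k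
    simp only [U', Subgroup.coe_mul, AlgEquiv.mul_apply, map_div₀, map_mul]
    have := (_root_.map_ne_zero (g : GQ)).2 ht0
    have := (_root_.map_ne_zero (g : GQ)).2 ((_root_.map_ne_zero (k : GQ)).2 ht0)
    field_simp
    linear_combination e
  have hU'N : ∀ n ∈ kerChi χ, U' n = 1 := fun n hn => by
    have e : U n = (n : GQ) t / t := ht ⟨n, n, hn, rfl⟩
    show U n * t / _ = 1
    rw [e, div_mul_cancel₀ _ ht0, div_self ((_root_.map_ne_zero _).2 ht0)]
  have hright : ∀ g n : D, n ∈ kerChi χ → U' (g * n) = U' g := fun g n hn => by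
    have e := hU'coc g n
    rwa [hU'N n hn, map_one, mul_one, hcar0 g n hn, pow_zero, mul_one, eq_comm] at e
  have hpw : ∀ i, i < p → U' (s ^ i) = ∏ j ∈ range i, ((s ^ j : D) : GQ) (U' s) := by
    intro i hi
    induction i with
    | zero => simpa using hU'N 1 (one_mem _)
    | succ i ih =>
      have e := hU'coc (s ^ i) s
      have hc : carryP (χ.1 (s ^ i)) (χ.1 s) = 0 := by
        have : Fact (1 < p) := ⟨hp.one_lt⟩
        rw [carryP, chi_pow, hs, mul_one, ZMod.val_natCast, ZMod.val_one,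
          Nat.mod_eq_of_lt (by omega), Nat.div_eq_of_lt hi]
      rw [hc, pow_zero, mul_one, ← pow_succ] at e
      rw [← e, prod_range_succ, ih (by omega)]
  refine ⟨U' s, mul_ne_zero (mul_ne_zero (hU0 s) ht0) (inv_ne_zero ((_root_.map_ne_zero _).2 ht0)),
    fun n hn => ?_, ?_⟩
  · have e := hU'coc n s
    rw [hU'N n hn, one_mul, show n * s = s * (s⁻¹ * n * s) by group,
      hright s _ (conj_mem_kerChi χ hn s), carryP, hn, ZMod.val_zero, zero_add,
      Nat.div_eq_of_lt (ZMod.val_lt _), pow_zero, mul_one] at e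
    exact e
  · obtain ⟨m, hm⟩ : ∃ m, p = m + 1 := ⟨p - 1, by have := hp.pos; omega⟩
    have e := hU'coc (s ^ m) s
    have hc : carryP (χ.1 (s ^ m)) (χ.1 s) = 1 := by
      have : Fact (1 < p) := ⟨hp.one_lt⟩
      rw [carryP, chi_pow, hs, mul_one, ZMod.val_natCast, ZMod.val_one,
        Nat.mod_eq_of_lt (by omega), ← hm, Nat.div_self hp.pos]
    rw [hc, pow_one, ← pow_succ, ← hm, hU'N _ pow_p_mem, one_mul] at e
    rw [hm, prod_range_succ, ← hpw m (by omega)]
    exact e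

/-- A norm `b` from the cyclic field of `χ` gives `κ b ∪ χ = 0`. -/
theorem cup_eq_zero_of_norm (μ : MuData p D) (b : fixedUnits D) {z : Qb}
    (hz : ∀ n ∈ kerChi χ, (n : GQ) z = z)
    (hb : ∏ j ∈ range p, ((s ^ j : D) : GQ) z = ((b : Qbˣ) : Qb)) :
    cupTriv (ZMod p) (subLevels D) (cls1 (kap μ b)) (cls1 χ) = 0 := by
  have hp := (Fact.out : p.Prime)
  have : NeZero p := ⟨hp.ne_zero⟩
  let Z : ℕ → Qb := fun i => ∏ j ∈ range i, ((s ^ j : D) : GQ) z
  have hfix : ∀ j, ∀ n ∈ kerChi χ, (n : GQ) (((s ^ j : D) : GQ) z) = ((s ^ j : D) : GQ) z := by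
    intro j n hn
    have := hz _ (conj_mem_kerChi χ hn (s ^ j))
    conv_rhs => rw [← this]
    show (n : GQ) (((s ^ j : D) : GQ) z)
      = ((s ^ j : D) : GQ) ((((s ^ j)⁻¹ * n * s ^ j : D) : GQ) z)
    rw [← AlgEquiv.mul_apply, ← AlgEquiv.mul_apply, ← Subgroup.coe_mul, ← Subgroup.coe_mul]
    congr 2; group
  have hZadd : ∀ i j, Z (i + j) = Z i * ((s ^ i : D) : GQ) (Z j) := by
    intro i j
    simp only [Z, prod_range_add, map_prod]
    congr 1
    refine prod_congr rfl fun k _ => ?_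
    rw [pow_add, Subgroup.coe_mul, AlgEquiv.mul_apply]
  have hZmod : ∀ q i, Z (p * q + i) = ((b : Qbˣ) : Qb) ^ q * Z i := by
    intro q i
    induction q with
    | zero => simp
    | succ q ih =>
      rw [show p * (q + 1) + i = p + (p * q + i) by ring, hZadd, ih, show Z p = _ from hb, map_mul,
        map_pow, b.2 _ (s ^ p).2]
      simp only [Z, map_prod, hfix _ _ pow_p_mem]
      ring
  have hr0 : rootP p ((b : Qbˣ) : Qb) ≠ 0 := ne_zero_of_pow_eq (rootP_pow _)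
  have hz0 : z ≠ 0 := fun h => (b : Qbˣ).ne_zero (by rw [← hb, h, prod_eq_zero (mem_range.2 hp.pos)]; simp)
  have hZ0 : ∀ i, Z i ≠ 0 := fun i => prod_ne_zero_iff.2 fun j _ => (_root_.map_ne_zero _).2 hz0
  refine cl2_eq_zero_of_mul μ _ (fun g => rootP p ((b : Qbˣ) : Qb) ^ (χ.1 g).val / Z (χ.1 g).val)
    (χ.2.1.comp fun i : ZMod p => rootP p ((b : Qbˣ) : Qb) ^ i.val / Z i.val)
    (fun g => div_ne_zero (pow_ne_zero _ hr0) (hZ0 _)) fun g k => ?_
  have hgZ : (g : GQ) (Z (χ.1 k).val) = ((s ^ (χ.1 g).val : D) : GQ) (Z (χ.1 k).val) := by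
    simp only [Z, map_prod]
    refine prod_congr rfl fun j _ => ?_
    conv_lhs => rw [show g = s ^ (χ.1 g).val * ((s ^ (χ.1 g).val)⁻¹ * g) by group]
    rw [Subgroup.coe_mul, AlgEquiv.mul_apply, hfix j _ (inv_pow_mul_mem hs g)]
  show zpw p μ.ζ (kapFun μ b g * χ.1 k) * _ = _
  rw [map_div₀, hgZ, div_mul_div_comm, ← hZadd, ← symbol_cochain μ b g k, val_chi_mul g k,
    add_comm (χ.1 (g * k)).val, hZmod, ← chi_mul, mul_div_assoc']
  have := hZ0 (χ.1 (g * k)).val
  have := pow_ne_zero (carryP (χ.1 g) (χ.1 k)) (b : Qbˣ).ne_zero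
  field_simp

omit hs in
/-- The Steinberg relation. -/
theorem cup_steinberg (μ : MuData p D) (a b : fixedUnits D)
    (h : ((a : Qbˣ) : Qb) + ((b : Qbˣ) : Qb) = 1) :
    cupTriv (ZMod p) (subLevels D) (cls1 (kap μ b)) (cls1 (kap μ a)) = 0 := by
  have hp := (Fact.out : p.Prime)
  have : NeZero p := ⟨hp.ne_zero⟩
  rcases eq_or_ne (kap μ a) 0 with h0 | h0
  · rw [h0, map_zero, map_zero]
  obtain ⟨g, hg⟩ : ∃ g, kapFun μ a g ≠ 0 := by
    by_contra hall
    push Not at hall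
    exact h0 (Subtype.ext (funext hall))
  set s := g ^ ((kapFun μ a g)⁻¹).val with hsdef
  have hs : (kap μ a).1 s = 1 := by
    rw [hsdef, chi_pow, ZMod.natCast_zmod_val]
    exact inv_mul_cancel₀ hg
  set r := rootP p ((a : Qbˣ) : Qb)
  refine cup_eq_zero_of_norm hs μ b (z := 1 - r) (fun n hn => ?_) ?_
  · rw [map_sub, map_one, kapFun_spec μ a (rootP_pow _) n, show kapFun μ a n = 0 from hn, zpw_zero,
      one_mul]
  · have hterm : ∀ j : ℕ, ((s ^ j : D) : GQ) (1 - r) = 1 - μ.ζ ^ j * r := fun j => by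
      rw [map_sub, map_one, kapFun_spec μ a (rootP_pow _) (s ^ j),
        show kapFun μ a (s ^ j) = j from by rw [← kap_apply, chi_pow, hs, mul_one],
        zpw_natCast μ.isPrimitiveRoot]
    simp only [hterm]
    have := congrArg (Polynomial.eval 1) (X_pow_sub_C_eq_prod μ.isPrimitiveRoot hp.pos
      (show r ^ p = ((a : Qbˣ) : Qb) from rootP_pow _))
    simp only [Polynomial.eval_sub, Polynomial.eval_pow, Polynomial.eval_X, Polynomial.eval_C,
      one_pow, Polynomial.eval_prod] at this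
    rw [← this, ← h]
    ring

end

end FermatAgent.Duality.Local
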