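import Fermat.Agent.Duality.Local.Discrete

/-!
# A number field is dense in its henselian local fields

If `x` lies in the finite field `F ⊆ K^h`, an element `e ∈ F` close to `1` at `A` and close to `0`
at all other places gives `y ∈ F` with all conjugates other than the identity close to `1`; the
norm of `y` down to `K` is then close to `x`.
-/

set_option autoImplicit false

open scoped Pointwise

namespace FermatAgent.Duality.Local

open FermatAgent.Local FermatAgent.RT

local notation "Qb" => AlgebraicClosure ℚ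
local notation "GQ" => AlgebraicClosure ℚ ≃ₐ[ℚ] AlgebraicClosure ℚ
local notation "ZB" => integralClosure ℤ (AlgebraicClosure ℚ)

attribute [local instance] isGalois_algClosureRat

variable {A : ValuationSubring Qb} {l : ℕ} (hl : l.Prime) (hA : A.LiesOverPrime l)
  {K F : IntermediateField ℚ Qb} [FiniteDimensional ℚ F]

include hl in
/-- a prime of the algebraic integers containing `l` is maximal -/
lemma isMaximal_of_natCast_mem (P : Ideal ZB) [hP : P.IsPrime] (h : (l : ZB) ∈ P) :
    P.IsMaximal := by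
  have : Algebra.IsIntegral ℤ ZB := integralClosure.AlgebraIsIntegral
  refine Ideal.isMaximal_of_isIntegral_of_isMaximal_comap (R := ℤ) P ?_
  refine Ideal.IsPrime.isMaximal inferInstance fun h0 => ?_
  have : (l : ℤ) ∈ Ideal.comap (algebraMap ℤ ZB) P := by simpa using h
  rw [h0, Ideal.mem_bot] at this
  exact hl.ne_zero (by exact_mod_cast this)

lemma val_lt_one_iff_mem_centre (x : ZB) : A.valuation (x : Qb) < 1 ↔ x ∈ centre A :=
  mem_centre_iff.symm

include hl hA in
/-- For `σ ∈ G_K` moving `F ⊆ K^h`, an integer of `F` is a unit at `A` and not at `σ⁻¹ A`. -/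
lemma exists_separating (hK : K ≤ F) (hF : F ≤ localField K A) {σ : GQ}
    (hσK : σ ∈ K.fixingSubgroup) (hσF : σ ∉ F.fixingSubgroup) :
    ∃ e ∈ F, e ∈ A ∧ IsIntegral ℤ e ∧ A.valuation e = 1 ∧ A.valuation (σ e) < 1 := by
  by_contra hno
  push Not at hno
  let H : Subgroup GQ := F.fixingSubgroup
  have : CompactSpace H :=
    isCompact_iff_compactSpace.mp (IntermediateField.fixingSubgroup_isClosed _).isCompact
  let : TopologicalSpace ZB := ⊥
  have : DiscreteTopology ZB := ⟨rfl⟩
  have : ContinuousSMul GQ ZB := by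
    rw [continuousSMul_iff_stabilizer_isOpen]
    intro b
    have : FiniteDimensional ℚ (IntermediateField.adjoin ℚ {(b : Qb)}) :=
      IntermediateField.adjoin.finiteDimensional (isGalois_algClosureRat.to_normal.isIntegral _)
    refine Subgroup.isOpen_mono ?_
      (IntermediateField.fixingSubgroup_isOpen (IntermediateField.adjoin ℚ {(b : Qb)}))
    intro g hg
    exact Subtype.ext (hg ⟨b, IntermediateField.mem_adjoin_simple_self ℚ (b : Qb)⟩)
  have : ContinuousSMul H ZB := by
    rw [continuousSMul_iff_stabilizer_isOpen]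
    intro b
    exact (stabilizer_isOpen GQ b).preimage continuous_subtype_val
  let R := FixedPoints.subalgebra ℤ ZB H
  have : SMulCommClass H R ZB := ⟨fun g a b => by
    show g • ((a : ZB) * b) = (a : ZB) * g • b
    rw [smul_mul', show g • (a : ZB) = a from a.2 g]⟩
  have : Algebra.IsInvariant R ZB H := ⟨fun b hb => ⟨⟨b, hb⟩, rfl⟩⟩
  have hRF : ∀ a : R, ((a : ZB) : Qb) ∈ F := by
    intro a
    rw [← InfiniteGalois.fixedField_fixingSubgroup F]
    intro g
    exact congrArg Subtype.val (a.2 g)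
  have hPmax := isMaximal_of_natCast_mem hl (centre A) (natCast_mem_centre hA)
  have hsub : ∀ a : R, (a : ZB) ∈ σ⁻¹ • centre A → (a : ZB) ∈ centre A := by
    intro a ha
    rw [Ideal.mem_pointwise_smul_iff_inv_smul_mem, inv_inv] at ha
    by_contra hn
    rw [← val_lt_one_iff_mem_centre] at hn ha
    exact absurd ha (not_lt.2 (hno _ (hRF a) (mem_of_isIntegral_int A (a : ZB).2) (a : ZB).2
      (le_antisymm (val_le_one_of_mem (mem_of_isIntegral_int A (a : ZB).2)) (not_lt.1 hn))))
  have hQl : (l : ZB) ∈ σ⁻¹ • centre A := by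
    rw [Ideal.mem_pointwise_smul_iff_inv_smul_mem, inv_inv]
    have e : σ • (l : ZB) = (l : ZB) := Subtype.ext (map_natCast σ l)
    rw [e]
    exact natCast_mem_centre hA
  have : Algebra.IsIntegral R ZB := by
    have : Algebra.IsIntegral ℤ ZB := integralClosure.AlgebraIsIntegral
    exact Algebra.IsIntegral.tower_top ℤ
  have hQmax := isMaximal_of_natCast_mem hl (σ⁻¹ • centre A) hQl
  have hunder : (σ⁻¹ • centre A).under R = (centre A).under R :=
    (Ideal.isMaximal_comap_of_isIntegral_of_isMaximal (R := R) (σ⁻¹ • centre A)).eq_of_le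
      (Ideal.IsPrime.ne_top inferInstance) (fun a ha => hsub a ha)
  obtain ⟨g, hg⟩ := Algebra.IsInvariant.exists_smul_of_under_eq_of_profinite (A := R) (G := H)
    (centre A) (σ⁻¹ • centre A) hunder.symm
  have hfix : (σ * (g : GQ)) • centre A = centre A := by
    rw [mul_smul]
    exact (eq_inv_smul_iff.1 hg.symm)
  have hmem : σ * (g : GQ) ∈ localGroup K A :=
    ⟨mul_mem hσK (IntermediateField.fixingSubgroup_antitone hK g.2),
      mem_decompositionSubgroup_of_smul_centre hl hA hfix⟩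
  have hmem' : σ * (g : GQ) ∈ F.fixingSubgroup := fun y => mem_localField_iff.1 (hF y.2) _ hmem
  exact hσF (by simpa using mul_mem hmem' (inv_mem g.2))

include hl hA in
/-- `e ∈ F` congruent to `1` at `A` and to `0` at every other place of `F` over the place of `K`. -/
lemma exists_idempotent (hK : K ≤ F) (hF : F ≤ localField K A) :
    ∃ e ∈ F, A.valuation (e - 1) < 1 ∧
      ∀ σ ∈ K.fixingSubgroup, σ ∉ F.fixingSubgroup → A.valuation (σ e) < 1 := by
  classical
  have : IsAlgClosed Qb := inferInstance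
  let res : GQ → (F →ₐ[ℚ] Qb) := fun σ => (σ : Qb →ₐ[ℚ] Qb).comp F.val
  let T : Set (F →ₐ[ℚ] Qb) := res '' {σ : GQ | σ ∈ K.fixingSubgroup ∧ σ ∉ F.fixingSubgroup}
  have hT : T.Finite := Set.toFinite T
  have hsel : ∀ τ ∈ T, ∃ e : F, (e : Qb) ∈ A ∧ IsIntegral ℤ (e : Qb) ∧
      A.valuation (e : Qb) = 1 ∧ A.valuation (τ e) < 1 := by
    rintro _ ⟨σ, ⟨h1, h2⟩, rfl⟩
    obtain ⟨e, he, hA', hi, h3, h4⟩ := exists_separating hl hA hK hF h1 h2
    exact ⟨⟨e, he⟩, hA', hi, h3, h4⟩
  choose ε hεA hεi hε1 hεlt using hsel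
  set e₁ : F := ∏ τ : hT.toFinset, ε τ.1 (hT.mem_toFinset.1 τ.2) with he₁
  have he₁A : (e₁ : Qb) ∈ A := by
    rw [he₁]; push_cast; exact prod_mem fun τ _ => hεA _ _
  have he₁i : IsIntegral ℤ (e₁ : Qb) := by
    rw [he₁]; push_cast; exact IsIntegral.prod _ fun τ _ => hεi _ _
  have he₁v : A.valuation (e₁ : Qb) = 1 := by
    rw [he₁]; push_cast; rw [map_prod]; exact Finset.prod_eq_one fun τ _ => hε1 _ _
  have he₁τ : ∀ σ ∈ K.fixingSubgroup, σ ∉ F.fixingSubgroup → A.valuation (σ (e₁ : Qb)) < 1 := by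
    intro σ h1 h2
    have hmem : res σ ∈ T := ⟨σ, ⟨h1, h2⟩, rfl⟩
    rw [he₁]
    push_cast
    rw [map_prod, map_prod, ← Finset.mul_prod_erase Finset.univ _
      (Finset.mem_univ (⟨res σ, hT.mem_toFinset.2 hmem⟩ : hT.toFinset))]
    refine val_mul_lt_one_of_lt_of_le (hεlt _ hmem) (Finset.prod_le_one' fun τ _ => ?_)
    exact val_le_one_of_mem (mem_of_isIntegral_int A ((hεi _ _).map (σ.restrictScalars ℤ)))
  -- make it congruent to `1`: powers repeat modulo the maximal ideal
  obtain ⟨R, hR, hrep⟩ := exists_residue_reps (F := F) hl hA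
  have hpick : ∀ i : ℕ, ∃ r ∈ R, A.valuation ((e₁ : Qb) ^ i - r) < 1 :=
    fun i => hrep _ (pow_mem he₁A i) (pow_mem e₁.2 i)
  choose f hfR hf using hpick
  obtain ⟨i, -, j, -, hne, hij⟩ := Finset.exists_ne_map_eq_of_card_lt_of_maps_to
    (s := Finset.range (R.card + 1)) (t := R) (by simp) (fun i _ => hfR i)
  have main : ∀ i j : ℕ, i < j → f i = f j →
      ∃ e ∈ F, A.valuation (e - 1) < 1 ∧
        ∀ σ ∈ K.fixingSubgroup, σ ∉ F.fixingSubgroup → A.valuation (σ e) < 1 := by
    intro i j h hij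
    refine ⟨(e₁ : Qb) ^ (j - i), pow_mem e₁.2 _, ?_, fun σ h1 h2 => ?_⟩
    · have h' : A.valuation ((e₁ : Qb) ^ i * ((e₁ : Qb) ^ (j - i) - 1)) < 1 := by
        rw [mul_sub, ← pow_add, Nat.add_sub_cancel' h.le, mul_one,
          show (e₁ : Qb) ^ j - (e₁ : Qb) ^ i = ((e₁ : Qb) ^ j - f j) - ((e₁ : Qb) ^ i - f i) by
            rw [hij]; ring]
        exact (A.valuation.map_sub _ _).trans_lt (max_lt (hf j) (hf i))
      rwa [map_mul, map_pow, he₁v, one_pow, one_mul] at h'
    · rw [map_pow, map_pow]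
      exact pow_lt_one₀ zero_le (he₁τ σ h1 h2) (by omega)
  rcases lt_or_gt_of_ne hne with h | h
  exacts [main i j h hij, main j i h hij.symm]

omit [FiniteDimensional ℚ F] in
lemma val_prod_one_sub_le {ι : Type*} (s : Finset ι) (g : ι → Qb) {γ : A.ValueGroup} (hγ : γ ≤ 1)
    (h : ∀ i ∈ s, A.valuation (g i - 1) ≤ γ) : A.valuation (∏ i ∈ s, g i - 1) ≤ γ := by
  classical
  induction s using Finset.induction_on with
  | empty => simp
  | insert a s ha ih =>
    rw [Finset.prod_insert ha, show g a * ∏ i ∈ s, g i - 1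
      = g a * (∏ i ∈ s, g i - 1) + (g a - 1) by ring]
    refine A.valuation.map_add_le ?_ (h a (Finset.mem_insert_self _ _))
    rw [map_mul]
    refine (mul_le_mul' ?_ (ih fun i hi => h i (Finset.mem_insert_of_mem hi))).trans (one_mul γ).le
    rw [show g a = (g a - 1) + 1 by ring]
    exact A.valuation.map_add_le ((h a (Finset.mem_insert_self _ _)).trans hγ) (map_one _).le

omit [FiniteDimensional ℚ F] in
lemma val_pow_sub_one_le {u : Qb} (hu : A.valuation (u - 1) ≤ 1) (n : ℕ) :
    A.valuation (u ^ n - 1) ≤ A.valuation (u - 1) := by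
  have := val_prod_one_sub_le (Finset.range n) (fun _ => u) hu fun _ _ => le_rfl
  simpa using this

omit [FiniteDimensional ℚ F] in
/-- An automorphism of `ℚ̄` extending a `K`-embedding of an intermediate field. -/
lemma exists_galois_extends {K' : IntermediateField K Qb} (τ : K' →ₐ[K] Qb) :
    ∃ σ ∈ K.fixingSubgroup, ∀ y : K', σ (y : Qb) = τ y := by
  have : Normal K Qb := Normal.tower_top_of_normal ℚ K Qb
  let g : Qb →ₐ[K] Qb := AlgHom.liftNormal τ Qb
  have hg : ∀ y : K', g (y : Qb) = τ y := fun y => τ.liftNormal_commutes Qb y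
  let ge : Qb ≃ₐ[K] Qb := AlgEquiv.ofBijective g (Algebra.IsAlgebraic.algHom_bijective g)
  exact ⟨ge.restrictScalars ℚ, fun y => ge.commutes y, hg⟩

include hl hA in
omit [FiniteDimensional ℚ F] in
/-- `K` is dense in its local field. -/
theorem exists_approx [FiniteDimensional ℚ K] {x : Qb} (hx : x ∈ localField K A)
    {γ : A.ValueGroup} (hγ : γ ≠ 0) : ∃ y ∈ K, A.valuation (x - y) < γ := by
  classical
  have hfd : FiniteDimensional ℚ (IntermediateField.adjoin ℚ {x}) :=
    IntermediateField.adjoin.finiteDimensional (isGalois_algClosureRat.to_normal.isIntegral _)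
  let F : IntermediateField ℚ Qb := K ⊔ IntermediateField.adjoin ℚ {x}
  have : FiniteDimensional ℚ F := IntermediateField.finiteDimensional_sup _ _
  have hKF : K ≤ F := le_sup_left
  have hxF : x ∈ F :=
    (le_sup_right : _ ≤ F) (IntermediateField.mem_adjoin_simple_self ℚ x)
  have hF : F ≤ localField K A := by
    refine sup_le le_localField ?_
    rw [IntermediateField.adjoin_simple_le_iff]
    exact hx
  obtain ⟨e, heF, he1, heσ⟩ := exists_idempotent hl hA hKF hF
  let F' : IntermediateField K Qb := IntermediateField.extendScalars hKF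
  have : FiniteDimensional K F' := by
    have : FiniteDimensional ℚ F' := ‹FiniteDimensional ℚ F›
    exact FiniteDimensional.right ℚ K F'
  choose σ hσK hσ using fun τ : F' →ₐ[K] Qb => exists_galois_extends τ
  have hmoves : ∀ τ : F' →ₐ[K] Qb, τ ≠ F'.val → σ τ ∉ F.fixingSubgroup := fun τ hne hmem =>
    hne (AlgHom.ext fun y => (hσ τ y).symm.trans (hmem ⟨y, y.2⟩))
  -- bound on the conjugates of `x - 1`
  have hbound : ∃ z : Qb, z ≠ 0 ∧ 1 ≤ A.valuation z ∧ A.valuation x ≤ A.valuation z ∧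
      ∀ τ : F' →ₐ[K] Qb, A.valuation (σ τ x - 1) ≤ A.valuation z := by
    obtain ⟨z, hz⟩ := A.valuation_surjective
      ((1 ⊔ A.valuation x) ⊔ Finset.univ.sup' Finset.univ_nonempty
        fun τ : F' →ₐ[K] Qb => A.valuation (σ τ x - 1))
    refine ⟨z, fun h => ?_, ?_, ?_, fun τ => ?_⟩
    · rw [h, map_zero] at hz
      exact (zero_lt_one.trans_le (le_sup_left.trans le_sup_left : (1 : A.ValueGroup) ≤ _)).ne hz
    all_goals rw [hz]
    · exact le_sup_left.trans le_sup_left
    · exact le_sup_right.trans le_sup_left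
    · exact le_trans (Finset.le_sup' (fun τ : F' →ₐ[K] Qb => A.valuation (σ τ x - 1))
        (Finset.mem_univ τ)) le_sup_right
  obtain ⟨z, hz0, hz1, hzx, hzσ⟩ := hbound
  have hzv : (0 : A.ValueGroup) < A.valuation z := zero_lt_one.trans_le hz1
  set δ : A.ValueGroup := min γ 1 * A.valuation (l : Qb) with hδ
  have hmin : (0 : A.ValueGroup) < δ :=
    mul_pos (lt_min (zero_lt_iff.2 hγ) zero_lt_one) (val_l_pos hl)
  have hδγ : δ < γ := lt_of_lt_of_le (by
    rw [hδ]
    exact mul_lt_of_lt_one_right (lt_min (zero_lt_iff.2 hγ) zero_lt_one) (val_l_lt_one hl hA))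
    (min_le_left _ _)
  have hδ1 : δ ≤ 1 := mul_le_one' (min_le_right _ _) (val_l_lt_one hl hA).le
  set ε : A.ValueGroup := δ / (A.valuation z * A.valuation z) with hεdef
  have hε : ε ≠ 0 := (div_pos hmin (mul_pos hzv hzv)).ne'
  obtain ⟨N₁, hN₁⟩ := exists_pow_lt hl hA he1 hε
  have hN₂ : ∃ N, ∀ τ : F' →ₐ[K] Qb, τ ≠ F'.val → ∀ n ≥ N, A.valuation (σ τ e) ^ n < ε := by
    have h1 : ∀ τ : F' →ₐ[K] Qb, ∃ N, τ ≠ F'.val → A.valuation (σ τ e) ^ N < ε := fun τ => by
      rcases eq_or_ne τ F'.val with h | h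
      · exact ⟨0, fun h' => absurd h h'⟩
      · obtain ⟨N, hN⟩ := exists_pow_lt hl hA (heσ _ (hσK τ) (hmoves τ h)) hε
        exact ⟨N, fun _ => hN⟩
    choose N hN using h1
    exact ⟨Finset.univ.sup N, fun τ h n hn => lt_of_le_of_lt
      (pow_le_pow_right_of_le_one' (heσ _ (hσK τ) (hmoves τ h)).le
        ((Finset.le_sup (Finset.mem_univ τ)).trans hn)) (hN τ h)⟩
  obtain ⟨N₂, hN₂⟩ := hN₂
  set N := max (max N₁ N₂) 1
  have heA : A.valuation e ≤ 1 := by
    rw [show e = (e - 1) + 1 by ring]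
    exact A.valuation.map_add_le he1.le (map_one _).le
  -- sharpen the idempotent
  set eN : Qb := 1 - (1 - e ^ N) ^ N with heN
  have heNF : eN ∈ F := sub_mem (one_mem F) (pow_mem (sub_mem (one_mem F) (pow_mem heF _)) _)
  have heN1 : A.valuation (1 - eN) < ε := by
    rw [heN, sub_sub_cancel, map_pow]
    refine lt_of_le_of_lt (pow_le_pow_left₀ zero_le ?_ _) (lt_of_le_of_lt
      (pow_le_pow_right_of_le_one' he1.le ((le_max_left _ _).trans (le_max_left _ _))) hN₁)
    rw [Valuation.map_sub_swap]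
    exact val_pow_sub_one_le he1.le N
  have heNσ : ∀ τ : F' →ₐ[K] Qb, τ ≠ F'.val → A.valuation (σ τ eN) < ε := by
    intro τ hτ
    have hlt := heσ _ (hσK τ) (hmoves τ hτ)
    have hpw : A.valuation (σ τ e ^ N) < ε := by
      rw [map_pow]; exact hN₂ τ hτ N ((le_max_right _ _).trans (le_max_left _ _))
    rw [show σ τ eN = 1 - (1 - σ τ e ^ N) ^ N by simp [heN], Valuation.map_sub_swap]
    refine lt_of_le_of_lt ((val_pow_sub_one_le ?_ N).trans ?_) hpw <;>
      rw [show 1 - σ τ e ^ N - 1 = -(σ τ e ^ N) by ring, Valuation.map_neg]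
    rw [map_pow]
    exact pow_le_one₀ zero_le hlt.le
  -- the element whose norm approximates `x`
  have hεz : ε * A.valuation z ≤ δ / A.valuation z := by
    rw [hεdef, div_mul_eq_mul_div, mul_div_mul_right _ _ hzv.ne']
  have hεz1 : δ / A.valuation z ≤ δ := by
    rw [div_le_iff₀ hzv]
    exact le_mul_of_one_le_right' hz1
  let y : F' := ⟨eN * x + (1 - eN), add_mem (mul_mem heNF hxF) (sub_mem (one_mem F) heNF)⟩
  have hyx : A.valuation ((y : Qb) - x) < δ := by
    show A.valuation (eN * x + (1 - eN) - x) < _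
    rw [show eN * x + (1 - eN) - x = (1 - eN) * (1 - x) by ring, map_mul]
    calc A.valuation (1 - eN) * A.valuation (1 - x) ≤ A.valuation (1 - eN) * A.valuation z :=
          mul_le_mul' le_rfl (A.valuation.map_sub_le ((map_one _).le.trans hz1) hzx)
      _ < ε * A.valuation z := mul_lt_mul_of_pos_right heN1 hzv
      _ ≤ _ := hεz.trans hεz1
  have hyτ : ∀ τ ∈ Finset.univ.erase F'.val, A.valuation (τ y - 1) ≤ δ / A.valuation z := by
    intro τ hτ
    rw [← hσ τ y]
    show A.valuation (σ τ (eN * x + (1 - eN)) - 1) ≤ _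
    rw [show σ τ (eN * x + (1 - eN)) - 1 = σ τ eN * (σ τ x - 1) by simp; ring, map_mul]
    exact (mul_le_mul' (heNσ τ (Finset.ne_of_mem_erase hτ)).le (hzσ τ)).trans hεz
  have hP : A.valuation (∏ τ ∈ Finset.univ.erase F'.val, τ y - 1) ≤ δ / A.valuation z :=
    val_prod_one_sub_le _ _ ((hεz1.trans hδ1)) hyτ
  refine ⟨algebraMap K Qb (Algebra.norm K y), (Algebra.norm K y).2, ?_⟩
  rw [Algebra.norm_eq_prod_embeddings K Qb y, ← Finset.mul_prod_erase _ _ (Finset.mem_univ F'.val)]
  set P := ∏ τ ∈ Finset.univ.erase F'.val, τ y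
  show A.valuation (x - (y : Qb) * P) < γ
  rw [show x - (y : Qb) * P = -((y : Qb) - x) * P - x * (P - 1) by ring]
  refine (A.valuation.map_sub _ _).trans_lt (max_lt ?_ ?_) <;> rw [map_mul]
  · rw [Valuation.map_neg]
    refine lt_of_le_of_lt (mul_le_of_le_one_right' ?_) (hyx.trans hδγ)
    rw [show P = (P - 1) + 1 by ring]
    exact A.valuation.map_add_le (hP.trans (hεz1.trans hδ1)) (map_one _).le
  · refine lt_of_le_of_lt ((mul_le_mul' hzx hP).trans ?_) hδγ
    rw [mul_div_cancel₀ _ hzv.ne']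

end FermatAgent.Duality.Local
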