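import Fermat.Agent.Duality.Local.Field

/-!
# Valuations of number fields inside `ℚ̄`: discreteness and finite residue fields
-/

set_option autoImplicit false

namespace FermatAgent.Duality.Local

open FermatAgent.Local Module

local notation "Qb" => AlgebraicClosure ℚ

variable {A : ValuationSubring Qb} {l : ℕ} (hl : l.Prime) (hA : A.LiesOverPrime l)

include hl in
lemma val_l_pos : 0 < A.valuation (l : Qb) :=
  zero_lt_iff.2 ((_root_.map_ne_zero _).2 (by exact_mod_cast hl.ne_zero))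

-- `hl` is unused here but kept so that callers see a uniform argument list.
set_option linter.unusedSectionVars false in
include hl hA in
lemma val_l_lt_one : A.valuation (l : Qb) < 1 := hA

include hl hA in
lemma val_int_eq_zpow {m : ℤ} (hm : m ≠ 0) :
    ∃ i : ℕ, A.valuation (m : Qb) = A.valuation (l : Qb) ^ i := by
  obtain ⟨i, j, hj, hij⟩ := Nat.exists_eq_pow_mul_and_not_dvd (Int.natAbs_ne_zero.2 hm) l hl.ne_one
  refine ⟨i, ?_⟩
  have hmabs : A.valuation (m : Qb) = A.valuation ((m.natAbs : ℕ) : Qb) := by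
    rcases Int.natAbs_eq m with h | h <;> conv_lhs => rw [h]
    · rw [Int.cast_natCast]
    · rw [Int.cast_neg, Valuation.map_neg, Int.cast_natCast]
  rw [hmabs, hij, Nat.cast_mul, map_mul, val_natCast_eq_one hl hA hj, mul_one, Nat.cast_pow, map_pow]

include hl hA in
lemma val_rat_eq_zpow {r : ℚ} (hr : r ≠ 0) :
    ∃ i : ℤ, A.valuation (r : Qb) = A.valuation (l : Qb) ^ i := by
  obtain ⟨i, hi⟩ := val_int_eq_zpow hl hA (Rat.num_ne_zero.2 hr)
  obtain ⟨j, hj⟩ := val_int_eq_zpow hl hA (m := (r.den : ℤ)) (by exact_mod_cast r.den_ne_zero)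
  refine ⟨(i : ℤ) - j, ?_⟩
  rw [Rat.cast_def, map_div₀, hi, zpow_sub₀ (val_l_pos hl).ne', zpow_natCast, zpow_natCast, ← hj,
    Int.cast_natCast]

variable {F : IntermediateField ℚ Qb} [FiniteDimensional ℚ F]

include hl hA in
/-- Values of a degree `n` field have exponents `≤ n` over the values of `ℚ`. -/
lemma exists_pow_val_eq {x : Qb} (hx : x ∈ F) (hx0 : x ≠ 0) :
    ∃ (d : ℕ) (m : ℤ), 1 ≤ d ∧ d ≤ finrank ℚ F ∧
      A.valuation x ^ d = A.valuation (l : Qb) ^ m := by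
  set n := finrank ℚ F
  have hdep : ¬ LinearIndependent ℚ (fun i : Fin (n + 1) => (⟨x, hx⟩ : F) ^ (i : ℕ)) := fun h => by
    have := h.fintype_card_le_finrank
    simp [n] at this
  rw [Fintype.linearIndependent_iff] at hdep
  push Not at hdep
  obtain ⟨c, hc, i₀, hi₀⟩ := hdep
  have hsum : ∑ i : Fin (n + 1), (c i : Qb) * x ^ (i : ℕ) = 0 := by
    have := congrArg (algebraMap F Qb) hc
    simpa [map_sum, Rat.smul_def] using this
  -- two non-zero terms have the same valuation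
  obtain ⟨i, -, hi⟩ := Finset.exists_max_image Finset.univ
    (fun i : Fin (n + 1) => A.valuation ((c i : Qb) * x ^ (i : ℕ))) ⟨i₀, Finset.mem_univ _⟩
  have hpos : 0 < A.valuation ((c i : Qb) * x ^ (i : ℕ)) :=
    lt_of_lt_of_le (zero_lt_iff.2 ((_root_.map_ne_zero _).2
      (mul_ne_zero (by exact_mod_cast hi₀) (pow_ne_zero _ hx0)))) (hi i₀ (Finset.mem_univ _))
  obtain ⟨j, hji, hj⟩ : ∃ j, j ≠ i ∧
      A.valuation ((c j : Qb) * x ^ (j : ℕ)) = A.valuation ((c i : Qb) * x ^ (i : ℕ)) := by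
    by_contra hno
    push Not at hno
    have := A.valuation.map_sum_eq_of_lt (f := fun i : Fin (n + 1) => (c i : Qb) * x ^ (i : ℕ))
      (Finset.mem_univ i) fun k hk =>
        lt_of_le_of_ne (hi k (Finset.mem_univ _)) (hno k (by simpa using hk))
    rw [hsum, map_zero] at this
    exact hpos.ne this
  have hci : c i ≠ 0 := fun h => by simp [h] at hpos
  have hcj : c j ≠ 0 := fun h => by simp [h] at hj; exact hpos.ne (by simpa using hj)
  obtain ⟨a, ha⟩ := val_rat_eq_zpow hl hA hci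
  obtain ⟨b, hb⟩ := val_rat_eq_zpow hl hA hcj
  rw [map_mul, map_mul, map_pow, map_pow, ha, hb] at hj
  have hv : A.valuation x ≠ 0 := (_root_.map_ne_zero _).2 hx0
  have hlne := (val_l_pos (A := A) hl).ne'
  rcases lt_or_gt_of_ne (Fin.val_ne_of_ne hji) with h | h
  · refine ⟨i - j, b - a, by omega, by omega, ?_⟩
    rw [zpow_sub₀ hlne, eq_div_iff (zpow_ne_zero _ hlne), pow_sub₀ _ hv h.le,
      mul_right_comm, mul_comm (A.valuation x ^ (i : ℕ)), ← hj, mul_assoc,
      mul_inv_cancel₀ (pow_ne_zero _ hv), mul_one]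
  · refine ⟨j - i, a - b, by omega, by omega, ?_⟩
    rw [zpow_sub₀ hlne, eq_div_iff (zpow_ne_zero _ hlne), pow_sub₀ _ hv h.le,
      mul_right_comm, mul_comm (A.valuation x ^ (j : ℕ)), hj, mul_assoc,
      mul_inv_cancel₀ (pow_ne_zero _ hv), mul_one]

include hl hA in
lemma exists_pow_val_eq' {x : Qb} (hx0 : x ≠ 0) :
    ∃ (d : ℕ) (m : ℤ), 1 ≤ d ∧ A.valuation x ^ d = A.valuation (l : Qb) ^ m := by
  have : FiniteDimensional ℚ (IntermediateField.adjoin ℚ {x}) :=
    IntermediateField.adjoin.finiteDimensional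
      ((AlgebraicClosure.isAlgebraic ℚ).isAlgebraic x).isIntegral
  obtain ⟨d, m, h1, -, h2⟩ :=
    exists_pow_val_eq hl hA (IntermediateField.mem_adjoin_simple_self ℚ x) hx0
  exact ⟨d, m, h1, h2⟩

include hl hA in
lemma zpow_val_l_injective : Function.Injective fun i : ℤ => A.valuation (l : Qb) ^ i :=
  (zpow_right_strictAnti₀ (val_l_pos hl) (val_l_lt_one hl hA)).injective

include hl hA in
/-- the value group is archimedean -/
lemma exists_pow_lt {x : Qb} (hx : A.valuation x < 1) {γ : A.ValueGroup} (hγ : γ ≠ 0) :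
    ∃ N : ℕ, A.valuation x ^ N < γ := by
  rcases eq_or_ne x 0 with rfl | hx0
  · exact ⟨1, by simpa using zero_lt_iff.2 hγ⟩
  obtain ⟨z, rfl⟩ := A.valuation_surjective γ
  have hz : z ≠ 0 := fun h => hγ (by rw [h, map_zero])
  obtain ⟨d, m, hd, hdm⟩ := exists_pow_val_eq' hl hA hx0
  obtain ⟨d', m', hd', hdm'⟩ := exists_pow_val_eq' hl hA hz
  have hL0 := val_l_pos (A := A) hl
  have hL1 := val_l_lt_one hl hA
  have hm : 0 < m := by
    have h1 : A.valuation (l : Qb) ^ m < A.valuation (l : Qb) ^ (0 : ℤ) := by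
      rw [zpow_zero, ← hdm]; exact pow_lt_one₀ zero_le hx (by omega)
    exact (zpow_right_strictAnti₀ hL0 hL1).lt_iff_gt.1 h1
  refine ⟨d * (m'.natAbs + 1), lt_of_pow_lt_pow_left₀ d' zero_le ?_⟩
  rw [hdm', ← pow_mul, mul_assoc, pow_mul, hdm, ← zpow_natCast, ← zpow_mul]
  refine (zpow_right_strictAnti₀ hL0 hL1).lt_iff_gt.2 ?_
  push_cast
  have h1 : m' ≤ |m'| := le_abs_self m'
  have h3 : (0 : ℤ) ≤ |m'| := abs_nonneg m'
  have h2 : (1 : ℤ) ≤ (d' : ℤ) := by exact_mod_cast hd'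
  calc m' < |m'| + 1 := by omega
    _ = 1 * ((|m'| + 1) * 1) := by ring
    _ ≤ m * ((|m'| + 1) * (d' : ℤ)) := by gcongr; omega

include hl hA in
/-- a number field has a uniformiser at `A` -/
theorem exists_uniformizer :
    ∃ ϖ : Qb, ϖ ∈ F ∧ ϖ ≠ 0 ∧ A.valuation ϖ < 1 ∧
      ∀ x ∈ F, x ≠ 0 → ∃ i : ℤ, A.valuation x = A.valuation ϖ ^ i := by
  classical
  set N := (finrank ℚ F).factorial
  have hN : 0 < N := Nat.factorial_pos _
  have hL0 := val_l_pos (A := A) hl
  have hL1 := val_l_lt_one hl hA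
  have key : ∀ x ∈ F, x ≠ 0 → ∃ m : ℤ, A.valuation x ^ N = A.valuation (l : Qb) ^ m := by
    intro x hx hx0
    obtain ⟨d, m, hd, hdn, h⟩ := exists_pow_val_eq hl hA hx hx0
    obtain ⟨k, hk⟩ := Nat.dvd_factorial hd hdn
    exact ⟨m * k, by rw [show N = d * k from hk, pow_mul, h, zpow_mul, zpow_natCast]⟩
  have hex : ∃ m : ℕ, 0 < m ∧ ∃ x ∈ F, x ≠ 0 ∧
      A.valuation x ^ N = A.valuation (l : Qb) ^ (m : ℤ) :=
    ⟨N, hN, l, natCast_mem F l, by exact_mod_cast hl.ne_zero, by rw [zpow_natCast]⟩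
  obtain ⟨hm0, ϖ, hϖF, hϖ0, hϖ⟩ := Nat.find_spec hex
  set m₀ := Nat.find hex
  have hlt : A.valuation ϖ < 1 := by
    refine (pow_lt_one_iff_of_nonneg zero_le hN.ne').1 ?_
    rw [hϖ, zpow_natCast]; exact pow_lt_one₀ zero_le hL1 hm0.ne'
  refine ⟨ϖ, hϖF, hϖ0, hlt, fun x hx hx0 => ?_⟩
  obtain ⟨m, hm⟩ := key x hx hx0
  refine ⟨m / m₀, ?_⟩
  have hyF : x / ϖ ^ (m / (m₀ : ℤ)) ∈ F := div_mem hx (zpow_mem hϖF _)
  have hy : A.valuation (x / ϖ ^ (m / (m₀ : ℤ))) ^ N
      = A.valuation (l : Qb) ^ (m % (m₀ : ℤ)) := by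
    rw [map_div₀, map_zpow₀, div_pow, hm, ← zpow_natCast (_ ^ (m / (m₀ : ℤ))) N,
      ← zpow_mul, mul_comm (m / (m₀ : ℤ)) (N : ℤ), zpow_mul, zpow_natCast, hϖ, ← zpow_mul,
      ← zpow_sub₀ hL0.ne', Int.emod_def]
  have hr0 : m % (m₀ : ℤ) = 0 := by
    by_contra hne
    have hr := Int.emod_nonneg m (by exact_mod_cast hm0.ne' : (m₀ : ℤ) ≠ 0)
    have hr' := Int.emod_lt_of_pos m (by exact_mod_cast hm0 : (0 : ℤ) < m₀)
    refine Nat.find_min hex (m := (m % (m₀ : ℤ)).toNat) (by omega) ⟨by omega, _, hyF,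
      div_ne_zero hx0 (zpow_ne_zero _ hϖ0), ?_⟩
    rw [hy, Int.toNat_of_nonneg hr]
  rw [hr0, zpow_zero] at hy
  have h1 := (pow_eq_one_iff.1 hy).resolve_right hN.ne'
  rwa [map_div₀, map_zpow₀, div_eq_one_iff_eq
    (zpow_ne_zero _ ((_root_.map_ne_zero _).2 hϖ0))] at h1

include hl hA in
/-- finitely many representatives of the residue field -/
theorem exists_residue_reps :
    ∃ R : Finset Qb, (∀ r ∈ R, r ∈ A ∧ r ∈ F) ∧
      ∀ x ∈ A, x ∈ F → ∃ r ∈ R, A.valuation (x - r) < 1 := by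
  classical
  set n := finrank ℚ F
  -- any `n + 1` integral elements satisfy a congruence with some coefficient prime to `l`
  have dep : ∀ b : Fin (n + 1) → Qb, (∀ i, b i ∈ F) → (∀ i, b i ∈ A) →
      ∃ c : Fin (n + 1) → ℤ, (∃ i, ¬ (l : ℤ) ∣ c i) ∧ A.valuation (∑ i, (c i : Qb) * b i) < 1 := by
    intro b hbF hbA
    have hdep : ¬ LinearIndependent ℤ (fun i => (⟨b i, hbF i⟩ : F)) := fun h => by
      have h' := LinearIndependent.iff_fractionRing (R := ℤ) (K := ℚ) |>.1 h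
      have := h'.fintype_card_le_finrank
      simp [n] at this
    rw [Fintype.linearIndependent_iff] at hdep
    push Not at hdep
    obtain ⟨c, hc, i₀, hi₀⟩ := hdep
    have hc' : ∑ i, (c i : Qb) * b i = 0 := by
      have := congrArg (algebraMap F Qb) hc
      simpa [map_sum, zsmul_eq_mul] using this
    obtain ⟨g, hg, hgcd⟩ := Finset.extract_gcd c (s := Finset.univ) ⟨i₀, Finset.mem_univ _⟩
    refine ⟨g, ?_, ?_⟩
    · by_contra hall
      push Not at hall
      have h1 : (l : ℤ) ∣ Finset.univ.gcd g := Finset.dvd_gcd fun i _ => hall i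
      rw [hgcd] at h1
      exact (Nat.prime_iff_prime_int.1 hl).not_dvd_one h1
    · have hne : ((Finset.univ.gcd c : ℤ) : Qb) ≠ 0 := by
        refine Int.cast_ne_zero.2 fun h => hi₀ ?_
        exact (Finset.gcd_eq_zero_iff.1 h) i₀ (Finset.mem_univ _)
      have : ((Finset.univ.gcd c : ℤ) : Qb) * ∑ i, (g i : Qb) * b i = 0 := by
        rw [Finset.mul_sum, ← hc']
        refine Finset.sum_congr rfl fun i _ => ?_
        rw [hg i (Finset.mem_univ _)]; push_cast; ring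
      rw [(mul_eq_zero.1 this).resolve_left hne, map_zero]
      exact zero_lt_one
  -- independence modulo the maximal ideal
  let Indep : ℕ → Prop := fun k => ∃ b : Fin k → Qb, (∀ i, b i ∈ F ∧ b i ∈ A) ∧
    ∀ c : Fin k → ℤ, A.valuation (∑ i, (c i : Qb) * b i) < 1 → ∀ i, (l : ℤ) ∣ c i
  have h0 : Indep 0 := ⟨Fin.elim0, fun i => i.elim0, fun _ _ i => i.elim0⟩
  set k := Nat.findGreatest Indep n
  obtain ⟨b, hb, hind⟩ : Indep k := Nat.findGreatest_spec (Nat.zero_le n) h0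
  refine ⟨(Finset.univ : Finset (Fin k → Fin l)).image fun c => ∑ i, ((c i : ℕ) : Qb) * b i,
    ?_, fun x hxA hxF => ?_⟩
  · intro r hr
    obtain ⟨c, -, rfl⟩ := Finset.mem_image.1 hr
    exact ⟨sum_mem fun i _ => mul_mem (natCast_mem A _) (hb i).2,
      sum_mem fun i _ => mul_mem (natCast_mem F _) (hb i).1⟩
  obtain ⟨c, hc, hdiv⟩ : ∃ c : Fin (k + 1) → ℤ,
      A.valuation (∑ i, (c i : Qb) * (Fin.cons x b : Fin (k + 1) → Qb) i) < 1 ∧
        ∃ i, ¬ (l : ℤ) ∣ c i := by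
    rcases lt_or_ge k n with hkn | hkn
    · by_contra hno
      push Not at hno
      exact Nat.findGreatest_is_greatest (P := Indep) (n := n) (Nat.lt_succ_self k) hkn
        ⟨Fin.cons x b, Fin.cases ⟨hxF, hxA⟩ hb, hno⟩
    · have hk : k = n := le_antisymm (Nat.findGreatest_le n) hkn
      obtain ⟨c, h1, h2⟩ := dep (fun i => (Fin.cons x b : Fin (k + 1) → Qb) (Fin.cast (by rw [hk]) i))
        (fun i => Fin.cases (motive := fun j => (Fin.cons x b : Fin (k + 1) → Qb) j ∈ F) hxF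
          (fun j => (hb j).1) _)
        (fun i => Fin.cases (motive := fun j => (Fin.cons x b : Fin (k + 1) → Qb) j ∈ A) hxA
          (fun j => (hb j).2) _)
      refine ⟨fun i => c (Fin.cast (by rw [hk]) i), ?_, ?_⟩
      · convert h2 using 2
        exact Fintype.sum_equiv (finCongr (by rw [hk])) _ _ fun i => by simp [finCongr]
      · obtain ⟨i, hi⟩ := h1
        exact ⟨Fin.cast (by rw [hk]) i, by simpa using hi⟩
  rw [Fin.sum_univ_succ, Fin.cons_zero] at hc
  simp only [Fin.cons_succ] at hc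
  have hc0 : ¬ (l : ℤ) ∣ c 0 := by
    intro hd
    have h1 : A.valuation (∑ i : Fin k, (c i.succ : Qb) * b i) < 1 := by
      rw [show ∑ i : Fin k, (c i.succ : Qb) * b i
        = ((c 0 : Qb) * x + ∑ i : Fin k, (c i.succ : Qb) * b i) - (c 0 : Qb) * x by ring]
      refine (A.valuation.map_sub _ _).trans_lt (max_lt hc ?_)
      rw [map_mul]
      exact val_mul_lt_one_of_lt_of_le ((val_intCast_lt_one_iff hl hA _).2 hd)
        (val_le_one_of_mem hxA)
    obtain ⟨i, hi⟩ := hdiv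
    exact hi (Fin.cases hd (fun j => hind _ h1 j) i)
  obtain ⟨u, w, huw⟩ := (Prime.coprime_iff_not_dvd (Nat.prime_iff_prime_int.1 hl)).2 hc0
  have hlz : (0 : ℤ) < l := by exact_mod_cast hl.pos
  refine ⟨_, Finset.mem_image_of_mem _ (Finset.mem_univ
    fun i : Fin k => ⟨((-(w * c i.succ)) % (l : ℤ)).toNat, by
      have := Int.emod_lt_of_pos (-(w * c i.succ)) hlz
      omega⟩), ?_⟩
  dsimp only
  have hu : ((u : Qb) * l + w * (c 0 : Qb)) = 1 := by exact_mod_cast huw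
  have hterm : ∀ i : Fin k, (((-(w * c i.succ)) % (l : ℤ)).toNat : Qb) =
      -((w : Qb) * (c i.succ : Qb)) - (l : Qb) * (((-(w * c i.succ)) / (l : ℤ) : ℤ) : Qb) := by
    intro i
    have h1 : ((((-(w * c i.succ)) % (l : ℤ)).toNat : ℕ) : ℤ) =
        -(w * c i.succ) - (l : ℤ) * ((-(w * c i.succ)) / (l : ℤ)) := by
      rw [Int.toNat_of_nonneg (Int.emod_nonneg _ hlz.ne'), Int.emod_def]
    exact_mod_cast congrArg (Int.cast : ℤ → Qb) h1
  rw [show x - ∑ i, (((-(w * c i.succ)) % (l : ℤ)).toNat : Qb) * b i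
      = (w : Qb) * ((c 0 : Qb) * x + ∑ i : Fin k, (c i.succ : Qb) * b i)
        + (l : Qb) * ((u : Qb) * x + ∑ i, (((-(w * c i.succ)) / (l : ℤ) : ℤ) : Qb) * b i) by
    conv_lhs => rw [← one_mul x, ← hu]
    simp only [hterm, sub_mul, Finset.sum_sub_distrib, neg_mul, Finset.sum_neg_distrib, mul_add,
      Finset.mul_sum, mul_assoc]
    ring]
  refine A.valuation.map_add_lt ?_ ?_ <;> rw [map_mul]
  · exact val_mul_lt_one_of_le_of_lt (val_le_one_of_mem (intCast_mem A w)) hc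
  · exact val_mul_lt_one_of_lt_of_le hA (val_le_one_of_mem (add_mem (mul_mem (intCast_mem A u) hxA)
      (sum_mem fun i _ => mul_mem (intCast_mem A _) (hb i).2)))

end FermatAgent.Duality.Local
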