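import Fermat.Agent.Local.Place
import Fermat.Agent.RT.Frobenius
import Fermat.Agent.Duality.Core.Basic

/-!
# Henselian local fields inside `ℚ̄`

Facts about `localGroup K A` (decomposition group at `A` of `G_K`) and its fixed field.
Every finite extension of a `localField` is again a `localField`; valuations of number fields are
discrete (with exponents bounded by the degree).
-/

set_option autoImplicit false

open scoped Pointwise

namespace FermatAgent.Duality.Local

open FermatAgent.Local

local notation "Qb" => AlgebraicClosure ℚ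
local notation "GQ" => AlgebraicClosure ℚ ≃ₐ[ℚ] AlgebraicClosure ℚ

variable {A : ValuationSubring Qb} {K : IntermediateField ℚ Qb}

lemma mem_localField_iff {x : Qb} : x ∈ localField K A ↔ ∀ σ ∈ localGroup K A, σ x = x :=
  ⟨fun h σ hσ => h ⟨σ, hσ⟩, fun h σ => h σ.1 σ.2⟩

lemma le_localField : K ≤ localField K A := fun x hx =>
  mem_localField_iff.2 fun _ hσ => hσ.1 ⟨x, hx⟩

lemma localGroup_mono {K' : IntermediateField ℚ Qb} (h : K ≤ K') : localGroup K' A ≤ localGroup K A :=
  inf_le_inf_right _ (IntermediateField.fixingSubgroup_antitone h)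

lemma val_of_mem_localGroup {σ : GQ} (hσ : σ ∈ localGroup K A) (x : Qb) :
    A.valuation (σ x) = A.valuation x :=
  val_galois_eq hσ.2 x

/-- evaluation is continuous to the discrete space -/
lemma isOpen_preimage_eval (x : Qb) (s : Set Qb) : IsOpen {σ : GQ | σ x ∈ s} := by
  rw [isOpen_iff_forall_mem_open]
  intro σ hσ
  have hfd : FiniteDimensional ℚ (IntermediateField.adjoin ℚ {x}) :=
    IntermediateField.adjoin.finiteDimensional
      ((AlgebraicClosure.isAlgebraic ℚ).isAlgebraic x).isIntegral
  refine ⟨(σ * ·) '' ((IntermediateField.adjoin ℚ {x}).fixingSubgroup : Set GQ), ?_,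
    (Homeomorph.mulLeft σ).isOpenMap _ (IntermediateField.adjoin ℚ {x}).fixingSubgroup_isOpen,
    ⟨1, one_mem _, mul_one σ⟩⟩
  rintro _ ⟨τ, hτ, rfl⟩
  show σ (τ x) ∈ s
  rw [show τ x = x from hτ ⟨x, IntermediateField.mem_adjoin_simple_self ℚ x⟩]
  exact hσ

lemma isClosed_localGroup : IsClosed (localGroup K A : Set GQ) := by
  have : (localGroup K A : Set GQ) = ((⋂ x : Qb, {σ : GQ | σ x ∈ A ↔ x ∈ A}) ∩
      ⋂ x : K, {σ : GQ | σ (x : Qb) = x}) := by
    ext σ
    simp only [Set.mem_inter_iff, Set.mem_iInter, Set.mem_ofPred_eq, SetLike.mem_coe, localGroup,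
      Subgroup.mem_inf]
    rw [and_comm]
    refine and_congr ⟨fun h x => decomposition_mem_iff h x, fun h => ?_⟩ ⟨fun h x => h x, fun h x => h x⟩
    rw [ValuationSubring.decompositionSubgroup, MulAction.mem_stabilizer_iff]
    ext x
    rw [ValuationSubring.mem_pointwise_smul_iff_inv_smul_mem]
    have := h ((σ⁻¹ : GQ) • x)
    rw [← AlgEquiv.smul_def, smul_inv_smul] at this
    exact this.symm
  rw [this]
  refine IsClosed.inter (isClosed_iInter fun x => ?_) (isClosed_iInter fun x => ?_)
  · rw [← isOpen_compl_iff]
    by_cases hx : x ∈ A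
    · simpa [hx, Set.compl_ofPred] using isOpen_preimage_eval x (A : Set Qb)ᶜ
    · simpa [hx, Set.compl_ofPred] using isOpen_preimage_eval x (A : Set Qb)
  · rw [← isOpen_compl_iff]
    simpa [Set.compl_ofPred] using isOpen_preimage_eval (x : Qb) {(x : Qb)}ᶜ

lemma fixingSubgroup_localField : (localField K A).fixingSubgroup = localGroup K A :=
  haveI := FermatAgent.RT.isGalois_algClosureRat
  InfiniteGalois.fixingSubgroup_fixedField ⟨localGroup K A, isClosed_localGroup⟩

lemma localField_le_iff {K' : IntermediateField ℚ Qb} :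
    localField K A ≤ localField K' A ↔ localGroup K' A ≤ localGroup K A := by
  refine ⟨fun h => ?_, fun h x hx => mem_localField_iff.2 fun σ hσ => mem_localField_iff.1 hx σ (h hσ)⟩
  rw [← fixingSubgroup_localField, ← fixingSubgroup_localField]
  exact IntermediateField.fixingSubgroup_antitone h

lemma localField_mono {K' : IntermediateField ℚ Qb} (h : K ≤ K') : localField K A ≤ localField K' A :=
  localField_le_iff.2 (localGroup_mono h)

/-- adjoining to a local field is again a local field -/
lemma localGroup_sup (K' : IntermediateField ℚ Qb) :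
    localGroup (K ⊔ K') A = localGroup K A ⊓ K'.fixingSubgroup := by
  rw [localGroup, localGroup, IntermediateField.fixingSubgroup_sup, inf_right_comm]

end FermatAgent.Duality.Local
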