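import Fermat.Agent.Duality.Local.KillCyclic
import Fermat.Agent.Duality.Core.Projection
import Fermat.Agent.Duality.Core.Functorial

/-!
# Restriction and corestriction between subgroups of `G_ℚ`, and norms of Kummer classes
-/

set_option autoImplicit false

open Finset

namespace FermatAgent.Duality.Local

noncomputable section

local notation "Qb" => AlgebraicClosure ℚ
local notation "GQ" => AlgebraicClosure ℚ ≃ₐ[ℚ] AlgebraicClosure ℚ

attribute [local instance] FermatAgent.RT.isGalois_algClosureRat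

/-- `D'` is an open subgroup of `D`. -/
structure OpenSub (D' D : Subgroup GQ) : Prop where
  le : D' ≤ D
  exists_field : ∃ F : IntermediateField ℚ Qb, FiniteDimensional ℚ F ∧ D ⊓ F.fixingSubgroup ≤ D'

variable {p : ℕ} [Fact p.Prime] {D D' : Subgroup GQ}

namespace OpenSub

variable (h : OpenSub D' D)
include h

lemma exists_lev : ∃ V ∈ (subLevels D).lev, V ≤ D'.subgroupOf D := by
  obtain ⟨F, hF, hle⟩ := h.exists_field
  exact ⟨_, ⟨_, ⟨F, hF, rfl⟩, rfl⟩, fun v hv => hle ⟨v.2, hv⟩⟩

lemma finiteIndex : (D'.subgroupOf D).FiniteIndex := by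
  obtain ⟨V, hV, hle⟩ := h.exists_lev
  have := (subLevels D).finiteIndex hV
  exact Subgroup.finiteIndex_of_le hle

lemma isLevHom_inclusion :
    IsLevHom (subLevels D') (subLevels D) (Subgroup.inclusion h.le) := by
  rintro _ ⟨U, hU, rfl⟩
  exact ⟨_, ⟨U, hU, rfl⟩, fun v hv => hv⟩

lemma isLevHom_toSub : IsLevHom ((subLevels D).comap (D'.subgroupOf D).subtype) (subLevels D')
    (Subgroup.subgroupOfEquivOfLe h.le).toMonoidHom := by
  rintro _ ⟨U, hU, rfl⟩
  exact ⟨_, ⟨_, ⟨U, hU, rfl⟩, rfl⟩, fun v hv => hv⟩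

omit h in
lemma isEquivariant_triv {G H : Type*} [Group G] [Group H] (f : H →* G) :
    IsEquivariant (triv (ZMod p) G) (triv (ZMod p) H) f LinearMap.id :=
  fun _ _ => rfl

omit h in
lemma isEquivariant_trivSub {G H : Type*} [Group G] [Group H] (U : Subgroup G) (f : U →* H) :
    IsEquivariant (triv (ZMod p) H) ((triv (ZMod p) G).comp U.subtype) f LinearMap.id :=
  fun _ _ => rfl

variable (p)

/-- Restriction in degree `1`. -/
def resL1 : H1c (subLevels D) (triv (ZMod p) D) →ₗ[ZMod p] H1c (subLevels D') (triv (ZMod p) D') :=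
  map1 _ _ h.isLevHom_inclusion (isEquivariant_triv _)

/-- Restriction in degree `2`. -/
def resL2 : H2c (subLevels D) (triv (ZMod p) D) →ₗ[ZMod p] H2c (subLevels D') (triv (ZMod p) D') :=
  map2 _ _ h.isLevHom_inclusion (isEquivariant_triv _)

/-- Transport of classes to the subgroup of `D`, in degree `1`. -/
def toSub1 : H1c (subLevels D') (triv (ZMod p) D') →ₗ[ZMod p]
    H1c ((subLevels D).comap (D'.subgroupOf D).subtype)
      ((triv (ZMod p) D).comp (D'.subgroupOf D).subtype) :=
  map1 _ _ h.isLevHom_toSub (isEquivariant_trivSub _ _)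

/-- Transport of classes to the subgroup of `D`, in degree `2`. -/
def toSub2 : H2c (subLevels D') (triv (ZMod p) D') →ₗ[ZMod p]
    H2c ((subLevels D).comap (D'.subgroupOf D).subtype)
      ((triv (ZMod p) D).comp (D'.subgroupOf D).subtype) :=
  map2 _ _ h.isLevHom_toSub (isEquivariant_trivSub _ _)

/-- Corestriction in degree `1`. -/
def corL1 : H1c (subLevels D') (triv (ZMod p) D') →ₗ[ZMod p] H1c (subLevels D) (triv (ZMod p) D) :=
  haveI := h.finiteIndex
  letI := Fintype.ofFinite (D ⧸ D'.subgroupOf D)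
  cores1 (D'.subgroupOf D) (triv (ZMod p) D) (subLevels D) h.exists_lev ∘ₗ h.toSub1 p

/-- Corestriction in degree `2`. -/
def corL2 : H2c (subLevels D') (triv (ZMod p) D') →ₗ[ZMod p] H2c (subLevels D) (triv (ZMod p) D) :=
  haveI := h.finiteIndex
  letI := Fintype.ofFinite (D ⧸ D'.subgroupOf D)
  cores2 (D'.subgroupOf D) (triv (ZMod p) D) (subLevels D) h.exists_lev ∘ₗ h.toSub2 p

variable {p}

lemma resL2_cup (x y : H1c (subLevels D) (triv (ZMod p) D)) :
    h.resL2 p (cupTriv (ZMod p) (subLevels D) x y) =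
      cupTriv (ZMod p) (subLevels D') (h.resL1 p x) (h.resL1 p y) := by
  induction x using Submodule.Quotient.induction_on with
  | _ a =>
  induction y using Submodule.Quotient.induction_on with
  | _ b => rfl

/-- `cores ∘ res` is the index. -/
theorem corL2_resL2 (x : H2c (subLevels D) (triv (ZMod p) D)) :
    h.corL2 p (h.resL2 p x) = (D'.relIndex D : ZMod p) • x := by
  have := h.finiteIndex
  let _ft : Fintype (D ⧸ D'.subgroupOf D) := Fintype.ofFinite _
  have e : h.toSub2 p (h.resL2 p x) = res2 (subLevels D) (triv (ZMod p) D) (D'.subgroupOf D) x := by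
    induction x using Submodule.Quotient.induction_on with
    | _ a => rfl
  show cores2 (D'.subgroupOf D) (triv (ZMod p) D) (subLevels D) h.exists_lev (h.toSub2 p (h.resL2 p x)) = _
  rw [e, cores2_res2, Nat.cast_smul_eq_nsmul, ← Nat.card_eq_fintype_card]
  rfl

/-- The projection formula. -/
theorem corL2_cup (x : H1c (subLevels D) (triv (ZMod p) D))
    (y : H1c (subLevels D') (triv (ZMod p) D')) :
    h.corL2 p (cupTriv (ZMod p) (subLevels D') (h.resL1 p x) y) =
      cupTriv (ZMod p) (subLevels D) x (h.corL1 p y) := by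
  have := h.finiteIndex
  let _ft : Fintype (D ⧸ D'.subgroupOf D) := Fintype.ofFinite _
  have e : h.toSub2 p (cupTriv (ZMod p) (subLevels D') (h.resL1 p x) y) =
      cup11 ((triv (ZMod p) D).comp (D'.subgroupOf D).subtype)
        ((subLevels D).comap (D'.subgroupOf D).subtype)
        (isPairing_sub (D'.subgroupOf D) (isPairing_mul (ZMod p) D))
        (res1 (subLevels D) (triv (ZMod p) D) (D'.subgroupOf D) x) (h.toSub1 p y) := by
    induction x using Submodule.Quotient.induction_on with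
    | _ a =>
    induction y using Submodule.Quotient.induction_on with
    | _ b => rfl
  show cores2 (D'.subgroupOf D) (triv (ZMod p) D) (subLevels D) h.exists_lev (h.toSub2 p _) = _
  rw [e, cores2_cup11_res1]
  rfl

end OpenSub

/-- The Kummer data of a smaller subgroup. -/
def MuData.restrict (μ : MuData p D) (hle : D' ≤ D) : MuData p D' :=
  ⟨μ.ζ, μ.isPrimitiveRoot, fun σ hσ => μ.fixed σ (hle hσ)⟩

variable (D') in
/-- The product of the conjugates over the cosets of `D'`. -/
def normProd [Fintype (D ⧸ D'.subgroupOf D)] (z : Qb) : Qb :=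
  ∏ c : D ⧸ D'.subgroupOf D, ((coresSec (D'.subgroupOf D) c : D) : GQ) z

lemma coresSec_conj_apply {z : Qb} (hz : ∀ σ ∈ D', σ z = z) (g : D)
    (c : D ⧸ D'.subgroupOf D) :
    (g : GQ) (((coresSec (D'.subgroupOf D) (g⁻¹ • c) : D) : GQ) z) =
      ((coresSec (D'.subgroupOf D) c : D) : GQ) z := by
  have e := congrArg (fun x : D => (x : GQ) z) (coresSec_mul_coresU (D'.subgroupOf D) g c)
  simp only [Subgroup.coe_mul, AlgEquiv.mul_apply] at e
  rw [← e]
  exact congrArg _ (hz _ (coresU (D'.subgroupOf D) g c).2)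

lemma normProd_fixed [Fintype (D ⧸ D'.subgroupOf D)] {z : Qb} (hz : ∀ σ ∈ D', σ z = z) :
    ∀ σ ∈ D, σ (normProd D' (D := D) z) = normProd D' (D := D) z := by
  intro σ hσ
  rw [normProd, map_prod, ← Equiv.prod_comp (MulAction.toPerm (⟨σ, hσ⟩ : D)⁻¹)]
  exact Finset.prod_congr rfl fun c _ => coresSec_conj_apply hz ⟨σ, hσ⟩ c

lemma normProd_ne_zero [Fintype (D ⧸ D'.subgroupOf D)] {z : Qb} (hz : z ≠ 0) :
    normProd D' (D := D) z ≠ 0 :=
  Finset.prod_ne_zero_iff.2 fun _ _ => (_root_.map_ne_zero _).2 hz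

/-- The norm, as a unit fixed by `D`. -/
def normUnit (D' D : Subgroup GQ) [Fintype (D ⧸ D'.subgroupOf D)] (b : fixedUnits D') :
    fixedUnits D :=
  ⟨Units.mk0 (normProd D' (D := D) ((b : Qbˣ) : Qb)) (normProd_ne_zero (b : Qbˣ).ne_zero),
    normProd_fixed b.2⟩

/-- Corestriction of a Kummer class is the class of the norm. -/
theorem corL1_kap (μ : MuData p D) (h : OpenSub D' D) (b : fixedUnits D') :
    haveI := h.finiteIndex
    letI := Fintype.ofFinite (D ⧸ D'.subgroupOf D)
    h.corL1 p (cls1 (kap (μ.restrict h.le) b)) = cls1 (kap μ (normUnit D' D b)) := by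
  have := h.finiteIndex
  let _ft : Fintype (D ⧸ D'.subgroupOf D) := Fintype.ofFinite _
  have hζ := μ.isPrimitiveRoot
  refine congrArg (cls1 (D := D)) (Subtype.ext (funext fun g => ?_))
  symm
  set r := rootP p ((b : Qbˣ) : Qb)
  refine kapFun_eq_of μ _ (r := normProd D' (D := D) r) ?_ g _ ?_
  · show _ = normProd D' (D := D) ((b : Qbˣ) : Qb)
    rw [normProd, ← prod_pow]
    exact prod_congr rfl fun c _ => by rw [← map_pow, rootP_pow]
  · have hsum : zpw p μ.ζ (∑ c : D ⧸ D'.subgroupOf D, kapFun (μ.restrict h.le) b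
        (Subgroup.subgroupOfEquivOfLe h.le (coresU (D'.subgroupOf D) g c)))
        = ∏ c : D ⧸ D'.subgroupOf D, zpw p μ.ζ (kapFun (μ.restrict h.le) b
          (Subgroup.subgroupOfEquivOfLe h.le (coresU (D'.subgroupOf D) g c))) := by
      classical
      induction (Finset.univ : Finset (D ⧸ D'.subgroupOf D)) using Finset.induction_on with
      | empty => simp [zpw_zero]
      | insert a s ha ih => rw [Finset.sum_insert ha, Finset.prod_insert ha, zpw_add hζ, ih]
    show (g : GQ) (normProd D' (D := D) r) = zpw p μ.ζ (∑ c : D ⧸ D'.subgroupOf D,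
      kapFun (μ.restrict h.le) b
        (Subgroup.subgroupOfEquivOfLe h.le (coresU (D'.subgroupOf D) g c))) * _
    rw [hsum, normProd, map_prod, ← Equiv.prod_comp (MulAction.toPerm g⁻¹), ← prod_mul_distrib]
    refine prod_congr rfl fun c _ => ?_
    have e := congrArg (fun x : D => (x : GQ) r) (coresSec_mul_coresU (D'.subgroupOf D) g c)
    simp only [Subgroup.coe_mul, AlgEquiv.mul_apply] at e
    show (g : GQ) (((coresSec (D'.subgroupOf D) (g⁻¹ • c) : D) : GQ) r) = _
    rw [← e]
    show ((coresSec (D'.subgroupOf D) c : D) : GQ)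
      (((Subgroup.subgroupOfEquivOfLe h.le (coresU (D'.subgroupOf D) g c) : D') : GQ) r) = _
    rw [kapFun_spec (μ.restrict h.le) b (rootP_pow _), map_mul]
    exact congrArg (· * _) (map_zpw (μ.fixed _ (coresSec (D'.subgroupOf D) c : D).2) _)

/-- An open subgroup of `D` is cut out by a finite extension. -/
theorem exists_field_of_openSub (h : OpenSub D' D) :
    ∃ M : IntermediateField ℚ Qb, FiniteDimensional ℚ M ∧ D ⊓ M.fixingSubgroup = D' := by
  obtain ⟨F, hF, hle⟩ := h.exists_field
  let N := IntermediateField.normalClosure ℚ F Qb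
  have : FiniteDimensional ℚ N := normalClosure.is_finiteDimensional ℚ F Qb
  have : IsGalois ℚ N := IsGalois.normalClosure ℚ F Qb
  let π : GQ →* (N ≃ₐ[ℚ] N) := AlgEquiv.restrictNormalHom N
  let M' : IntermediateField ℚ N := IntermediateField.fixedField (D'.map π)
  refine ⟨IntermediateField.lift M', (IntermediateField.liftAlgEquiv M').toLinearEquiv.finiteDimensional,
    le_antisymm ?_ fun σ hσ => ⟨h.le hσ, ?_⟩⟩
  · rintro σ ⟨hσD, hσM⟩
    have h1 : π σ ∈ D'.map π := by
      rw [← IntermediateField.fixingSubgroup_fixedField (D'.map π)]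
      intro x
      refine Subtype.ext ?_
      show ((π σ) (x : N) : Qb) = ((x : N) : Qb)
      rw [show ((π σ) (x : N) : Qb) = σ ((x : N) : Qb) from AlgEquiv.restrictNormal_commutes σ N _]
      exact hσM ⟨_, (IntermediateField.mem_lift _).2 x.2⟩
    obtain ⟨τ, hτ', hτσ⟩ := h1
    have hτ : τ ∈ D' := hτ'
    have h2 : τ⁻¹ * σ ∈ D ⊓ F.fixingSubgroup := by
      refine ⟨(show τ⁻¹ * σ ∈ D from mul_mem (inv_mem (h.le hτ)) hσD), fun x => ?_⟩
      show τ⁻¹ (σ (x : Qb)) = x
      have hxN : (x : Qb) ∈ N := IntermediateField.le_normalClosure F x.2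
      have e := congrArg (fun e : N ≃ₐ[ℚ] N => ((e ⟨x, hxN⟩ : N) : Qb)) hτσ
      rw [show ((π τ) ⟨x, hxN⟩ : Qb) = τ (x : Qb) from AlgEquiv.restrictNormal_commutes τ N _,
        show ((π σ) ⟨x, hxN⟩ : Qb) = σ (x : Qb) from AlgEquiv.restrictNormal_commutes σ N _] at e
      rw [← e]
      exact τ.symm_apply_apply _
    simpa using mul_mem hτ (hle h2)
  · rintro ⟨x, hx⟩
    have hxN : x ∈ N := IntermediateField.lift_le _ hx
    have hxM : (⟨x, hxN⟩ : N) ∈ M' := (IntermediateField.mem_lift (⟨x, hxN⟩ : N)).1 hx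
    have e := hxM ⟨π σ, σ, hσ, rfl⟩
    show σ x = x
    calc σ x = ((π σ) ⟨x, hxN⟩ : Qb) := (AlgEquiv.restrictNormal_commutes σ N ⟨x, hxN⟩).symm
      _ = x := congrArg Subtype.val e

end

end FermatAgent.Duality.Local
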