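import Fermat.Agent.Duality.Local.Count
import Fermat.Agent.Duality.Local.Subgroups
import Mathlib.GroupTheory.Sylow
import Mathlib.GroupTheory.IndexNormal
import Mathlib.GroupTheory.SpecificGroups.Cyclic

/-!
# `H²` of a local group is a line

Every class dies at a finite level; on a tower of cyclic steps of degree `p` corestriction shows
that such classes are symbols, and the Sylow subgroups reduce the general case to this one.
-/

set_option autoImplicit false

open Finset

namespace FermatAgent.Duality.Local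

open FermatAgent.Local

noncomputable section

local notation "Qb" => AlgebraicClosure ℚ
local notation "GQ" => AlgebraicClosure ℚ ≃ₐ[ℚ] AlgebraicClosure ℚ

attribute [local instance] FermatAgent.RT.isGalois_algClosureRat

variable {p : ℕ} [Fact p.Prime]

lemma res2_kerChi_eq_zero {D D' : Subgroup GQ} {χ : Z1 (subLevels D) (triv (ZMod p) D)}
    (h : OpenSub D' D) (hker : ∀ x : D, x ∈ kerChi χ ↔ (x : GQ) ∈ D')
    {z : H2c (subLevels D) (triv (ZMod p) D)} (hz : h.resL2 p z = 0) :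
    res2 (subLevels D) (triv (ZMod p) D) (kerChi χ) z = 0 := by
  obtain ⟨c, rfl⟩ := Submodule.mkQ_surjective _ z
  obtain ⟨x, hx, hd⟩ := (cl2_eq_zero_iff _ _ _).1 hz
  refine (cl2_eq_zero_iff _ _ _).2 ⟨fun u => x ⟨((u : D) : GQ), (hker u).1 u.2⟩, ?_, funext fun q => ?_⟩
  · obtain ⟨_, ⟨U, hU, rfl⟩, hU'⟩ := hx
    exact ⟨_, ⟨_, ⟨U, hU, rfl⟩, rfl⟩, fun g s hs =>
      hU' ⟨((g : D) : GQ), (hker g).1 g.2⟩ ⟨_, (hker s).1 s.2⟩ hs⟩
  · exact congrFun hd (⟨_, (hker q.1).1 q.1.2⟩, ⟨_, (hker q.2).1 q.2.2⟩)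

namespace LocalCtx

variable {l : ℕ} (C : LocalCtx p l)

/-- The same place over a larger field. -/
def extCtx (K' : IntermediateField ℚ Qb) (hK' : C.K ≤ K') [FiniteDimensional ℚ K'] :
    LocalCtx p l where
  A := C.A
  K := K'
  fd := inferInstance
  hl := C.hl
  hA := C.hA
  μ := C.μ.restrict (localGroup_mono hK')
  unif := (nonempty_localUnif C.hl C.hA).some

theorem exists_ctx_of_openSub {D' : Subgroup GQ} (h : OpenSub D' C.D) :
    ∃ C' : LocalCtx p l, C'.D = D' := by
  obtain ⟨M, hM, hD⟩ := exists_field_of_openSub h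
  have := C.fd
  have : FiniteDimensional ℚ ↥(C.K ⊔ M) := IntermediateField.finiteDimensional_sup C.K M
  refine ⟨C.extCtx (C.K ⊔ M) le_sup_left, ?_⟩
  show localGroup (C.K ⊔ M) C.A = D'
  rw [localGroup_sup]
  exact hD

lemma exists_base : ∃ u₀, C.Prin u₀ C.critLevel ∧ C.kq u₀ ≠ 0 := C.exists_prin_crit_ne_zero

/-- The base class `(u₀, ϖ)`. -/
def baseClass : C.H2 := C.symb C.exists_base.choose C.ϖ

lemma baseClass_ne_zero : C.baseClass ≠ 0 :=
  C.symb_base_ne_zero _ C.exists_base.choose_spec.1 C.exists_base.choose_spec.2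

/-- The line of symbols. -/
def line : Submodule (ZMod p) C.H2 := Submodule.span (ZMod p) {C.baseClass}

lemma cup_mem_line (x y : C.H1) : cupTriv (ZMod p) (subLevels C.D) x y ∈ C.line := by
  obtain ⟨a, ha, rfl⟩ := C.exists_kq_eq x
  obtain ⟨b, hb, rfl⟩ := C.exists_kq_eq y
  exact C.symb_mem_symbLine _ C.exists_base.choose_spec.1 C.exists_base.choose_spec.2 ha hb

lemma line_eq_span {e : C.H2} (he : e ∈ C.line) (h0 : e ≠ 0) {x : C.H2} (hx : x ∈ C.line) :
    ∃ c : ZMod p, x = c • e := by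
  obtain ⟨a, rfl⟩ := Submodule.mem_span_singleton.1 he
  obtain ⟨b, rfl⟩ := Submodule.mem_span_singleton.1 hx
  have ha : a ≠ 0 := fun h => h0 (by rw [h, zero_smul])
  exact ⟨b / a, by rw [smul_smul, div_mul_cancel₀ _ ha]⟩

lemma exists_ne_zero_cup_eq_zero (χ : C.H1) :
    ∃ x : C.H1, x ≠ 0 ∧ cupTriv (ZMod p) (subLevels C.D) x χ = 0 := by
  have hp := (Fact.out : p.Prime)
  by_contra hno
  push Not at hno
  let f : C.H1 → C.line := fun x => ⟨_, C.cup_mem_line x χ⟩
  have hinj : Function.Injective f := fun x y hxy => by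
    rw [← sub_eq_zero]
    by_contra hne
    refine hno _ hne ?_
    rw [map_sub, LinearMap.sub_apply, sub_eq_zero]
    exact congrArg Subtype.val hxy
  have hcard : Nat.card C.line = p := by
    rw [line, Module.natCard_eq_pow_finrank (K := ZMod p),
      finrank_span_singleton C.baseClass_ne_zero, Nat.card_zmod, pow_one]
  have : Finite C.line := Nat.finite_of_card_ne_zero (by rw [hcard]; exact hp.ne_zero)
  have h1 := Nat.card_le_card_of_injective f hinj
  rw [C.card_H1 _ C.exists_base.choose_spec.1 C.exists_base.choose_spec.2, hcard] at h1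
  have h2 : p ^ 2 ≤ p := (Nat.pow_le_pow_right hp.pos (Nat.le_add_right 2 _)).trans h1
  have := hp.two_le
  nlinarith

/-- Some class restricted to the kernel of a character has non-zero corestricted cup product. -/
theorem exists_corL2_ne_zero {D' : Subgroup GQ} (h : OpenSub D' C.D)
    {χ : Z1 (subLevels C.D) (triv (ZMod p) C.D)} {s : C.D} (hs : χ.1 s = 1)
    (hker : ∀ x : C.D, x ∈ kerChi χ ↔ (x : GQ) ∈ D') :
    ∃ (x : C.H1) (y : H1c (subLevels D') (triv (ZMod p) D')),
      h.corL2 p (cupTriv (ZMod p) (subLevels D') (h.resL1 p x) y) ≠ 0 := by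
  classical
  have hp := (Fact.out : p.Prime)
  obtain ⟨x₀, hx₀, hcup⟩ := C.exists_ne_zero_cup_eq_zero (cls1 χ)
  obtain ⟨b, hb, rfl⟩ := C.exists_kq_eq x₀
  obtain ⟨z, hz0, hz, hprod⟩ := exists_norm_of_cup_eq_zero hs C.μ (C.fix b) hcup
  have hzD' : ∀ σ ∈ D', σ z = z := fun σ hσ => hz ⟨σ, h.le hσ⟩ ((hker _).2 hσ)
  let z' : fixedUnits D' := ⟨Units.mk0 z hz0, hzD'⟩
  obtain ⟨a, ha, hab⟩ :=
    C.exists_symb_ne_zero _ C.exists_base.choose_spec.1 C.exists_base.choose_spec.2 hb hx₀
  refine ⟨C.kq a, cls1 (kap (C.μ.restrict h.le) z'), ?_⟩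
  have := h.finiteIndex
  let _ft : Fintype (C.D ⧸ D'.subgroupOf C.D) := Fintype.ofFinite _
  rw [h.corL2_cup, corL1_kap C.μ h z']
  have heq : normUnit D' C.D z' = C.fix b := by
    refine Subtype.ext (Units.ext ?_)
    rw [C.fix_val hb, ← C.fix_val hb, ← hprod]
    show ∏ c : C.D ⧸ D'.subgroupOf C.D, ((coresSec (D'.subgroupOf C.D) c : C.D) : GQ) z = _
    symm
    have hcoset : ∀ g g' : C.D,
        (QuotientGroup.mk g : C.D ⧸ D'.subgroupOf C.D) = QuotientGroup.mk g' →
        (g : GQ) z = (g' : GQ) z := fun g g' e => by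
      have hm : g⁻¹ * g' ∈ D'.subgroupOf C.D := QuotientGroup.eq.1 e
      have e' := congrArg (g : GQ) (hzD' _ hm)
      exact e'.symm.trans ((g : GQ).apply_symm_apply _)
    refine prod_bij (fun j _ => (QuotientGroup.mk (s ^ j) : C.D ⧸ D'.subgroupOf C.D))
      (fun _ _ => Finset.mem_univ _)
      (fun i hi j hj e => ?_) (fun c _ => ?_)
      (fun j _ => (hcoset _ _ (mk_coresSec _ _)).symm)
    · have hm : (s ^ i)⁻¹ * s ^ j ∈ kerChi χ := (hker _).2
        (Subgroup.mem_subgroupOf.1 ((QuotientGroup.eq (s := D'.subgroupOf C.D)).1 e))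
      rw [mem_kerChi, chi_mul, chi_inv, chi_pow, chi_pow, hs, mul_one, mul_one,
        neg_add_eq_zero] at hm
      exact Nat.ModEq.eq_of_lt_of_lt ((ZMod.natCast_eq_natCast_iff _ _ _).1 hm)
        (mem_range.1 hi) (mem_range.1 hj)
    · obtain ⟨g, rfl⟩ := QuotientGroup.mk_surjective c
      have : NeZero p := ⟨hp.ne_zero⟩
      exact ⟨(χ.1 g).val, mem_range.2 (ZMod.val_lt _),
        (QuotientGroup.eq (s := D'.subgroupOf C.D)).2
          (Subgroup.mem_subgroupOf.2 ((hker _).1 (inv_pow_mul_mem hs g)))⟩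
  rw [heq]
  show C.symb a b ≠ 0
  rw [C.symb_swap b a]
  exact neg_ne_zero.2 hab

/-- A class dying on a normal open subgroup of `p`-power index is a symbol. -/
theorem mem_line_of_pow (n : ℕ) : ∀ (C : LocalCtx p l) (N : Subgroup GQ) (h : OpenSub N C.D),
    (N.subgroupOf C.D).Normal → N.relIndex C.D = p ^ n → ∀ z : C.H2, h.resL2 p z = 0 → z ∈ C.line := by
  have hp := (Fact.out : p.Prime)
  induction n with
  | zero =>
    intro C N h _ hidx z hz
    have e := h.corL2_resL2 z
    rw [hz, map_zero, hidx, pow_zero, Nat.cast_one, one_smul] at e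
    rw [← e]
    exact zero_mem _
  | succ n ih =>
    intro C N h hN hidx z hz
    have := hN
    let NN := N.subgroupOf C.D
    have := h.finiteIndex
    have hQ : Nat.card (C.D ⧸ NN) = p ^ (n + 1) := hidx
    obtain ⟨H, hH⟩ := Sylow.exists_subgroup_card_pow_prime (G := C.D ⧸ NN) p
      (n := n) (by rw [hQ]; exact pow_dvd_pow p (Nat.le_succ n))
    have hHi : H.index = p := by
      have h1 := H.index_mul_card
      rw [hH, hQ, pow_succ'] at h1
      exact Nat.eq_of_mul_eq_mul_right (pow_pos hp.pos n) h1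
    have : H.Normal := Subgroup.normal_of_index_eq_minFac_card (by
      rw [hHi, hQ, Nat.Prime.pow_minFac hp (Nat.succ_ne_zero n)])
    let e : (C.D ⧸ NN) ⧸ H ≃* Multiplicative (ZMod p) :=
      mulEquivOfPrimeCardEq (p := p) hHi (by simp)
    let π : C.D →* Multiplicative (ZMod p) :=
      e.toMonoidHom.comp ((QuotientGroup.mk' H).comp (QuotientGroup.mk' NN))
    have hπ : Function.Surjective π := e.surjective.comp
      ((QuotientGroup.mk'_surjective H).comp (QuotientGroup.mk'_surjective NN))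
    have hπN : ∀ g : C.D, (g : GQ) ∈ N → π g = 1 := fun g hg => by
      show e (QuotientGroup.mk' H (QuotientGroup.mk' NN g)) = 1
      rw [show QuotientGroup.mk' NN g = 1 from (QuotientGroup.eq_one_iff g).2 hg, map_one, map_one]
    obtain ⟨F, hF, hFle⟩ := h.exists_field
    let χ : Z1 (subLevels C.D) (triv (ZMod p) C.D) :=
      ⟨fun g => Multiplicative.toAdd (π g), isLev₁_iff_exists_field.2 ⟨F, hF, fun g t ht => by
        simp only [map_mul, hπN t (hFle ⟨t.2, ht⟩), mul_one]⟩, fun g g' => by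
        simp only [map_mul, toAdd_mul, Representation.trivial_apply]
        exact add_comm _ _⟩
    obtain ⟨s, hs'⟩ := hπ (Multiplicative.ofAdd 1)
    have hs : χ.1 s = 1 := congrArg Multiplicative.toAdd hs'
    have hNker : ∀ g : C.D, (g : GQ) ∈ N → g ∈ kerChi χ := fun g hg =>
      congrArg Multiplicative.toAdd (hπN g hg)
    let D₁ : Subgroup GQ := (kerChi χ).map C.D.subtype
    have h1 : OpenSub D₁ C.D := ⟨Subgroup.map_subtype_le _, F, hF, fun g hg =>
      ⟨⟨g, hg.1⟩, hNker _ (hFle hg), rfl⟩⟩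
    have hsub : D₁.subgroupOf C.D = kerChi χ :=
      Subgroup.comap_map_eq_self_of_injective C.D.subtype_injective _
    have hker : ∀ x : C.D, x ∈ kerChi χ ↔ (x : GQ) ∈ D₁ := fun x => by
      rw [← hsub, Subgroup.mem_subgroupOf]
    obtain ⟨C', hC'⟩ := C.exists_ctx_of_openSub h1
    rw [← hC'] at h1 hker hsub
    have hN' : OpenSub N C'.D :=
      ⟨fun g hg => (hker ⟨g, h.le hg⟩).1 (hNker _ hg), F, hF,
        fun g hg => hFle ⟨h1.le hg.1, hg.2⟩⟩
    have hnorm : (N.subgroupOf C'.D).Normal := ⟨fun a ha g => by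
      have := hN.conj_mem ⟨(a : GQ), h1.le a.2⟩ ha ⟨(g : GQ), h1.le g.2⟩
      exact this⟩
    have hidx₁ : C'.D.relIndex C.D = p := by
      rw [Subgroup.relIndex, hsub]
      have hk : kerChi χ = π.ker := by
        ext g
        exact ⟨fun hg => Multiplicative.toAdd.injective hg,
          fun hg => congrArg Multiplicative.toAdd hg⟩
      rw [hk, Subgroup.index_ker, MonoidHom.range_eq_top.2 hπ, Subgroup.card_top]
      simp
    have hidx' : N.relIndex C'.D = p ^ n := by
      have h2 := Subgroup.relIndex_mul_relIndex N C'.D C.D hN'.le h1.le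
      rw [hidx₁, hidx, pow_succ] at h2
      exact Nat.eq_of_mul_eq_mul_right hp.pos h2
    have hres : hN'.resL2 p (h1.resL2 p z) = 0 := by
      rw [← hz]
      obtain ⟨c, rfl⟩ := Submodule.mkQ_surjective _ z
      rfl
    have hline : h1.resL2 p z ∈ C'.line := ih C' N hN' hnorm hidx' _ hres
    obtain ⟨x, y, hxy⟩ := C.exists_corL2_ne_zero h1 hs hker
    set e₁ := cupTriv (ZMod p) (subLevels C'.D) (h1.resL1 p x) y
    have he₁ : e₁ ≠ 0 := fun h0 => hxy (by rw [h0, map_zero])
    obtain ⟨c, hc⟩ := C'.line_eq_span (C'.cup_mem_line _ _) he₁ hline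
    have hzero : h1.resL2 p z = 0 := by
      have h3 := h1.corL2_resL2 z
      rw [hc, map_smul, hidx₁, ZMod.natCast_self, zero_smul, smul_eq_zero] at h3
      rw [hc, h3.resolve_right hxy, zero_smul]
    obtain ⟨b, hb⟩ := exists_eq_cup_of_res_eq_zero C.μ hs z (res2_kerChi_eq_zero h1 hker hzero)
    rw [hb]
    exact C.cup_mem_line _ _

/-- Every class of degree two is a multiple of the base class. -/
theorem mem_line (z : C.H2) : z ∈ C.line := by
  classical
  have hp := (Fact.out : p.Prime)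
  -- a normal open subgroup where `z` dies
  obtain ⟨c, rfl⟩ := Submodule.mkQ_surjective _ z
  obtain ⟨_, ⟨_, ⟨F, hF, rfl⟩, rfl⟩, hlev⟩ := c.2.1
  let M := IntermediateField.normalClosure ℚ F Qb
  have : FiniteDimensional ℚ M := normalClosure.is_finiteDimensional ℚ F Qb
  have : IsGalois ℚ M := IsGalois.normalClosure ℚ F Qb
  have hMn : M.fixingSubgroup.Normal := (InfiniteGalois.normal_iff_isGalois M).mpr inferInstance
  have hMF : M.fixingSubgroup ≤ F.fixingSubgroup :=
    IntermediateField.fixingSubgroup_antitone (IntermediateField.le_normalClosure F)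
  let N : Subgroup GQ := C.D ⊓ M.fixingSubgroup
  have hN : OpenSub N C.D := ⟨inf_le_left, M, inferInstance, le_rfl⟩
  have hNn : (N.subgroupOf C.D).Normal := ⟨fun a ha g =>
    ⟨(g * a * g⁻¹).2, hMn.conj_mem _ ha.2 (g : GQ)⟩⟩
  have hz : hN.resL2 p (cls2 c) = 0 := by
    refine (cl2_eq_zero_iff _ _ _).2 ⟨fun _ => c.1 (1, 1), isLev₁_const _ _,
      funext fun ⟨a, b⟩ => ?_⟩
    show c.1 (1, 1) - c.1 (1, 1) + c.1 (1, 1) = c.1 (Subgroup.inclusion hN.le a, Subgroup.inclusion hN.le b)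
    have := hlev 1 1 (Subgroup.inclusion hN.le a) (hMF a.2.2) (Subgroup.inclusion hN.le b) (hMF b.2.2)
    rw [one_mul, one_mul] at this
    rw [this, sub_add_cancel]
  -- reduce to a Sylow subgroup
  have := hNn
  have := hN.finiteIndex
  let NN := N.subgroupOf C.D
  obtain ⟨P⟩ : Nonempty (Sylow p (C.D ⧸ NN)) := inferInstance
  let U : Subgroup C.D := (P : Subgroup (C.D ⧸ NN)).comap (QuotientGroup.mk' NN)
  let D₁ : Subgroup GQ := U.map C.D.subtype
  have hNU : ∀ g : C.D, (g : GQ) ∈ N → g ∈ U := fun g hg => by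
    show QuotientGroup.mk' NN g ∈ (P : Subgroup (C.D ⧸ NN))
    rw [show QuotientGroup.mk' NN g = 1 from (QuotientGroup.eq_one_iff g).2 hg]
    exact one_mem _
  have h1 : OpenSub D₁ C.D := ⟨Subgroup.map_subtype_le _, M, inferInstance, fun g hg =>
    ⟨⟨g, hg.1⟩, hNU _ hg, rfl⟩⟩
  have hsub : D₁.subgroupOf C.D = U :=
    Subgroup.comap_map_eq_self_of_injective C.D.subtype_injective _
  obtain ⟨C', hC'⟩ := C.exists_ctx_of_openSub h1
  rw [← hC'] at h1 hsub
  have hmem : ∀ g : C.D, (g : GQ) ∈ C'.D ↔ g ∈ U := fun g => by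
    rw [← hsub, Subgroup.mem_subgroupOf]
  have hN' : OpenSub N C'.D := ⟨fun g hg => (hmem ⟨g, hg.1⟩).2 (hNU _ hg), M, inferInstance,
    fun g hg => ⟨h1.le hg.1, hg.2⟩⟩
  have hN'n : (N.subgroupOf C'.D).Normal := ⟨fun a ha g =>
    ⟨h1.le (g * a * g⁻¹).2, hMn.conj_mem _ ha.2 (g : GQ)⟩⟩
  have hPi : C'.D.relIndex C.D = (P : Subgroup (C.D ⧸ NN)).index := by
    rw [Subgroup.relIndex, hsub]
    exact Subgroup.index_comap_of_surjective _ (QuotientGroup.mk'_surjective NN)
  have hm : (C'.D.relIndex C.D : ZMod p) ≠ 0 := by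
    rw [hPi, Ne, ZMod.natCast_eq_zero_iff]
    exact P.not_dvd_index
  obtain ⟨k, hk⟩ : ∃ k, N.relIndex C'.D = p ^ k := by
    obtain ⟨k, hk⟩ := IsPGroup.iff_card.1 P.isPGroup'
    refine ⟨k, ?_⟩
    have h2 := Subgroup.relIndex_mul_relIndex N C'.D C.D hN'.le h1.le
    have h3 := (P : Subgroup (C.D ⧸ NN)).index_mul_card
    rw [hk, ← hPi] at h3
    have h4 : N.relIndex C'.D * C'.D.relIndex C.D = C'.D.relIndex C.D * p ^ k := by
      rw [h2, h3]; rfl
    rw [mul_comm] at h4
    exact Nat.eq_of_mul_eq_mul_left (Nat.pos_of_ne_zero fun h0 => hm (by rw [h0, Nat.cast_zero])) h4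
  have hline : h1.resL2 p (cls2 c) ∈ C'.line := by
    refine mem_line_of_pow k C' N hN' hN'n hk _ ?_
    rw [← hz]
    rfl
  have hbase : h1.resL2 p C.baseClass ≠ 0 := fun h0 => by
    have e := h1.corL2_resL2 C.baseClass
    rw [h0, map_zero, eq_comm, smul_eq_zero] at e
    exact e.elim hm C.baseClass_ne_zero
  have hbmem : h1.resL2 p C.baseClass ∈ C'.line := by
    rw [baseClass, symb, h1.resL2_cup]
    exact C'.cup_mem_line _ _
  obtain ⟨t, ht⟩ := C'.line_eq_span hbmem hbase hline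
  have e := congrArg (h1.corL2 p) ht
  rw [map_smul, h1.corL2_resL2, h1.corL2_resL2, smul_comm] at e
  exact Submodule.mem_span_singleton.2 ⟨t, (smul_right_injective _ hm e).symm⟩

end LocalCtx

end

end FermatAgent.Duality.Local
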