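import Fermat.Agent.Duality.Local.Units
import Fermat.Agent.Duality.Local.Cyclic

/-!
# Levels of unit classes in a local field containing `μ_p`
-/

set_option autoImplicit false

namespace FermatAgent.Duality.Local

open FermatAgent.Local

noncomputable section

local notation "Qb" => AlgebraicClosure ℚ
local notation "GQ" => AlgebraicClosure ℚ ≃ₐ[ℚ] AlgebraicClosure ℚ

/-- A number field with a place over `l`, a fixed root of unity and a uniformiser. -/
structure LocalCtx (p l : ℕ) [Fact p.Prime] where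
  A : ValuationSubring Qb
  K : IntermediateField ℚ Qb
  fd : FiniteDimensional ℚ K
  hl : l.Prime
  hA : A.LiesOverPrime l
  μ : MuData p (localGroup K A)
  unif : LocalUnif A K

theorem exists_localCtx {p l : ℕ} [Fact p.Prime] (hl : l.Prime) (K : IntermediateField ℚ Qb)
    [FiniteDimensional ℚ K] (hK : ContainsMuP p K) {A : ValuationSubring Qb}
    (hA : A.LiesOverPrime l) : ∃ C : LocalCtx p l, C.K = K ∧ C.A = A := by
  obtain ⟨u⟩ := nonempty_localUnif (K := K) hl hA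
  exact ⟨⟨A, K, inferInstance, hl, hA, muDataLocal p K hK A, u⟩, rfl, rfl⟩

namespace LocalCtx

variable {p l : ℕ} [Fact p.Prime] (C : LocalCtx p l)

/-- The local group. -/
abbrev D : Subgroup GQ := localGroup C.K C.A
/-- The local field. -/
abbrev L : IntermediateField ℚ Qb := localField C.K C.A
/-- The valuation. -/
abbrev v : Valuation Qb C.A.ValueGroup := C.A.valuation
/-- The uniformiser. -/
abbrev ϖ : Qb := C.unif.ϖ
/-- The root of unity. -/
abbrev ζ : Qb := C.μ.ζ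
/-- `H¹`. -/
abbrev H1 : Type := H1c (subLevels C.D) (triv (ZMod p) C.D)
/-- `H²`. -/
abbrev H2 : Type := H2c (subLevels C.D) (triv (ZMod p) C.D)

/-- A non-zero element of the local field. -/
def Mem (a : Qb) : Prop := a ∈ C.L ∧ a ≠ 0

lemma Mem.mul {C : LocalCtx p l} {a b : Qb} (ha : C.Mem a) (hb : C.Mem b) : C.Mem (a * b) :=
  ⟨mul_mem ha.1 hb.1, mul_ne_zero ha.2 hb.2⟩

lemma Mem.div {C : LocalCtx p l} {a b : Qb} (ha : C.Mem a) (hb : C.Mem b) : C.Mem (a / b) :=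
  ⟨div_mem ha.1 hb.1, div_ne_zero ha.2 hb.2⟩

lemma Mem.pow {C : LocalCtx p l} {a : Qb} (ha : C.Mem a) (n : ℕ) : C.Mem (a ^ n) :=
  ⟨pow_mem ha.1 n, pow_ne_zero n ha.2⟩

lemma Mem.inv {C : LocalCtx p l} {a : Qb} (ha : C.Mem a) : C.Mem a⁻¹ :=
  ⟨inv_mem ha.1, inv_ne_zero ha.2⟩

lemma mem_one : C.Mem 1 := ⟨one_mem _, one_ne_zero⟩

lemma mem_ϖ : C.Mem C.ϖ := ⟨C.unif.mem_local, C.unif.ne_zero⟩

open scoped Classical in
/-- The fixed unit attached to an element (`1` for junk). -/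
def fix (a : Qb) : fixedUnits C.D :=
  if h : C.Mem a then ⟨Units.mk0 a h.2, mem_localField_iff.1 h.1⟩ else 1

lemma fix_val {a : Qb} (h : C.Mem a) : ((C.fix a : Qbˣ) : Qb) = a := by
  simp [fix, h]

lemma mem_fixedUnits (b : fixedUnits C.D) : C.Mem ((b : Qbˣ) : Qb) :=
  ⟨mem_localField_iff.2 b.2, (b : Qbˣ).ne_zero⟩

lemma fix_coe (b : fixedUnits C.D) : C.fix ((b : Qbˣ) : Qb) = b :=
  Subtype.ext (Units.ext (C.fix_val (C.mem_fixedUnits b)))

/-- The Kummer class of an element. -/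
def kq (a : Qb) : C.H1 := cls1 (kap C.μ (C.fix a))

lemma kq_mul {a b : Qb} (ha : C.Mem a) (hb : C.Mem b) : C.kq (a * b) = C.kq a + C.kq b := by
  rw [kq, kq, kq, ← map_add, ← kap_mul]
  congr 2
  exact Subtype.ext (Units.ext (by simp [C.fix_val ha, C.fix_val hb, C.fix_val (ha.mul hb)]))

lemma kq_one : C.kq 1 = 0 := by
  have := C.kq_mul C.mem_one C.mem_one
  rw [mul_one] at this
  simpa using this

lemma kq_div {a b : Qb} (ha : C.Mem a) (hb : C.Mem b) : C.kq (a / b) = C.kq a - C.kq b := by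
  rw [eq_sub_iff_add_eq, ← C.kq_mul (ha.div hb) hb, div_mul_cancel₀ a hb.2]

lemma kq_inv {a : Qb} (ha : C.Mem a) : C.kq a⁻¹ = -C.kq a := by
  rw [inv_eq_one_div, C.kq_div C.mem_one ha, kq_one, zero_sub]

lemma kq_pow {a : Qb} (ha : C.Mem a) (n : ℕ) : C.kq (a ^ n) = (n : ZMod p) • C.kq a := by
  induction n with
  | zero => simp [kq_one]
  | succ n ih => rw [pow_succ, C.kq_mul (ha.pow n) ha, ih, Nat.cast_succ, add_smul, one_smul]

lemma kq_pow_p {a : Qb} (ha : C.Mem a) : C.kq (a ^ p) = 0 := by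
  rw [C.kq_pow ha, ZMod.natCast_self, zero_smul]

lemma kq_eq_zero_iff {a : Qb} (ha : C.Mem a) : C.kq a = 0 ↔ ∃ b, C.Mem b ∧ b ^ p = a := by
  rw [kq, cl1_triv_eq_zero_iff, kap_eq_zero_iff]
  constructor
  · rintro ⟨b, hb⟩
    refine ⟨_, C.mem_fixedUnits b, ?_⟩
    rw [← C.fix_val ha, ← hb]
    rfl
  · rintro ⟨b, hb, rfl⟩
    exact ⟨C.fix b, Subtype.ext (Units.ext (by simp [C.fix_val hb, C.fix_val (hb.pow p)]))⟩

lemma exists_kq_eq (x : C.H1) : ∃ a, C.Mem a ∧ C.kq a = x := by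
  obtain ⟨a, rfl⟩ := kapHom_surjective C.μ x
  exact ⟨_, C.mem_fixedUnits a.toMul, by rw [kq, fix_coe]; rfl⟩

/-- `v(ζ - 1)` as a power of the uniformiser. -/
lemma exists_expZ : ∃ n : ℕ, C.v (C.ζ - 1) = C.v C.ϖ ^ n :=
  C.unif.exists_pow_of_le_one
    (sub_mem (zeta_mem_localField C.μ.fixed) (one_mem C.L))
    (sub_ne_zero.2 (C.μ.isPrimitiveRoot.ne_one (Fact.out : p.Prime).one_lt))
    (val_zeta_sub_one_le C.μ.isPrimitiveRoot)

/-- The exponent of `ζ - 1`. -/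
def expZ : ℕ := C.exists_expZ.choose

lemma val_zeta_sub_one : C.v (C.ζ - 1) = C.v C.ϖ ^ C.expZ := C.exists_expZ.choose_spec

/-- The critical level: the exponent of `(ζ - 1) ^ p`. -/
def critLevel : ℕ := p * C.expZ

lemma val_crit : C.v C.ϖ ^ C.critLevel = C.v (C.ζ - 1) ^ p := by
  rw [critLevel, mul_comm, pow_mul, val_zeta_sub_one]

lemma critLevel_of_ne (h : l ≠ p) : C.critLevel = 0 := by
  have h1 : C.v C.ϖ ^ (C.expZ : ℤ) = C.v C.ϖ ^ ((0 : ℕ) : ℤ) := by
    rw [zpow_natCast, zpow_natCast, pow_zero, ← C.val_zeta_sub_one]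
    exact val_zeta_sub_one_eq_one C.μ.isPrimitiveRoot C.hl C.hA h
  rw [critLevel, Int.ofNat_inj.1 (C.unif.zpow_inj h1), mul_zero]

lemma critLevel_pos (h : l = p) : 0 < C.critLevel := by
  refine Nat.mul_pos (Fact.out : p.Prime).pos (Nat.pos_of_ne_zero fun h0 => ?_)
  have hlt := val_zeta_sub_one_lt (A := C.A) C.μ.isPrimitiveRoot (h ▸ C.hA)
  rw [C.val_zeta_sub_one, h0, pow_zero] at hlt
  exact lt_irrefl _ hlt

/-- A unit of level `i`. -/
def Prin (x : Qb) (i : ℕ) : Prop := x ∈ C.L ∧ C.v x = 1 ∧ C.v (x - 1) ≤ C.v C.ϖ ^ i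

lemma Prin.mem {C : LocalCtx p l} {x : Qb} {i : ℕ} (h : C.Prin x i) : C.Mem x :=
  ⟨h.1, fun h0 => by simpa [h0] using h.2.1⟩

lemma Prin.mono {C : LocalCtx p l} {x : Qb} {i j : ℕ} (h : C.Prin x i) (hij : j ≤ i) :
    C.Prin x j :=
  ⟨h.1, h.2.1, h.2.2.trans (pow_le_pow_right_of_le_one' C.unif.lt_one.le hij)⟩

lemma prin_zero {x : Qb} (hx : x ∈ C.L) (hv : C.v x = 1) : C.Prin x 0 :=
  ⟨hx, hv, by rw [pow_zero]; exact C.A.valuation.map_sub_le hv.le (map_one _).le⟩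

lemma prin_of_lt {x : Qb} {i : ℕ} (hx : x ∈ C.L) (h : C.v (x - 1) < C.v C.ϖ ^ i) :
    C.Prin x (i + 1) :=
  ⟨hx, val_eq_one_of_sub_lt (h.trans_le (pow_le_one₀ zero_le C.unif.lt_one.le)),
    C.unif.le_pow_succ (sub_mem hx (one_mem C.L)) h⟩

lemma prin_of_le {x : Qb} {i : ℕ} (hi : 0 < i) (hx : x ∈ C.L) (h : C.v (x - 1) ≤ C.v C.ϖ ^ i) :
    C.Prin x i :=
  ⟨hx, val_eq_one_of_sub_lt (h.trans_lt (pow_lt_one₀ zero_le C.unif.lt_one hi.ne')), h⟩

lemma kq_eq_zero_of_prin {x : Qb} {i : ℕ} (hi : C.critLevel < i) (hx : C.Prin x i) :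
    C.kq x = 0 := by
  have := C.fd
  obtain ⟨y, hy, hyx, -⟩ := exists_pow_eq_of_close C.μ.isPrimitiveRoot (A := C.A) hx.1
    (hx.2.2.trans_lt (by
      rw [← C.val_crit]
      exact pow_lt_pow_right_of_lt_one₀ C.unif.pos C.unif.lt_one hi))
  have hy0 : y ≠ 0 := fun h0 => hx.mem.2
    (by rw [← hyx, h0, zero_pow (Fact.out : p.Prime).ne_zero])
  exact (C.kq_eq_zero_iff hx.mem).2 ⟨y, ⟨hy, hy0⟩, hyx⟩

/-- In residue characteristic `p` every unit is a principal unit times a `p`-th power. -/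
lemma exists_prin_one (h : l = p) {a : Qb} (ha : a ∈ C.L) (hv : C.v a = 1) :
    ∃ x, C.Prin x 1 ∧ C.kq x = C.kq a := by
  have := C.fd
  subst h
  obtain ⟨s, hsA, hsL, hs⟩ := exists_residue_pow_eq C.hl C.hA
    ((C.A.valuation_le_one_iff _).1 hv.le) ha
  have hvs : C.v (s ^ l) = 1 := by
    have h' : C.v (s ^ l - a) < C.v a := by rw [hv, Valuation.map_sub_swap]; exact hs
    exact (C.A.valuation.map_eq_of_sub_lt h').trans hv
  have hs0 : s ≠ 0 := fun h0 => by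
    simp [h0, zero_pow (Fact.out : l.Prime).ne_zero] at hvs
  have hM : C.Mem a := ⟨ha, fun h0 => by simp [h0] at hv⟩
  have hS : C.Mem s := ⟨hsL, hs0⟩
  refine ⟨a / s ^ l, C.prin_of_lt (hM.div (hS.pow l)).1 ?_, ?_⟩
  · rw [pow_zero, div_sub_one (pow_ne_zero _ hs0), map_div₀, hvs, div_one]; exact hs
  · rw [C.kq_div hM (hS.pow l), C.kq_pow_p hS, sub_zero]

/-- Below the critical level, a unit of level divisible by `p` improves by a `p`-th power. -/
lemma exists_improve (h : l = p) {x : Qb} {i : ℕ} (hi : i < C.critLevel) (hi0 : 0 < i)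
    (hdvd : p ∣ i) (hx : C.Prin x i) : ∃ x', C.Prin x' (i + 1) ∧ C.kq x' = C.kq x := by
  have := C.fd
  subst h
  obtain ⟨m, rfl⟩ := hdvd
  set c := (x - 1) / C.ϖ ^ (l * m) with hcdef
  have hϖi : C.v C.ϖ ^ (l * m) ≠ 0 := (pow_pos C.unif.pos _).ne'
  have hcA : c ∈ C.A := (C.A.valuation_le_one_iff _).1 (by
    rw [hcdef, map_div₀, map_pow]
    exact div_le_one_of_le₀ hx.2.2 zero_le)
  have hcL : c ∈ C.L := div_mem (sub_mem hx.1 (one_mem C.L)) (pow_mem C.mem_ϖ.1 _)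
  obtain ⟨s, hsA, hsL, hs⟩ := exists_residue_pow_eq C.hl C.hA hcA hcL
  set w := C.ϖ ^ m * s with hw
  have hm : 0 < m := Nat.pos_of_mul_pos_left hi0
  have hvw : C.v w ≤ C.v C.ϖ ^ m := by
    rw [hw, map_mul, map_pow]
    exact mul_le_of_le_one_right' (val_le_one_of_mem hsA)
  have hcross : C.v ((1 + w) ^ l - 1 - w ^ l) < C.v C.ϖ ^ (l * m) := by
    refine (val_one_add_pow_sub_le (hvw.trans (pow_le_one₀ zero_le C.unif.lt_one.le))).trans_lt ?_
    refine lt_of_le_of_lt (mul_le_mul' le_rfl hvw) ?_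
    rw [← val_zeta_sub_one_pow C.μ.isPrimitiveRoot, C.val_zeta_sub_one, ← pow_mul, ← pow_add]
    refine pow_lt_pow_right_of_lt_one₀ C.unif.pos C.unif.lt_one ?_
    have h1 : m < C.expZ := (Nat.mul_lt_mul_left (Fact.out : l.Prime).pos).1 hi
    have h2 := (Fact.out : l.Prime).one_lt
    obtain ⟨q, rfl⟩ : ∃ q, l = q + 1 := ⟨l - 1, by omega⟩
    rw [Nat.add_sub_cancel, Nat.add_mul, one_mul, mul_comm C.expZ q]
    exact Nat.add_lt_add_right (Nat.mul_lt_mul_of_pos_left h1 (by omega)) m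
  have hwL : 1 + w ∈ C.L := add_mem (one_mem C.L) (mul_mem (pow_mem C.mem_ϖ.1 m) hsL)
  have hy : C.v ((1 + w) ^ l) = 1 := by
    rw [map_pow, show C.v (1 + w) = 1 from val_eq_one_of_sub_lt (by
      rw [add_sub_cancel_left]
      exact hvw.trans_lt (pow_lt_one₀ zero_le C.unif.lt_one hm.ne')), one_pow]
  have hy0 : 1 + w ≠ 0 := fun h0 => by
    simp [h0, zero_pow (Fact.out : l.Prime).ne_zero] at hy
  have hW : C.Mem (1 + w) := ⟨hwL, hy0⟩
  refine ⟨x / (1 + w) ^ l, C.prin_of_lt (hx.mem.div (hW.pow l)).1 ?_, ?_⟩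
  · rw [div_sub_one (pow_ne_zero _ hy0), map_div₀, hy, div_one,
      show x - (1 + w) ^ l = C.ϖ ^ (l * m) * (c - s ^ l) - ((1 + w) ^ l - 1 - w ^ l) by
        rw [hcdef, mul_sub, mul_div_cancel₀ _ (pow_ne_zero _ C.unif.ne_zero), hw, mul_pow,
          ← pow_mul, mul_comm l m]
        ring]
    refine (C.A.valuation.map_sub _ _).trans_lt (max_lt ?_ hcross)
    rw [map_mul, map_pow]
    exact mul_lt_of_lt_one_right (zero_lt_iff.2 hϖi) hs
  · rw [C.kq_div hx.mem (hW.pow l), C.kq_pow_p hW, sub_zero]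

/-- Unramified classes: those vanishing on inertia. -/
def Unr (x : C.H1) : Prop :=
  x ∈ LinearMap.ker (res1 (subLevels C.D) (triv (ZMod p) C.D) (localInertia C.K C.A))

lemma unr_kq_iff {a : Qb} : C.Unr (C.kq a) ↔
    ∀ σ : C.D, (σ : GQ) ∈ C.A.inertiaSubgroupIn ℚ → kapFun C.μ (C.fix a) σ = 0 := by
  rw [Unr, LinearMap.mem_ker, kq]
  refine (cl1_eq_zero_iff _ _ _).trans ?_
  constructor
  · rintro ⟨m, hm⟩ σ hσ
    have e := congrFun hm ⟨σ, hσ⟩
    rw [dd₀_apply] at e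
    change (1 : Module.End (ZMod p) (ZMod p)) m - m = kapFun C.μ (C.fix a) σ at e
    simpa using e.symm
  · intro h
    refine ⟨0, funext fun σ => ?_⟩
    rw [map_zero]
    exact (h σ.1 σ.2).symm

lemma unr_kq_of_root {a : Qb} (ha : C.Mem a) {r : Qb} (hr : r ^ p = a)
    (hfix : ∀ σ ∈ C.A.inertiaSubgroupIn ℚ, σ ∈ C.D → σ r = r) : C.Unr (C.kq a) := by
  rw [unr_kq_iff]
  intro σ hσ
  refine kapFun_eq_of C.μ _ (by rw [C.fix_val ha]; exact hr) σ 0 ?_
  rw [zpw_zero, one_mul, hfix _ hσ σ.2]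

/-- Classes of units at the critical level are unramified. -/
theorem unr_of_prin_crit {x : Qb} (hx : C.Prin x C.critLevel) : C.Unr (C.kq x) := by
  have hζ := C.μ.isPrimitiveRoot
  have hζ1 : C.ζ - 1 ≠ 0 := sub_ne_zero.2 (hζ.ne_one (Fact.out : p.Prime).one_lt)
  obtain ⟨r, hr⟩ := IsAlgClosed.exists_pow_nat_eq x (Fact.out : p.Prime).pos
  refine C.unr_kq_of_root hx.mem hr fun σ hσ hσD => ?_
  set t := (r - 1) / (C.ζ - 1) with ht
  have hrt : r = 1 + (C.ζ - 1) * t := by rw [ht, mul_div_cancel₀ _ hζ1]; ring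
  have htA : t ∈ C.A := by
    refine (C.A.valuation_le_one_iff _).1
      (val_le_one_of_artinSchreier hζ (c := (x - 1) / (C.ζ - 1) ^ p) ?_ ?_)
    · rw [map_div₀, map_pow]
      exact div_le_one_of_le₀ (hx.2.2.trans C.val_crit.le) zero_le
    · rw [← hrt, hr, mul_div_cancel₀ _ (pow_ne_zero _ hζ1)]
  have hvr : C.v r = 1 := by
    have h1 : C.v r ^ p = 1 := by rw [← map_pow, hr, hx.2.1]
    exact (pow_eq_one_iff.1 h1).resolve_right (Fact.out : p.Prime).ne_zero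
  have hr0 : r ≠ 0 := fun h0 => by simp [h0] at hvr
  obtain ⟨i, hi⟩ := exists_zpw_eq hζ (x := σ r / r) (by
    rw [div_pow, ← map_pow, hr, mem_localField_iff.1 hx.1 σ hσD, div_self hx.mem.2])
  have hlt := inertia_val_sub_lt_one hσ htA
  by_contra hne
  have hi0 : i ≠ 0 := fun h0 => hne (by
    rw [h0, zpw_zero, eq_comm, div_eq_one_iff_eq hr0] at hi; exact hi)
  rw [eq_div_iff hr0] at hi
  have e : σ t - t = (zpw p C.ζ i - 1) * r / (C.ζ - 1) := by
    rw [ht, map_div₀, map_sub, map_sub, map_one, C.μ.fixed σ hσD, ← sub_div, ← hi]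
    congr 1
    ring
  rw [e, map_div₀, map_mul, hvr, mul_one, val_zpw_sub_one hζ hi0,
    div_self (val_zeta_sub_one_pos hζ).ne'] at hlt
  exact lt_irrefl _ hlt

/-- An unramified class at the critical level which is not trivial. -/
theorem exists_prin_crit_ne_zero : ∃ x, C.Prin x C.critLevel ∧ C.kq x ≠ 0 := by
  have := C.fd
  have := finite_resRing C.hl C.hA (K := C.K)
  have hp := (Fact.out : p.Prime)
  have hζ := C.μ.isPrimitiveRoot
  have hζ1 : C.ζ - 1 ≠ 0 := sub_ne_zero.2 (hζ.ne_one hp.one_lt)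
  have hζL : C.ζ ∈ C.L := zeta_mem_localField C.μ.fixed
  rcases eq_or_ne l p with h | h
  · -- residue characteristic `p`
    subst h
    have := charP_residue C.hl C.hA
    obtain ⟨c, hcL, hc⟩ := exists_not_mem_range (L := C.L) (A := C.A) (fun t => t ^ l - t)
      (fun t ht => sub_mem (pow_mem ht l) ht) (zero_mem _) (one_mem _) zero_ne_one
      (by simp [hp.ne_zero])
    have hxL : 1 + (C.ζ - 1) ^ l * (c : Qb) ∈ C.L :=
      add_mem (one_mem C.L) (mul_mem (pow_mem (sub_mem hζL (one_mem C.L)) l) hcL)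
    have hprin : C.Prin (1 + (C.ζ - 1) ^ l * (c : Qb)) C.critLevel := by
      refine C.prin_of_le (C.critLevel_pos rfl) hxL ?_
      rw [add_sub_cancel_left, map_mul, map_pow, C.val_crit]
      exact mul_le_of_le_one_right' (val_le_one_of_mem c.2)
    refine ⟨_, hprin, fun h0 => ?_⟩
    obtain ⟨y, hy, hy'⟩ := (C.kq_eq_zero_iff hprin.mem).1 h0
    set t := (y - 1) / (C.ζ - 1) with ht
    have hyt : y = 1 + (C.ζ - 1) * t := by rw [ht, mul_div_cancel₀ _ hζ1]; ring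
    have he : (1 + (C.ζ - 1) * t) ^ l - 1 = (C.ζ - 1) ^ l * (c : Qb) := by
      rw [← hyt, hy', add_sub_cancel_left]
    have htA : t ∈ C.A := (C.A.valuation_le_one_iff _).1
      (val_le_one_of_artinSchreier hζ (val_le_one_of_mem c.2) he)
    obtain ⟨c', hc', hres⟩ := residue_artinSchreier hζ C.hA ⟨t, htA⟩
    rw [he] at hc'
    refine hc ⟨t, htA⟩ (div_mem (sub_mem hy.1 (one_mem C.L)) (sub_mem hζL (one_mem C.L))) ?_
    rw [← hres]
    exact congrArg _ (Subtype.ext (mul_left_cancel₀ (pow_ne_zero _ hζ1) hc').symm)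
  · -- residue characteristic prime to `p`
    rw [C.critLevel_of_ne h]
    have hvζ1 := val_zeta_sub_one_eq_one (A := C.A) hζ C.hl C.hA h
    have hζA : C.ζ ∈ C.A := zeta_mem hζ
    have hne1 : IsLocalRing.residue C.A ⟨C.ζ, hζA⟩ ≠ 1 := by
      rw [← map_one (IsLocalRing.residue C.A), Ne, residue_eq_residue_iff]
      simp [hvζ1]
    obtain ⟨c, hcL, hc⟩ := exists_not_mem_range (L := C.L) (A := C.A) (fun t => t ^ p)
      (fun t ht => pow_mem ht p) ⟨⟨C.ζ, hζA⟩, hζL, rfl⟩ (one_mem _) hne1 (by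
        show IsLocalRing.residue C.A _ ^ p = 1 ^ p
        rw [one_pow, ← map_pow, ← map_one (IsLocalRing.residue C.A)]
        exact congrArg _ (Subtype.ext (by simpa using hζ.pow_eq_one)))
    have hvc : C.v (c : Qb) = 1 := by
      refine le_antisymm (val_le_one_of_mem c.2) (le_of_not_gt fun hlt => hc 0 (zero_mem C.L) ?_)
      show IsLocalRing.residue C.A 0 ^ p = _
      rw [map_zero, zero_pow hp.ne_zero, eq_comm, residue_eq_zero_iff']
      exact hlt
    have hprin := C.prin_zero hcL hvc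
    refine ⟨_, hprin, fun h0 => ?_⟩
    obtain ⟨y, hy, hy'⟩ := (C.kq_eq_zero_iff hprin.mem).1 h0
    have hyA : y ∈ C.A := (C.A.valuation_le_one_iff _).1 (le_of_eq (by
      have h1 : C.v y ^ p = 1 := by rw [← map_pow, hy', hvc]
      exact (pow_eq_one_iff.1 h1).resolve_right hp.ne_zero))
    refine hc ⟨y, hyA⟩ hy.1 ?_
    show IsLocalRing.residue C.A _ ^ p = _
    rw [← map_pow]
    exact congrArg _ (Subtype.ext (by simpa using hy'))

end LocalCtx

end

end FermatAgent.Duality.Local
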