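import Fermat.Agent.Duality.Local.Symbol

/-!
# The symbol is non-degenerate

An unramified extension of degree `p` has the same value group, so a uniformiser is not a norm;
combined with the key identity this makes the symbol non-degenerate.
-/

set_option autoImplicit false

open Finset

namespace FermatAgent.Duality.Local

open FermatAgent.Local

noncomputable section

local notation "Qb" => AlgebraicClosure ℚ
local notation "GQ" => AlgebraicClosure ℚ ≃ₐ[ℚ] AlgebraicClosure ℚ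

lemma sum_pow_eq {p : ℕ} [Fact p.Prime] {ζ : Qb} (hζ : IsPrimitiveRoot ζ p) {j : ℕ} (hj : j < p) :
    ∑ k ∈ range p, (ζ⁻¹) ^ (j * k) = if j = 0 then (p : Qb) else 0 := by
  split_ifs with h
  · simp [h]
  · have hp := (Fact.out : p.Prime)
    have hne : (ζ⁻¹) ^ j ≠ 1 := by
      rw [inv_pow, Ne, inv_eq_one]
      exact hζ.pow_ne_one_of_pos_of_lt h hj
    simp only [pow_mul]
    rw [geom_sum_eq hne, ← pow_mul, mul_comm, pow_mul, inv_pow, hζ.pow_eq_one, inv_one, one_pow,
      sub_self, zero_div]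

lemma zmod_two_cases : ∀ e : ZMod 2, e = 0 ∨ e = 1 := by decide

namespace LocalCtx

variable {p l : ℕ} [Fact p.Prime] (C : LocalCtx p l)
variable (u₀ : Qb) (hu₀ : C.Prin u₀ C.critLevel) (hne : C.kq u₀ ≠ 0)

include hne in
lemma exists_chi_eq_one : ∃ s : C.D, (kap C.μ (C.fix u₀)).1 s = 1 := by
  obtain ⟨g, hg⟩ : ∃ g, kapFun C.μ (C.fix u₀) g ≠ 0 := by
    by_contra hall
    push Not at hall
    exact hne (cl1_triv_eq_zero_iff.2 (Subtype.ext (funext hall)))
  refine ⟨g ^ ((kapFun C.μ (C.fix u₀) g)⁻¹).val, ?_⟩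
  have : NeZero p := ⟨(Fact.out : p.Prime).ne_zero⟩
  rw [chi_pow, ZMod.natCast_zmod_val]
  exact inv_mul_cancel₀ hg

include hu₀ hne in
/-- The unramified extension of degree `p` has the value group of the local field. -/
theorem exists_zpow_of_fixed {z : Qb} (hz0 : z ≠ 0)
    (hz : ∀ n ∈ kerChi (kap C.μ (C.fix u₀)), (n : GQ) z = z) :
    ∃ i : ℤ, C.v z = C.v C.ϖ ^ i := by
  have hp := (Fact.out : p.Prime)
  have : NeZero p := ⟨hp.ne_zero⟩
  have hζ := C.μ.isPrimitiveRoot
  have hζ1 : C.ζ - 1 ≠ 0 := sub_ne_zero.2 (hζ.ne_one hp.one_lt)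
  obtain ⟨s, hs⟩ := C.exists_chi_eq_one u₀ hne
  set χ := kap C.μ (C.fix u₀) with hχ
  set r := rootP p ((C.fix u₀ : Qbˣ) : Qb) with hrdef
  have hr : r ^ p = u₀ := (rootP_pow _).trans (C.fix_val hu₀.mem)
  have hr0 : r ≠ 0 := ne_zero_of_pow_eq (rootP_pow _)
  have hvr : C.v r = 1 := by
    have h1 : C.v r ^ p = 1 := by rw [← map_pow, hr, hu₀.2.1]
    exact (pow_eq_one_iff.1 h1).resolve_right hp.ne_zero
  have hsr : ∀ j : ℕ, ((s ^ j : C.D) : GQ) r = C.ζ ^ j * r := fun j => by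
    rw [kapFun_spec C.μ (C.fix u₀) (rootP_pow _) (s ^ j),
      show kapFun C.μ (C.fix u₀) (s ^ j) = (j : ZMod p) by rw [← kap_apply, chi_pow, hs, mul_one],
      zpw_natCast hζ]
  have hnr : ∀ n, n ∈ kerChi χ → (n : GQ) r = r := fun n hn => by
    rw [kapFun_spec C.μ (C.fix u₀) (rootP_pow _) n, show kapFun C.μ (C.fix u₀) n = 0 from hn,
      zpw_zero, one_mul]
  have hζfix : ∀ g : C.D, (g : GQ) C.ζ = C.ζ := fun g => C.μ.fixed g g.2
  have hfixs : ∀ j n, n ∈ kerChi χ → (n : GQ) (((s ^ j : C.D) : GQ) z) = ((s ^ j : C.D) : GQ) z := by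
    intro j n hn
    conv_rhs => rw [← hz _ (conj_mem_kerChi χ hn (s ^ j))]
    rw [← AlgEquiv.mul_apply, ← AlgEquiv.mul_apply, ← Subgroup.coe_mul, ← Subgroup.coe_mul]
    congr 2; group
  -- eigen-components
  let c : ℕ → Qb := fun k =>
    (∑ j ∈ range p, (C.ζ⁻¹) ^ (j * k) * ((s ^ j : C.D) : GQ) z) / ((p : Qb) * r ^ k)
  have hcn : ∀ k n, n ∈ kerChi χ → (n : GQ) (c k) = c k := fun k n hn => by
    simp only [c, map_div₀, map_sum, map_mul, map_pow, map_inv₀, map_natCast, hnr n hn, hζfix,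
      hfixs _ n hn]
  have hcs : ∀ k, (s : GQ) (c k) = c k := by
    intro k
    simp only [c, map_div₀, map_sum, map_mul, map_pow, map_inv₀, map_natCast, hζfix]
    rw [show (s : GQ) r = C.ζ * r by simpa using hsr 1, mul_pow,
      div_eq_div_iff (mul_ne_zero (Nat.cast_ne_zero.2 hp.ne_zero)
        (mul_ne_zero (pow_ne_zero _ (hζ.ne_zero hp.ne_zero)) (pow_ne_zero _ hr0)))
        (mul_ne_zero (Nat.cast_ne_zero.2 hp.ne_zero) (pow_ne_zero _ hr0)), sum_mul, sum_mul]
    have hper : ((s ^ p : C.D) : GQ) z = z := hz _ (pow_p_mem (χ := χ))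
    obtain ⟨m, hm⟩ : ∃ m, p = m + 1 := ⟨p - 1, by have := hp.pos; omega⟩
    have hζp : (C.ζ⁻¹) ^ (p * k) = 1 := by
      rw [pow_mul, inv_pow, hζ.pow_eq_one, inv_one, one_pow]
    have hterm : ∀ j, (C.ζ⁻¹) ^ (j * k) * (s : GQ) (((s ^ j : C.D) : GQ) z) * ((p : Qb) * r ^ k)
        = (C.ζ⁻¹) ^ ((j + 1) * k) * ((s ^ (j + 1) : C.D) : GQ) z *
          ((p : Qb) * (C.ζ ^ k * r ^ k)) := fun j => by
      have hz' : C.ζ ^ k ≠ 0 := pow_ne_zero _ (hζ.ne_zero hp.ne_zero)
      rw [pow_succ' s j, Subgroup.coe_mul, AlgEquiv.mul_apply, add_mul, one_mul, pow_add,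
        inv_pow C.ζ k]
      field_simp
    rw [sum_congr rfl (fun j _ => hterm j), ← sum_mul, ← sum_mul]
    congr 1
    have e : ∀ f : ℕ → Qb, f p = f 0 → ∑ j ∈ range p, f (j + 1) = ∑ j ∈ range p, f j := by
      intro f hf
      have h1 := sum_range_succ' f p
      have h2 := sum_range_succ f p
      linear_combination h2 - h1 + hf
    refine e (fun j => (C.ζ⁻¹) ^ (j * k) * ((s ^ j : C.D) : GQ) z) ?_
    rw [hζp, hper]
    simp
  have hcL : ∀ k, c k ∈ C.L := fun k => mem_localField_iff.2 fun σ hσ => by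
    have hσ' : (⟨σ, hσ⟩ : C.D) = s ^ (χ.1 ⟨σ, hσ⟩).val *
        ((s ^ (χ.1 ⟨σ, hσ⟩).val)⁻¹ * ⟨σ, hσ⟩) := (mul_inv_cancel_left _ _).symm
    have hsi : ∀ i : ℕ, ((s ^ i : C.D) : GQ) (c k) = c k := fun i => by
      induction i with
      | zero => simp
      | succ i ih => rw [pow_succ, Subgroup.coe_mul, AlgEquiv.mul_apply, hcs, ih]
    calc σ (c k) = ((s ^ (χ.1 ⟨σ, hσ⟩).val *
          ((s ^ (χ.1 ⟨σ, hσ⟩).val)⁻¹ * ⟨σ, hσ⟩) : C.D) : GQ) (c k) := by rw [← hσ']
      _ = c k := by rw [Subgroup.coe_mul, AlgEquiv.mul_apply, hcn k _ (inv_pow_mul_mem hs _), hsi]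
  have hexp : z = ∑ k ∈ range p, c k * r ^ k := by
    have hterm : ∀ k, c k * r ^ k
        = (∑ j ∈ range p, (C.ζ⁻¹) ^ (j * k) * ((s ^ j : C.D) : GQ) z) / (p : Qb) := fun k => by
      simp only [c]
      have := pow_ne_zero k hr0
      field_simp
    simp only [hterm, ← sum_div]
    rw [sum_comm, eq_div_iff (Nat.cast_ne_zero.2 hp.ne_zero)]
    rw [sum_congr rfl (fun j hj => by rw [← sum_mul, sum_pow_eq hζ (mem_range.1 hj)])]
    simp [ite_mul, hp.pos, mul_comm]
  -- expansion in an integral generator with distinct residues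
  set t := (r - 1) / (C.ζ - 1) with ht
  have hrt : r = (C.ζ - 1) * t + 1 := by rw [ht, mul_div_cancel₀ _ hζ1]; ring
  have htA : t ∈ C.A := by
    refine (C.A.valuation_le_one_iff _).1
      (val_le_one_of_artinSchreier hζ (c := (u₀ - 1) / (C.ζ - 1) ^ p) ?_ ?_)
    · rw [map_div₀, map_pow]
      exact div_le_one_of_le₀ (hu₀.2.2.trans C.val_crit.le) zero_le
    · rw [add_comm 1, ← hrt, hr, mul_div_cancel₀ _ (pow_ne_zero _ hζ1)]
  have hst : ∀ j : ℕ, ((s ^ j : C.D) : GQ) t = (C.ζ ^ j * r - 1) / (C.ζ - 1) := fun j => by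
    rw [ht, map_div₀, map_sub, map_sub, map_one, hsr j, hζfix]
  let τ : ℕ → C.A := fun j => ⟨((s ^ j : C.D) : GQ) t, (decomposition_mem_iff (s ^ j).2.2 t).2 htA⟩
  have hτinj : ∀ i < p, ∀ j < p, IsLocalRing.residue C.A (τ i) = IsLocalRing.residue C.A (τ j) →
      i ≤ j := by
    intro i hi j hj he
    by_contra hlt
    rw [not_le] at hlt
    rw [residue_eq_residue_iff] at he
    change C.v (((s ^ i : C.D) : GQ) t - ((s ^ j : C.D) : GQ) t) < 1 at he
    rw [hst, hst, show (C.ζ ^ i * r - 1) / (C.ζ - 1) - (C.ζ ^ j * r - 1) / (C.ζ - 1)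
      = C.ζ ^ j * r * (C.ζ ^ (i - j) - 1) / (C.ζ - 1) by
        rw [← sub_div, mul_sub, mul_one, mul_right_comm, ← pow_add, Nat.add_sub_cancel' hlt.le]
        ring, map_div₀, map_mul, map_mul, map_pow, val_zeta hζ, one_pow, hvr, one_mul, one_mul,
      val_pow_sub_one_eq hζ (fun hd => by have := Nat.le_of_dvd (by omega) hd; omega),
      div_self (val_zeta_sub_one_pos hζ).ne'] at he
    exact lt_irrefl _ he
  let b : ℕ → Qb := fun m => ∑ k ∈ range p, c k * ((k.choose m : ℕ) : Qb) * (C.ζ - 1) ^ m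
  have hbL : ∀ m, b m ∈ C.L := fun m => sum_mem fun k _ => mul_mem (mul_mem (hcL k)
    (natCast_mem C.L _)) (pow_mem (sub_mem (zeta_mem_localField C.μ.fixed) (one_mem C.L)) m)
  have hzb : z = ∑ m ∈ range p, b m * t ^ m := by
    simp only [b, sum_mul]
    rw [sum_comm, hexp]
    refine sum_congr rfl fun k hk => ?_
    rw [hrt, add_pow, mul_sum]
    refine sum_subset_zero_on_sdiff (range_mono (by have := mem_range.1 hk; omega))
      (fun m hm => ?_) (fun m _ => ?_)
    · obtain ⟨-, hm2⟩ := mem_sdiff.1 hm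
      rw [Nat.choose_eq_zero_of_lt (by simpa [Nat.lt_succ_iff] using hm2)]
      simp
    · rw [mul_pow, one_pow]; ring
  obtain ⟨k₀, hk₀, hmax⟩ := exists_max_image (range p) (fun m => C.v (b m))
    ⟨0, mem_range.2 hp.pos⟩
  set d := b k₀
  have hd0 : d ≠ 0 := fun h0 => hz0 (by
    rw [hzb]
    refine sum_eq_zero fun m hm => ?_
    have := hmax m hm
    rw [h0, map_zero] at this
    rw [(map_eq_zero _).1 (le_zero_iff.1 this), zero_mul])
  let g : ℕ → C.A := fun m => if hm : m ∈ range p then ⟨b m / d, (C.A.valuation_le_one_iff _).1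
    (by rw [map_div₀]; exact div_le_one_of_le₀ (hmax m hm) zero_le)⟩ else 0
  have hgval : ∀ m ∈ range p, (g m : Qb) = b m / d := fun m hm => by simp [g, mem_range.1 hm]
  by_cases hlt : C.v (z / d) < 1
  · exfalso
    let P : Polynomial (IsLocalRing.ResidueField C.A) :=
      ∑ m ∈ range p, Polynomial.C (IsLocalRing.residue C.A (g m)) * Polynomial.X ^ m
    have hdeg : P.natDegree < p := by
      refine lt_of_le_of_lt (Polynomial.natDegree_sum_le_of_forall_le _ _ (n := p - 1)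
        fun m hm => (Polynomial.natDegree_C_mul_X_pow_le _ _).trans ?_) (by have := hp.pos; omega)
      have := mem_range.1 hm; omega
    have hroot : ∀ j < p, P.eval (IsLocalRing.residue C.A (τ j)) = 0 := by
      intro j _
      simp only [P, Polynomial.eval_finsetSum, Polynomial.eval_mul, Polynomial.eval_C,
        Polynomial.eval_pow, Polynomial.eval_X, ← map_pow, ← map_mul, ← map_sum]
      rw [residue_eq_zero_iff']
      have e : ((∑ m ∈ range p, g m * τ j ^ m : C.A) : Qb) = ((s ^ j : C.D) : GQ) (z / d) := by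
        push_cast
        rw [map_div₀, hzb, map_sum, sum_div,
          show ((s : GQ) ^ j) d = d from mem_localField_iff.1 (hbL k₀) _ (s ^ j).2]
        refine sum_congr rfl fun m hm => ?_
        rw [hgval m hm, map_mul, map_pow,
          show ((s : GQ) ^ j) (b m) = b m from mem_localField_iff.1 (hbL m) _ (s ^ j).2]
        show b m / d * ((s ^ j : C.D) : GQ) t ^ m = _
        rw [SubgroupClass.coe_pow]
        ring
      rw [e, val_of_mem_localGroup (s ^ j).2]
      exact hlt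
    have hP : P = 0 := by
      classical
      refine Polynomial.eq_zero_of_natDegree_lt_card_of_eval_eq_zero' P
        ((range p).image fun j => IsLocalRing.residue C.A (τ j)) (fun x hx => ?_) ?_
      · obtain ⟨j, hj, rfl⟩ := mem_image.1 hx
        exact hroot j (mem_range.1 hj)
      · rw [card_image_of_injOn fun i hi j hj he => le_antisymm
          (hτinj i (by simpa using hi) j (by simpa using hj) he)
          (hτinj j (by simpa using hj) i (by simpa using hi) he.symm), card_range]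
        exact hdeg
    have := congrArg (Polynomial.coeff · k₀) hP
    simp [P, Polynomial.finsetSum_coeff, mem_range.1 hk₀] at this
    have hg1 : g k₀ = 1 := Subtype.ext (by rw [hgval k₀ hk₀]; simp [d, div_self hd0])
    rw [hg1] at this
    exact (IsLocalRing.maximalIdeal.isMaximal C.A).ne_top ((Ideal.eq_top_iff_one _).2
      ((IsLocalRing.residue_eq_zero_iff _).1 (by simp at this)))
  · obtain ⟨i, hi⟩ := C.unif.exists_zpow d (hbL k₀) hd0
    refine ⟨i, ?_⟩
    rw [← hi]
    refine le_antisymm ?_ ?_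
    · rw [hzb]
      refine C.A.valuation.map_sum_le fun m hm => ?_
      rw [map_mul, map_pow]
      exact (mul_le_of_le_one_right' (pow_le_one₀ zero_le (val_le_one_of_mem htA))).trans (hmax m hm)
    · rw [not_lt, map_div₀, one_le_div₀ (zero_lt_iff.2 ((_root_.map_ne_zero _).2 hd0))] at hlt
      exact hlt

include hu₀ hne in
/-- A uniformiser is not a norm from the unramified extension. -/
theorem symb_base_ne_zero : C.symb u₀ C.ϖ ≠ 0 := by
  have hp := (Fact.out : p.Prime)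
  intro h
  have h' : C.symb C.ϖ u₀ = 0 := by rw [C.symb_swap u₀, h, neg_zero]
  obtain ⟨s, hs⟩ := C.exists_chi_eq_one u₀ hne
  obtain ⟨z, hz0, hz, hprod⟩ :=
    exists_norm_of_cup_eq_zero (χ := kap C.μ (C.fix u₀)) hs C.μ (C.fix C.ϖ) h'
  obtain ⟨i, hi⟩ := C.exists_zpow_of_fixed u₀ hu₀ hne hz0 hz
  have e := congrArg C.v hprod
  rw [C.fix_val C.mem_ϖ, map_prod] at e
  simp only [val_of_mem_localGroup (SetLike.coe_mem _), prod_const, card_range, hi] at e
  rw [← zpow_natCast, ← zpow_mul] at e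
  have h1 : i * (p : ℤ) = 1 := C.unif.zpow_inj (by rw [e, zpow_one])
  have h2 := Int.eq_one_of_mul_eq_one_left (by positivity : (0 : ℤ) ≤ (p : ℤ)) h1
  exact hp.ne_one (by exact_mod_cast h2)

include hu₀ hne in
/-- For `l ≠ p` units pair trivially. -/
theorem symb_units_eq_zero (h : l ≠ p) {x y : Qb} (hx : C.Mem x) (hy : C.Mem y) (hvx : C.v x = 1)
    (hvy : C.v y = 1) : C.symb x y = 0 := by
  classical
  have hp := (Fact.out : p.Prime)
  have := C.fd
  have := finite_resRing C.hl C.hA (K := C.K)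
  have hlev : ∀ w, C.Mem w → C.v w = 1 → ∃ c : ZMod p, C.kq w = c • C.kq u₀ := fun w hw hvw =>
    C.exists_eq_smul_kq u₀ hu₀ hne (by rw [C.critLevel_of_ne h]; exact C.prin_zero hw.1 hvw)
  suffices h00 : C.symb u₀ u₀ = 0 by
    obtain ⟨c, hc⟩ := hlev x hx hvx
    obtain ⟨c', hc'⟩ := hlev y hy hvy
    rw [symb, hc, hc', map_smul, map_smul, LinearMap.smul_apply]
    show c' • c • C.symb u₀ u₀ = 0
    rw [h00, smul_zero, smul_zero]
  rcases hp.eq_two_or_odd' with h2 | hodd
  · -- two non-squares with sum `1`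
    subst h2
    have : Fintype (resRing C.L C.A) := Fintype.ofFinite _
    have hchar := charP_residue C.hl C.hA
    have h2 : (2 : IsLocalRing.ResidueField C.A) ≠ 0 := fun h0 => h (by
      have := (CharP.cast_eq_zero_iff (IsLocalRing.ResidueField C.A) l 2).1 (by exact_mod_cast h0)
      exact (Nat.prime_dvd_prime_iff_eq C.hl Nat.prime_two).1 this)
    let U : Finset (resRing C.L C.A) := univ.filter fun a => a ≠ 0
    let S := U.image fun a => a * a
    obtain ⟨t, htU, htS, ht'⟩ : ∃ t ∈ U, t ∉ S ∧ 1 - t ∉ S := by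
      by_contra hall
      push Not at hall
      have h1U : (1 : resRing C.L C.A) ∈ U := mem_filter.2 ⟨mem_univ _, one_ne_zero⟩
      have h1S : (1 : resRing C.L C.A) ∈ S := mem_image.2 ⟨1, h1U, one_mul 1⟩
      have hsub : S ⊆ U := fun a ha => by
        obtain ⟨b, hb, rfl⟩ := mem_image.1 ha
        exact mem_filter.2 ⟨mem_univ _, mul_ne_zero (mem_filter.1 hb).2 (mem_filter.1 hb).2⟩
      have hfib : 2 * S.card ≤ U.card := by
        rw [card_eq_sum_card_image (fun a => a * a) U]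
        calc 2 * S.card = ∑ _b ∈ S, 2 := by rw [sum_const, smul_eq_mul, mul_comm]
          _ ≤ _ := sum_le_sum fun b hb => by
            obtain ⟨a, ha, rfl⟩ := mem_image.1 hb
            refine one_lt_card.2 ⟨a, mem_filter.2 ⟨ha, rfl⟩, -a, mem_filter.2
              ⟨mem_filter.2 ⟨mem_univ _, neg_ne_zero.2 (mem_filter.1 ha).2⟩, neg_mul_neg a a⟩,
              fun e => (mem_filter.1 ha).2 (Subtype.ext ?_)⟩
            have e' : (a : IsLocalRing.ResidueField C.A) = -(a : IsLocalRing.ResidueField C.A) :=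
              congrArg Subtype.val e
            have : (2 : IsLocalRing.ResidueField C.A) * a = 0 := by linear_combination e'
            exact (mul_eq_zero.1 this).resolve_left h2
      have hmaps : ((U \ S).image fun a => 1 - a) ⊆ S.erase 1 := fun a ha => by
        obtain ⟨b, hb, rfl⟩ := mem_image.1 ha
        obtain ⟨hbU, hbS⟩ := mem_sdiff.1 hb
        exact mem_erase.2 ⟨fun e => (mem_filter.1 hbU).2 (sub_eq_self.1 e), hall b hbU hbS⟩
      have := card_le_card hmaps
      rw [card_image_of_injective _ sub_right_injective, card_sdiff_of_subset hsub,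
        card_erase_of_mem h1S] at this
      have : 0 < S.card := card_pos.2 ⟨1, h1S⟩
      omega
    obtain ⟨t', ht'L, ht'res⟩ := t.2
    have hnsq : ∀ (a : resRing C.L C.A) (a' : C.A), a ∉ S → a ≠ 0 → (a' : Qb) ∈ C.L →
        IsLocalRing.residue C.A a' = a →
        C.Mem (a' : Qb) ∧ C.v (a' : Qb) = 1 ∧ C.kq (a' : Qb) = C.kq u₀ := by
      intro a a' haS ha0 hL hres
      have hv : C.v (a' : Qb) = 1 := by
        refine le_antisymm (val_le_one_of_mem a'.2) (le_of_not_gt fun hlt => ha0 (Subtype.ext ?_))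
        rw [← hres]
        exact residue_eq_zero_iff'.2 hlt
      have hM : C.Mem (a' : Qb) := ⟨hL, fun h0 => by simp [h0] at hv⟩
      obtain ⟨c, hc⟩ := hlev _ hM hv
      refine ⟨hM, hv, ?_⟩
      rcases zmod_two_cases c with rfl | rfl
      · exfalso
        rw [zero_smul] at hc
        obtain ⟨w, hw, hw2⟩ := (C.kq_eq_zero_iff hM).1 hc
        have hwA : w ∈ C.A := (C.A.valuation_le_one_iff _).1 (le_of_eq (by
          have h1 : C.v w ^ 2 = 1 := by rw [← map_pow, hw2, hv]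
          exact (pow_eq_one_iff.1 h1).resolve_right two_ne_zero))
        refine haS (mem_image.2 ⟨⟨_, ⟨w, hwA⟩, hw.1, rfl⟩, mem_filter.2 ⟨mem_univ _, ?_⟩,
          Subtype.ext ?_⟩)
        · intro h0
          have h0' : IsLocalRing.residue C.A ⟨w, hwA⟩ = 0 := congrArg Subtype.val h0
          refine ha0 (Subtype.ext ?_)
          rw [← hres, show a' = (⟨w, hwA⟩ : C.A) ^ 2 from Subtype.ext (by simpa using hw2.symm),
            map_pow, h0', zero_pow two_ne_zero]
          rfl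
        · show IsLocalRing.residue C.A _ * IsLocalRing.residue C.A _ = (a : IsLocalRing.ResidueField C.A)
          rw [← map_mul, ← hres]
          exact congrArg _ (Subtype.ext (by simpa [sq] using hw2))
      · rw [hc, one_smul]
    obtain ⟨hM, -, hk⟩ := hnsq t t' htS (mem_filter.1 htU).2 ht'L ht'res
    obtain ⟨hM', -, hk'⟩ := hnsq (1 - t) (1 - t') ht'
      (fun h0 => htS (by
        rw [← sub_eq_zero.1 h0]
        exact mem_image.2 ⟨1, mem_filter.2 ⟨mem_univ _, one_ne_zero⟩, one_mul 1⟩))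
      (sub_mem (one_mem C.L) ht'L) (by rw [map_sub, map_one, ht'res]; rfl)
    rw [← C.symb_congr_left hk, ← C.symb_congr_right _ hk']
    exact C.symb_steinberg' hM hM' (by push_cast; ring)
  · have h2 : (2 : ZMod p) ≠ 0 := fun h0 => by
      have h0' : ((2 : ℕ) : ZMod p) = 0 := by exact_mod_cast h0
      rw [ZMod.natCast_eq_zero_iff, Nat.prime_dvd_prime_iff_eq hp Nat.prime_two] at h0'
      subst h0'
      simp [Nat.odd_iff] at hodd
    have e := C.symb_swap u₀ u₀
    rw [eq_neg_iff_add_eq_zero, ← two_smul (ZMod p)] at e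
    exact (smul_eq_zero.1 e).resolve_left h2

include hu₀ hne in
/-- All symbols are multiples of `(u₀, ϖ)`. -/
theorem symb_mem_symbLine {a b : Qb} (ha : C.Mem a) (hb : C.Mem b) :
    C.symb a b ∈ C.symbLine u₀ :=
  C.symb_mem_line u₀ hu₀ hne (fun h _ _ hx hy hvx hvy => C.symb_units_eq_zero u₀ hu₀ hne h hx hy hvx hvy)
    ha hb

include hu₀ hne in
lemma symb_base_unit {w : Qb} (hw : C.Mem w) (hvw : C.v w = 1) :
    C.symb u₀ w = 0 ∧ C.symb w u₀ = 0 := by
  suffices h : C.symb u₀ w = 0 by exact ⟨h, by rw [C.symb_swap u₀, h, neg_zero]⟩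
  rcases eq_or_ne l p with h | h
  · obtain ⟨w', hw', hk⟩ := C.exists_prin_one h hw.1 hvw
    rw [← C.symb_congr_right u₀ hk]
    exact C.symb_prin_eq_zero one_pos (C.critLevel_pos h) (by omega) hw' hu₀
  · exact C.symb_units_eq_zero u₀ hu₀ hne h hu₀.mem hw hu₀.2.1 hvw

include hu₀ hne in
/-- A unit of exact level `i` prime to `p` has a partner. -/
theorem exists_partner_of_level {w : Qb} {i : ℕ} (hlt : i < C.critLevel)
    (hd : ¬ p ∣ i) (hw : C.Prin w i) (heq' : C.v (1 - w) = C.v C.ϖ ^ i) :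
    ∃ y, C.Mem y ∧ C.symb w y ≠ 0 := by
  have hbase := C.symb_base_ne_zero u₀ hu₀ hne
  obtain ⟨hαL, hvα⟩ := C.prin_alpha hw
  -- level prime to `p`: pair with `1 - (1 - u₀) / (1 - w)`
  have hα0 : 1 - w ≠ 0 := fun h0 => by
    rw [h0, map_zero] at heq'
    exact (pow_pos C.unif.pos i).ne heq'
  set β := (1 - u₀) / (1 - w) with hβ
  have hβL : β ∈ C.L := div_mem (sub_mem (one_mem _) hu₀.1) hαL
  have hvβ : C.v β ≤ C.v C.ϖ ^ (C.critLevel - i) := by
    rw [hβ, map_div₀, heq', div_le_iff₀ (pow_pos C.unif.pos i), ← pow_add,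
      Nat.sub_add_cancel hlt.le, Valuation.map_sub_swap]
    exact hu₀.2.2
  have hy : C.Prin (1 - β) (C.critLevel - i) := C.prin_one_sub (by omega) hβL hvβ
  have hαβ : 1 - (1 - w) * β = u₀ := by rw [hβ, mul_div_cancel₀ _ hα0]; ring
  have e := C.symb_identity (α := 1 - w) (β := β) ⟨hαL, hα0⟩
    (by rw [sub_sub_cancel]; exact hw.mem) hy.mem (by rw [hαβ]; exact hu₀.mem)
  rw [sub_sub_cancel, hαβ, (C.symb_base_unit u₀ hu₀ hne hy.mem hy.2.1).2,
    (C.symb_base_unit u₀ hu₀ hne hw.mem hw.2.1).1,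
    (C.symb_base_unit u₀ hu₀ hne hu₀.mem hu₀.2.1).1, add_zero, add_zero, sub_zero] at e
  obtain ⟨m, u, huM, hvu, hm⟩ := C.exists_unit_part (⟨hαL, hα0⟩ : C.Mem (1 - w))
  have hmi : m = (i : ℤ) := C.unif.zpow_inj (by
    have := congrArg C.v hm
    rw [map_mul, map_zpow₀, hvu, mul_one, heq', ← zpow_natCast] at this
    exact this.symm)
  refine ⟨1 - β, hy.mem, fun h0 => ?_⟩
  rw [C.symb_swap w, h0, neg_zero, C.symb_congr_left (congrArg C.kq hm) u₀,
    C.symb_mul_left (C.mem_zpow m) huM, (C.symb_base_unit u₀ hu₀ hne huM hvu).2, add_zero,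
    symb, C.kq_zpow, map_smul, LinearMap.smul_apply, eq_comm, hmi, Int.cast_natCast,
    smul_eq_zero] at e
  refine e.elim (fun hi0 => hd ((ZMod.natCast_eq_zero_iff _ _).1 hi0)) fun h1 => hbase ?_
  rw [C.symb_swap C.ϖ u₀, symb, h1, neg_zero]

include hu₀ hne in
lemma kq_eq_zero_or_partner_unit {x : Qb} (hx : C.Mem x) (hvx : C.v x = 1) :
    C.kq x = 0 ∨ ∃ y, C.Mem y ∧ C.symb x y ≠ 0 := by
  have hbase := C.symb_base_ne_zero u₀ hu₀ hne
  -- classes on the unramified line pair with the uniformiser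
  have hline : ∀ w, (∃ c : ZMod p, C.kq w = c • C.kq u₀) →
      C.kq w = 0 ∨ ∃ y, C.Mem y ∧ C.symb w y ≠ 0 := by
    rintro w ⟨c, hc⟩
    rcases eq_or_ne c 0 with rfl | hc0
    · exact Or.inl (by rw [hc, zero_smul])
    · refine Or.inr ⟨C.ϖ, C.mem_ϖ, ?_⟩
      rw [symb, hc, map_smul, LinearMap.smul_apply]
      exact smul_ne_zero hc0 hbase
  rcases eq_or_ne l p with h | h
  swap
  · exact hline x (C.exists_eq_smul_kq u₀ hu₀ hne
      (by rw [C.critLevel_of_ne h]; exact C.prin_zero hx.1 hvx))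
  -- descend to a best level
  suffices hmain : ∀ k i w, 0 < i → C.critLevel + 1 ≤ i + k → C.Prin w i →
      C.kq w = 0 ∨ ∃ y, C.Mem y ∧ C.symb w y ≠ 0 by
    obtain ⟨w, hw, hk⟩ := C.exists_prin_one h hx.1 hvx
    rcases hmain C.critLevel 1 w one_pos (by omega) hw with h0 | ⟨y, hy, hne'⟩
    · exact Or.inl (hk ▸ h0)
    · exact Or.inr ⟨y, hy, by rwa [← C.symb_congr_left hk]⟩
  intro k
  induction k with
  | zero => intro i w _ hle hw; exact Or.inl (C.kq_eq_zero_of_prin (by omega) hw)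
  | succ k ih =>
    intro i w hi hle hw
    rcases lt_trichotomy i C.critLevel with hlt | heq | hgt
    swap
    · exact hline w (C.exists_eq_smul_kq u₀ hu₀ hne (heq ▸ hw))
    swap
    · exact Or.inl (C.kq_eq_zero_of_prin hgt hw)
    obtain ⟨hαL, hvα⟩ := C.prin_alpha hw
    rcases hvα.lt_or_eq with hlt' | heq'
    · exact ih (i + 1) w (by omega) (by omega)
        (C.prin_of_lt hw.1 (by rw [Valuation.map_sub_swap]; exact hlt'))
    by_cases hd : p ∣ i
    · obtain ⟨w', hw', hk⟩ := C.exists_improve h hlt hi hd hw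
      rcases ih (i + 1) w' (by omega) (by omega) hw' with h0 | ⟨y, hy, hne'⟩
      · exact Or.inl (hk ▸ h0)
      · exact Or.inr ⟨y, hy, by rwa [← C.symb_congr_left hk]⟩
    exact Or.inr (C.exists_partner_of_level u₀ hu₀ hne hlt hd hw heq')

include hu₀ hne in
/-- The symbol is non-degenerate. -/
theorem exists_symb_ne_zero {a : Qb} (ha : C.Mem a) (hk : C.kq a ≠ 0) :
    ∃ y, C.Mem y ∧ C.symb a y ≠ 0 := by
  obtain ⟨i, u, hu, hvu, rfl⟩ := C.exists_unit_part ha
  rcases eq_or_ne (i : ZMod p) 0 with hi | hi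
  · have hkq : C.kq (C.ϖ ^ i * u) = C.kq u := by
      rw [C.kq_mul (C.mem_zpow i) hu, C.kq_zpow, hi, zero_smul, zero_add]
    rcases C.kq_eq_zero_or_partner_unit u₀ hu₀ hne hu hvu with h0 | ⟨y, hy, hne'⟩
    · exact absurd (hkq.trans h0) hk
    · exact ⟨y, hy, by rwa [C.symb_congr_left hkq]⟩
  · refine ⟨u₀, hu₀.mem, fun h0 => ?_⟩
    rw [C.symb_mul_left (C.mem_zpow i) hu, (C.symb_base_unit u₀ hu₀ hne hu hvu).2, add_zero, symb,
      C.kq_zpow, map_smul, LinearMap.smul_apply, smul_eq_zero] at h0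
    refine C.symb_base_ne_zero u₀ hu₀ hne ?_
    rw [C.symb_swap C.ϖ u₀, symb, h0.resolve_left hi, neg_zero]

end LocalCtx

end

end FermatAgent.Duality.Local
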