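import Fermat.Agent.Duality.Local.UnrLine

/-!
# The symbol `κ a ∪ κ b`

With `x = 1 - α`, `y = 1 - β`, `z = 1 - α β` the Steinberg relation for `x / z + α y / z = 1` gives
`(y, x) = (α, z) + (y, z) + (z, x) - (z, z)`; a descending induction on levels then shows that all
symbols are multiples of `(u₀, ϖ)`, for an unramified unit class `u₀` and a uniformiser `ϖ`.
-/

set_option autoImplicit false

namespace FermatAgent.Duality.Local

open FermatAgent.Local

noncomputable section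

local notation "Qb" => AlgebraicClosure ℚ

namespace LocalCtx

variable {p l : ℕ} [Fact p.Prime] (C : LocalCtx p l)

/-- The symbol. -/
def symb (a b : Qb) : C.H2 := cupTriv (ZMod p) (subLevels C.D) (C.kq a) (C.kq b)

lemma symb_mul_left {a a' : Qb} (ha : C.Mem a) (ha' : C.Mem a') (b : Qb) :
    C.symb (a * a') b = C.symb a b + C.symb a' b := by
  rw [symb, symb, symb, C.kq_mul ha ha', map_add, LinearMap.add_apply]

lemma symb_mul_right (a : Qb) {b b' : Qb} (hb : C.Mem b) (hb' : C.Mem b') :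
    C.symb a (b * b') = C.symb a b + C.symb a b' := by
  rw [symb, symb, symb, C.kq_mul hb hb', map_add]

lemma symb_div_left {a a' : Qb} (ha : C.Mem a) (ha' : C.Mem a') (b : Qb) :
    C.symb (a / a') b = C.symb a b - C.symb a' b := by
  rw [symb, symb, symb, C.kq_div ha ha', map_sub, LinearMap.sub_apply]

lemma symb_div_right (a : Qb) {b b' : Qb} (hb : C.Mem b) (hb' : C.Mem b') :
    C.symb a (b / b') = C.symb a b - C.symb a b' := by
  rw [symb, symb, symb, C.kq_div hb hb', map_sub]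

lemma symb_congr_left {a a' : Qb} (h : C.kq a = C.kq a') (b : Qb) : C.symb a b = C.symb a' b := by
  rw [symb, symb, h]

lemma symb_congr_right (a : Qb) {b b' : Qb} (h : C.kq b = C.kq b') : C.symb a b = C.symb a b' := by
  rw [symb, symb, h]

lemma symb_zero_left {a : Qb} (h : C.kq a = 0) (b : Qb) : C.symb a b = 0 := by
  rw [symb, h, map_zero, LinearMap.zero_apply]

lemma symb_zero_right (a : Qb) {b : Qb} (h : C.kq b = 0) : C.symb a b = 0 := by
  rw [symb, h, map_zero]

lemma symb_swap (a b : Qb) : C.symb b a = -C.symb a b :=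
  eq_neg_of_add_eq_zero_left (cupTriv_anticomm _ _)

lemma symb_one_right (a : Qb) : C.symb a 1 = 0 := C.symb_zero_right a C.kq_one

lemma symb_steinberg {a b : Qb} (ha : C.Mem a) (hb : C.Mem b) (h : a + b = 1) :
    C.symb b a = 0 :=
  cup_steinberg C.μ (C.fix a) (C.fix b) (by rw [C.fix_val ha, C.fix_val hb, h])

lemma symb_steinberg' {a b : Qb} (ha : C.Mem a) (hb : C.Mem b) (h : a + b = 1) :
    C.symb a b = 0 :=
  C.symb_steinberg hb ha (by rw [add_comm, h])

lemma mem_neg {a : Qb} (ha : C.Mem a) : C.Mem (-a) := ⟨neg_mem ha.1, neg_ne_zero.2 ha.2⟩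

lemma symb_self {a : Qb} (ha : C.Mem a) : C.symb a a = C.symb a (-1) := by
  have h1M : C.Mem (-1 : Qb) := C.mem_neg C.mem_one
  -- `(a, -a) = 0`
  have h0 : C.symb a (-a) = 0 := by
    rcases eq_or_ne a 1 with rfl | hne
    · exact C.symb_zero_left C.kq_one _
    have hx : C.Mem (1 - a) := ⟨sub_mem (one_mem _) ha.1, sub_ne_zero.2 (Ne.symm hne)⟩
    have hai : C.Mem a⁻¹ := ha.inv
    have hy : C.Mem (1 - a⁻¹) :=
      ⟨sub_mem (one_mem _) hai.1, sub_ne_zero.2 fun h => hne (inv_eq_one.1 h.symm)⟩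
    have e : -a = (1 - a) / (1 - a⁻¹) := by
      rw [eq_div_iff hy.2, mul_sub, mul_one, neg_mul, mul_inv_cancel₀ ha.2]
      ring
    have e1 : C.symb a (1 - a) = 0 := C.symb_steinberg' ha hx (by ring)
    have e2 : C.symb a⁻¹ (1 - a⁻¹) = 0 := C.symb_steinberg' hai hy (by ring)
    rw [inv_eq_one_div, C.symb_div_left C.mem_one ha, C.symb_zero_left C.kq_one, zero_sub,
      neg_eq_zero, ← inv_eq_one_div] at e2
    rw [e, C.symb_div_right a hx hy, e1, e2, sub_zero]
  rw [← sub_eq_zero, ← C.symb_div_right a ha h1M, div_neg, div_one, h0]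

/-- The key identity. -/
theorem symb_identity {α β : Qb} (hα : C.Mem α) (hx : C.Mem (1 - α)) (hy : C.Mem (1 - β))
    (hz : C.Mem (1 - α * β)) :
    C.symb (1 - β) (1 - α) = C.symb α (1 - α * β) + C.symb (1 - β) (1 - α * β) +
      C.symb (1 - α * β) (1 - α) - C.symb (1 - α * β) (1 - α * β) := by
  have hne := hz.2
  have h := C.symb_steinberg (hx.div hz) ((hα.mul hy).div hz) (by field_simp; ring)
  have h1 : C.symb α (1 - α) = 0 := C.symb_steinberg' hα hx (by ring)
  rw [C.symb_div_left (hα.mul hy) hz, C.symb_mul_left hα hy, C.symb_div_right α hx hz,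
    C.symb_div_right (1 - β) hx hz, C.symb_div_right (1 - α * β) hx hz, h1] at h
  linear_combination (norm := abel) h

lemma prin_one_sub {α : Qb} {i : ℕ} (hi : 0 < i) (hα : α ∈ C.L) (h : C.v α ≤ C.v C.ϖ ^ i) :
    C.Prin (1 - α) i :=
  C.prin_of_le hi (sub_mem (one_mem _) hα) (by rw [sub_sub_cancel_left, Valuation.map_neg]; exact h)

/-- `1 - α = x` for a principal unit. -/
lemma prin_alpha {x : Qb} {i : ℕ} (hx : C.Prin x i) :
    (1 - x) ∈ C.L ∧ C.v (1 - x) ≤ C.v C.ϖ ^ i :=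
  ⟨sub_mem (one_mem _) hx.1, by rw [Valuation.map_sub_swap]; exact hx.2.2⟩

lemma exists_unit_part {a : Qb} (ha : C.Mem a) : ∃ (i : ℤ) (u : Qb), C.Mem u ∧ C.v u = 1 ∧
    a = C.ϖ ^ i * u := by
  obtain ⟨i, hi⟩ := C.unif.exists_zpow a ha.1 ha.2
  have hϖ : C.ϖ ^ i ≠ 0 := zpow_ne_zero _ C.unif.ne_zero
  refine ⟨i, a / C.ϖ ^ i, ⟨div_mem ha.1 (zpow_mem C.mem_ϖ.1 i), div_ne_zero ha.2 hϖ⟩, ?_, ?_⟩
  · rw [map_div₀, map_zpow₀, hi, div_self]
    exact zpow_ne_zero _ C.unif.pos.ne'
  · rw [mul_div_cancel₀ _ hϖ]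

lemma mem_zpow (i : ℤ) : C.Mem (C.ϖ ^ i) :=
  ⟨zpow_mem C.mem_ϖ.1 i, zpow_ne_zero _ C.unif.ne_zero⟩

lemma kq_zpow (i : ℤ) : C.kq (C.ϖ ^ i) = (i : ZMod p) • C.kq C.ϖ := by
  rcases Int.eq_nat_or_neg i with ⟨n, rfl | rfl⟩
  · rw [zpow_natCast, C.kq_pow C.mem_ϖ, Int.cast_natCast]
  · rw [zpow_neg, zpow_natCast, C.kq_inv (C.mem_ϖ.pow n), C.kq_pow C.mem_ϖ, Int.cast_neg,
      Int.cast_natCast, neg_smul]

/-- Symbols of principal units whose levels add up to more than the critical level vanish. -/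
theorem symb_prin_eq_zero {x y : Qb} {i j : ℕ} (hi : 0 < i) (hj : 0 < j)
    (hij : C.critLevel < i + j) (hx : C.Prin x i) (hy : C.Prin y j) : C.symb y x = 0 := by
  obtain ⟨hα, hvα⟩ := C.prin_alpha hx
  obtain ⟨hβ, hvβ⟩ := C.prin_alpha hy
  rcases eq_or_ne x 1 with rfl | hx1
  · exact C.symb_one_right y
  have hz : C.Prin (1 - (1 - x) * (1 - y)) (i + j) :=
    C.prin_one_sub (by omega) (mul_mem hα hβ) (by
      rw [map_mul, pow_add]; exact mul_le_mul' hvα hvβ)
  have hz0 := C.kq_eq_zero_of_prin hij hz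
  have e := C.symb_identity (α := 1 - x) (β := 1 - y) ⟨hα, sub_ne_zero.2 (Ne.symm hx1)⟩
    (by rw [sub_sub_cancel]; exact hx.mem) (by rw [sub_sub_cancel]; exact hy.mem) hz.mem
  rw [sub_sub_cancel, sub_sub_cancel] at e
  rw [e, C.symb_zero_right _ hz0, C.symb_zero_right _ hz0, C.symb_zero_left hz0,
    C.symb_zero_left hz0]
  abel

/-- The line spanned by the symbol `(u₀, ϖ)`. -/
def symbLine (u : Qb) : Submodule (ZMod p) C.H2 := Submodule.span (ZMod p) {C.symb u C.ϖ}

variable (u₀ : Qb) (hu₀ : C.Prin u₀ C.critLevel) (hne : C.kq u₀ ≠ 0)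
include hu₀ hne

lemma exists_eq_smul_kq {x : Qb} (hx : C.Prin x C.critLevel) :
    ∃ c : ZMod p, C.kq x = c • C.kq u₀ :=
  C.exists_eq_smul_of_unr (C.unr_of_prin_crit hx) (C.unr_of_prin_crit hu₀) hne

/-- The induction: `(x, ϖ)` for level `≥ n` and `(y, x)` for levels adding up to `≥ n`. -/
theorem symb_mem_line_aux (h : l = p) (k : ℕ) :
    ∀ n, 0 < n → C.critLevel + 1 ≤ n + k →
      (∀ x, C.Prin x n → C.symb x C.ϖ ∈ C.symbLine u₀) ∧
      (∀ x y i j, 0 < i → 0 < j → n ≤ i + j → C.Prin x i → C.Prin y j →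
        C.symb y x ∈ C.symbLine u₀) := by
  induction k with
  | zero =>
    intro n hn hle
    refine ⟨fun x hx => ?_, fun x y i j hi hj hij hx hy => ?_⟩
    · rw [C.symb_zero_left (C.kq_eq_zero_of_prin (by omega) hx)]
      exact zero_mem _
    · rw [C.symb_prin_eq_zero hi hj (by omega) hx hy]
      exact zero_mem _
  | succ k ih =>
    intro n hn hle
    rcases lt_or_ge C.critLevel n with hbig | hsmall
    · exact ih n hn (by omega)
    obtain ⟨hB, hA⟩ := ih (n + 1) (by omega) (by omega)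
    -- a unit against a principal unit of level `n`
    have hunit : ∀ x u, C.Prin x n → C.Mem u → C.v u = 1 →
        C.symb x u ∈ C.symbLine u₀ ∧ C.symb u x ∈ C.symbLine u₀ := by
      intro x u hx hu hvu
      obtain ⟨w, hw, hwk⟩ := C.exists_prin_one h hu.1 hvu
      rw [← C.symb_congr_right x hwk, ← C.symb_congr_left hwk x]
      exact ⟨hA w x 1 n one_pos hn (by omega) hw hx, hA x w n 1 hn one_pos (by omega) hx hw⟩
    have hB' : ∀ x, C.Prin x n → C.symb x C.ϖ ∈ C.symbLine u₀ := by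
      intro x hx
      rcases lt_or_eq_of_le hsmall with hlt | heq
      swap
      · obtain ⟨c, hc⟩ := C.exists_eq_smul_kq u₀ hu₀ hne (heq ▸ hx)
        rw [symb, hc, map_smul, LinearMap.smul_apply]
        exact Submodule.smul_mem _ _ (Submodule.mem_span_singleton_self _)
      by_cases hd : p ∣ n
      · obtain ⟨x', hx', hk⟩ := C.exists_improve h hlt hn hd hx
        rw [← C.symb_congr_left hk C.ϖ]
        exact hB x' hx'
      obtain ⟨hαL, hvα⟩ := C.prin_alpha hx
      rcases hvα.lt_or_eq with hlt' | heq'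
      · exact hB x (C.prin_of_lt hx.1 (by rw [Valuation.map_sub_swap]; exact hlt'))
      have hα0 : 1 - x ≠ 0 := fun h0 => by
        rw [h0, map_zero] at heq'
        exact (pow_pos C.unif.pos n).ne heq'
      set u := (1 - x) / C.ϖ ^ n with hu
      have huM : C.Mem u := Mem.div ⟨hαL, hα0⟩ (C.mem_ϖ.pow n)
      have hvu : C.v u = 1 := by
        rw [hu, map_div₀, map_pow, heq', div_self (pow_pos C.unif.pos n).ne']
      have e : C.symb x (C.ϖ ^ n * u) = 0 := by
        refine C.symb_steinberg' hx.mem ((C.mem_ϖ.pow n).mul huM) ?_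
        rw [hu, mul_div_cancel₀ _ (pow_ne_zero _ C.unif.ne_zero)]
        ring
      rw [C.symb_mul_right x (C.mem_ϖ.pow n) huM, symb, C.kq_pow C.mem_ϖ, map_smul] at e
      have hn0 : (n : ZMod p) ≠ 0 := fun h0 => hd ((ZMod.natCast_eq_zero_iff _ _).1 h0)
      rw [← Submodule.smul_mem_iff _ hn0, symb, eq_neg_of_add_eq_zero_left e]
      exact neg_mem (hunit x u hx huM hvu).1
    refine ⟨hB', fun x y i j hi hj hij hx hy => ?_⟩
    obtain ⟨hαL, hvα⟩ := C.prin_alpha hx
    obtain ⟨hβL, hvβ⟩ := C.prin_alpha hy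
    rcases eq_or_ne x 1 with rfl | hx1
    · rw [C.symb_one_right y]; exact zero_mem _
    set z := 1 - (1 - x) * (1 - y) with hzdef
    have hz : C.Prin z (i + j) :=
      C.prin_one_sub (by omega) (mul_mem hαL hβL) (by
        rw [map_mul, pow_add]; exact mul_le_mul' hvα hvβ)
    have hαM : C.Mem (1 - x) := ⟨hαL, sub_ne_zero.2 (Ne.symm hx1)⟩
    have e := C.symb_identity (α := 1 - x) (β := 1 - y) hαM
      (by rw [sub_sub_cancel]; exact hx.mem) (by rw [sub_sub_cancel]; exact hy.mem) hz.mem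
    rw [sub_sub_cancel, sub_sub_cancel] at e
    rw [e]
    refine sub_mem (add_mem (add_mem ?_ ?_) ?_) ?_
    · obtain ⟨m, u, huM, hvu, hm⟩ := C.exists_unit_part hαM
      rw [C.symb_congr_left (congrArg C.kq hm) z, C.symb_mul_left (C.mem_zpow m) huM, symb, C.kq_zpow,
        map_smul, LinearMap.smul_apply]
      refine add_mem (Submodule.smul_mem _ _ ?_) (hunit z u (hz.mono hij) huM hvu).2
      show C.symb C.ϖ z ∈ _
      rw [C.symb_swap z C.ϖ]
      exact neg_mem (hB' z (hz.mono hij))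
    · exact hA z y (i + j) j (by omega) hj (by omega) hz hy
    · exact hA x z i (i + j) hi (by omega) (by omega) hx hz
    · exact hA z z (i + j) (i + j) (by omega) (by omega) (by omega) hz hz

/-- All symbols are multiples of `(u₀, ϖ)` when units pair trivially for `l ≠ p`. -/
theorem symb_mem_line
    (hunits : l ≠ p → ∀ x y, C.Mem x → C.Mem y → C.v x = 1 → C.v y = 1 → C.symb x y = 0)
    {a b : Qb} (ha : C.Mem a) (hb : C.Mem b) : C.symb a b ∈ C.symbLine u₀ := by
  have hUV : ∀ x, C.Mem x → C.v x = 1 → C.symb x C.ϖ ∈ C.symbLine u₀ := by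
    intro x hx hvx
    rcases eq_or_ne l p with h | h
    · obtain ⟨w, hw, hk⟩ := C.exists_prin_one h hx.1 hvx
      rw [← C.symb_congr_left hk]
      exact (C.symb_mem_line_aux u₀ hu₀ hne h C.critLevel 1 one_pos (by omega)).1 w hw
    · obtain ⟨c, hc⟩ := C.exists_eq_smul_kq u₀ hu₀ hne
        (x := x) (by rw [C.critLevel_of_ne h]; exact C.prin_zero hx.1 hvx)
      rw [symb, hc, map_smul, LinearMap.smul_apply]
      exact Submodule.smul_mem _ _ (Submodule.mem_span_singleton_self _)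
  have hUU : ∀ x y, C.Mem x → C.Mem y → C.v x = 1 → C.v y = 1 →
      C.symb x y ∈ C.symbLine u₀ := by
    intro x y hx hy hvx hvy
    rcases eq_or_ne l p with h | h
    · obtain ⟨w, hw, hk⟩ := C.exists_prin_one h hx.1 hvx
      obtain ⟨w', hw', hk'⟩ := C.exists_prin_one h hy.1 hvy
      rw [← C.symb_congr_left hk, ← C.symb_congr_right w hk']
      exact (C.symb_mem_line_aux u₀ hu₀ hne h C.critLevel 1 one_pos (by omega)).2 w' w 1 1 one_pos
        one_pos (by omega) hw' hw
    · rw [hunits h x y hx hy hvx hvy]; exact zero_mem _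
  have hVV : C.symb C.ϖ C.ϖ ∈ C.symbLine u₀ := by
    rw [C.symb_self C.mem_ϖ, C.symb_swap (-1)]
    exact neg_mem (hUV _ (C.mem_neg C.mem_one) (by rw [Valuation.map_neg, map_one]))
  obtain ⟨i, u, hu, hvu, rfl⟩ := C.exists_unit_part ha
  obtain ⟨j, w, hw, hvw, rfl⟩ := C.exists_unit_part hb
  rw [C.symb_mul_left (C.mem_zpow i) hu, C.symb_mul_right _ (C.mem_zpow j) hw,
    C.symb_mul_right u (C.mem_zpow j) hw]
  simp only [symb, C.kq_zpow, map_smul, LinearMap.smul_apply]
  refine add_mem (add_mem (Submodule.smul_mem _ _ (Submodule.smul_mem _ _ hVV))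
    (Submodule.smul_mem _ _ ?_)) (add_mem (Submodule.smul_mem _ _ (hUV u hu hvu))
      (hUU u w hu hw hvu hvw))
  show C.symb C.ϖ w ∈ _
  rw [C.symb_swap w]
  exact neg_mem (hUV w hw hvw)

end LocalCtx

end

end FermatAgent.Duality.Local
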