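import Fermat.Agent.Duality.Local.Levels
import Fermat.Agent.TW.Decomposition

/-!
# Unramified classes form a line

A character of the local group trivial on inertia is determined by one value: modulo inertia and a
finite level the local group is inside the cyclic group generated by a Frobenius element.
-/

set_option autoImplicit false

open scoped Pointwise

namespace FermatAgent.Duality.Local

noncomputable section

local notation "Qb" => AlgebraicClosure ℚ
local notation "GQ" => AlgebraicClosure ℚ ≃ₐ[ℚ] AlgebraicClosure ℚ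

attribute [local instance] FermatAgent.RT.isGalois_algClosureRat

section Frob

variable {A : ValuationSubring Qb} (N : IntermediateField ℚ Qb) (F : GQ)

/-- `σ` agrees with `F ^ m` times inertia on `N`. -/
def FrobPow (A : ValuationSubring Qb) (σ : GQ) (m : ℤ) : Prop :=
  ∃ i ∈ A.inertiaSubgroupIn ℚ, ∀ x ∈ N, σ x = (F ^ m * i : GQ) x

variable {N F}

lemma conj_mem_inertia_self {g i : GQ} (hg : g ∈ A.decompositionSubgroup ℚ)
    (hi : i ∈ A.inertiaSubgroupIn ℚ) : g * i * g⁻¹ ∈ A.inertiaSubgroupIn ℚ := by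
  have h := TW.conj_mem_inertia (g := g) hi
  rwa [show g • A = A from MulAction.mem_stabilizer_iff.1 hg] at h

lemma frobPow_mul [Normal ℚ N] (hF : F ∈ A.decompositionSubgroup ℚ) {σ τ : GQ} {m k : ℤ}
    (hσ : FrobPow N F A σ m) (hτ : FrobPow N F A τ k) : FrobPow N F A (σ * τ) (m + k) := by
  obtain ⟨i, hi, h⟩ := hσ
  obtain ⟨j, hj, h'⟩ := hτ
  refine ⟨((F ^ k)⁻¹ * i * F ^ k) * j,
    mul_mem ?_ hj, fun x hx => ?_⟩
  · simpa using conj_mem_inertia_self (inv_mem (zpow_mem hF k)) hi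
  · have hτx : τ x ∈ N := IntermediateField.normal_iff_forall_map_le'.1 ‹_› τ ⟨x, hx, rfl⟩
    calc (σ * τ) x = (F ^ m * i : GQ) (τ x) := h _ hτx
      _ = (F ^ m * i : GQ) ((F ^ k * j : GQ) x) := by rw [h' x hx]
      _ = (F ^ (m + k) * (((F ^ k)⁻¹ * i * F ^ k) * j) : GQ) x := by
        rw [← AlgEquiv.mul_apply]
        congr 1
        rw [zpow_add]
        group

lemma frobPow_inv [Normal ℚ N] (hF : F ∈ A.decompositionSubgroup ℚ) {σ : GQ} {m : ℤ}
    (hσ : FrobPow N F A σ m) : FrobPow N F A σ⁻¹ (-m) := by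
  obtain ⟨i, hi, h⟩ := hσ
  refine ⟨F ^ m * i⁻¹ * (F ^ m)⁻¹, conj_mem_inertia_self (zpow_mem hF m) (inv_mem hi),
    fun x hx => ?_⟩
  set g : GQ := (F ^ m * i)⁻¹
  have hgx : g x ∈ N := IntermediateField.normal_iff_forall_map_le'.1 ‹_› g ⟨x, hx, rfl⟩
  have e : σ (g x) = x := by
    rw [h _ hgx]
    exact (F ^ m * i : GQ).apply_symm_apply x
  have e' : σ⁻¹ x = g x := by
    conv_lhs => rw [← e]
    exact σ.symm_apply_apply _
  rw [e']
  congr 1
  simp only [g, zpow_neg, mul_inv_rev]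
  group

end Frob

namespace LocalCtx

variable {p l : ℕ} [Fact p.Prime] (C : LocalCtx p l)

/-- Two unramified classes are proportional. -/
theorem exists_eq_smul_of_unr {x y : C.H1} (hx : C.Unr x) (hy : C.Unr y) (hy0 : y ≠ 0) :
    ∃ c : ZMod p, x = c • y := by
  obtain ⟨a, -, rfl⟩ := C.exists_kq_eq x
  obtain ⟨b, -, rfl⟩ := C.exists_kq_eq y
  rw [unr_kq_iff] at hx hy
  set f := kap C.μ (C.fix a)
  set g := kap C.μ (C.fix b)
  obtain ⟨F₁, hF₁, hf⟩ := isLev₁_iff_exists_field.1 f.2.1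
  obtain ⟨F₂, hF₂, hg⟩ := isLev₁_iff_exists_field.1 g.2.1
  have := C.fd
  have : FiniteDimensional ℚ ↥(F₁ ⊔ F₂) := IntermediateField.finiteDimensional_sup F₁ F₂
  have : FiniteDimensional ℚ ↥(F₁ ⊔ F₂ ⊔ C.K) := IntermediateField.finiteDimensional_sup _ _
  let N := IntermediateField.normalClosure ℚ ↥(F₁ ⊔ F₂ ⊔ C.K) Qb
  have : FiniteDimensional ℚ N := normalClosure.is_finiteDimensional ℚ _ Qb
  have : IsGalois ℚ N := IsGalois.normalClosure ℚ _ Qb
  have hle : F₁ ⊔ F₂ ⊔ C.K ≤ N := IntermediateField.le_normalClosure _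
  obtain ⟨F, hF⟩ := RT.exists_isFrobeniusAt C.hl C.hA
  have hFD := (TW.isFrobeniusAt_iff.1 hF).1
  let S : AddSubgroup ℤ :=
    { carrier := {m | ∃ σ : C.D, FrobPow N F C.A σ m}
      zero_mem' := ⟨1, 1, one_mem _, fun x _ => by simp⟩
      add_mem' := fun {m k} ⟨σ, hσ⟩ ⟨τ, hτ⟩ => ⟨σ * τ, frobPow_mul hFD hσ hτ⟩
      neg_mem' := fun {m} ⟨σ, hσ⟩ => ⟨σ⁻¹, frobPow_inv hFD hσ⟩ }
  obtain ⟨m₀, hS⟩ := Int.subgroup_cyclic S
  obtain ⟨σ₀, hσ₀⟩ : m₀ ∈ S := hS ▸ AddSubgroup.subset_closure rfl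
  -- every value is a multiple of the value at `σ₀`
  have key : ∀ h : Z1 (subLevels C.D) (triv (ZMod p) C.D),
      (∀ σ : C.D, (σ : GQ) ∈ C.A.inertiaSubgroupIn ℚ → h.1 σ = 0) →
      (∀ (u s : C.D), (s : GQ) ∈ N.fixingSubgroup → h.1 (u * s) = h.1 u) →
      ∀ σ : C.D, ∃ q : ℤ, h.1 σ = (q : ZMod p) * h.1 σ₀ ∧
        ∀ h' : Z1 (subLevels C.D) (triv (ZMod p) C.D),
          (∀ σ : C.D, (σ : GQ) ∈ C.A.inertiaSubgroupIn ℚ → h'.1 σ = 0) →
          (∀ (u s : C.D), (s : GQ) ∈ N.fixingSubgroup → h'.1 (u * s) = h'.1 u) →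
          h'.1 σ = (q : ZMod p) * h'.1 σ₀ := by
    intro h hI hN σ
    obtain ⟨m, i, hi, hσ⟩ := TW.exists_frobenius_pow_mul C.hl C.hA N hF σ.2.2
    have hmS : (m : ℤ) ∈ S := ⟨σ, i, hi, fun x hx => by rw [zpow_natCast]; exact hσ x hx⟩
    rw [hS, AddSubgroup.mem_closure_singleton] at hmS
    obtain ⟨q, hq⟩ := hmS
    have hpow : FrobPow N F C.A ((σ₀ ^ (-q) : C.D) : GQ) (-(m : ℤ)) := by
      have hn : ∀ n : ℕ, FrobPow N F C.A ((σ₀ ^ n : C.D) : GQ) (n * m₀) := fun n => by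
        induction n with
        | zero => exact ⟨1, one_mem _, fun x _ => by simp⟩
        | succ n ih =>
          rw [pow_succ, Subgroup.coe_mul, Nat.cast_succ, add_mul, one_mul]
          exact frobPow_mul hFD ih hσ₀
      rw [← hq, smul_eq_mul, ← neg_mul]
      rcases Int.eq_nat_or_neg (-q) with ⟨n, hn' | hn'⟩
      · rw [hn', zpow_natCast]; exact hn n
      · rw [hn', zpow_neg, zpow_natCast, Subgroup.coe_inv, neg_mul]
        exact frobPow_inv hFD (hn n)
    obtain ⟨j, hj, hτ⟩ := frobPow_mul hFD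
      (⟨i, hi, fun x hx => by rw [zpow_natCast]; exact hσ x hx⟩ : FrobPow N F C.A σ m) hpow
    set τ := σ * σ₀ ^ (-q)
    have hs : ((τ : GQ))⁻¹ * j ∈ N.fixingSubgroup := fun x => by
      have e := hτ x x.2
      rw [add_neg_cancel, zpow_zero, one_mul] at e
      show (τ : GQ)⁻¹ (j (x : Qb)) = x
      rw [← e]
      exact (τ : GQ).symm_apply_apply _
    have hjD : j ∈ C.D := by
      refine ⟨?_, Local.mem_decomposition_of_inertia hj⟩
      have hK : C.K ≤ N := le_trans le_sup_right hle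
      simpa using mul_mem τ.2.1 (IntermediateField.fixingSubgroup_antitone hK hs)
    have val : ∀ h' : Z1 (subLevels C.D) (triv (ZMod p) C.D),
        (∀ σ : C.D, (σ : GQ) ∈ C.A.inertiaSubgroupIn ℚ → h'.1 σ = 0) →
        (∀ (u s : C.D), (s : GQ) ∈ N.fixingSubgroup → h'.1 (u * s) = h'.1 u) →
        h'.1 σ = (q : ZMod p) * h'.1 σ₀ := by
      intro h' hI' hN'
      have e1 : h'.1 τ = 0 := by
        rw [← hN' τ (τ⁻¹ * ⟨j, hjD⟩) hs, mul_inv_cancel_left]
        exact hI' _ hj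
      have ez : ∀ z : ℤ, h'.1 (σ₀ ^ z) = (z : ZMod p) * h'.1 σ₀ := fun z => by
        rcases Int.eq_nat_or_neg z with ⟨n, rfl | rfl⟩
        · rw [zpow_natCast, chi_pow]; simp
        · rw [zpow_neg, zpow_natCast, chi_inv, chi_pow]; simp
      rw [show τ = σ * σ₀ ^ (-q) from rfl, chi_mul, ez, Int.cast_neg, neg_mul, ← sub_eq_add_neg,
        sub_eq_zero] at e1
      exact e1
    exact ⟨q, val h hI hN, val⟩
  have hN₁ : ∀ u s : C.D, (s : GQ) ∈ N.fixingSubgroup → f.1 (u * s) = f.1 u := fun u s hs =>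
    hf u s (IntermediateField.fixingSubgroup_antitone
      (le_trans (le_trans le_sup_left le_sup_left) hle) hs)
  have hN₂ : ∀ u s : C.D, (s : GQ) ∈ N.fixingSubgroup → g.1 (u * s) = g.1 u := fun u s hs =>
    hg u s (IntermediateField.fixingSubgroup_antitone
      (le_trans (le_trans le_sup_right le_sup_left) hle) hs)
  have hg0 : g.1 σ₀ ≠ 0 := fun h0 => hy0 (by
    rw [kq, cl1_triv_eq_zero_iff]
    refine Subtype.ext (funext fun σ => ?_)
    obtain ⟨q, e, -⟩ := key g hy hN₂ σ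
    simpa [h0] using e)
  refine ⟨f.1 σ₀ / g.1 σ₀, ?_⟩
  rw [kq, kq, ← map_smul]
  congr 1
  refine Subtype.ext (funext fun σ => ?_)
  obtain ⟨q, e, hall⟩ := key f hx hN₁ σ
  rw [SetLike.val_smul, Pi.smul_apply, smul_eq_mul, e, hall g hy hN₂, mul_left_comm,
    div_mul_cancel₀ _ hg0]

end LocalCtx

end

end FermatAgent.Duality.Local
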